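/-
P10 / G7 WP-B (helper5), LF1 part 1 (number fields): the inertia field of a prime of a Galois
number field is unramified at that prime, in the form: `p` generates the maximal ideal of the
localization of `𝓞 E` at the prime below, hence every nonzero element of `𝓞 E` is a unit times a
power of `p` there.
-/
import Fermat.Agent.Lib.S13.AbelianUnramified

set_option autoImplicit false
set_option linter.unusedSectionVars false
set_option linter.style.haveILetI false

open NumberField Ideal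

namespace Fermat.Agent.TW

open Fermat.Agent.CFT.Global Fermat.Agent.S13Lib

variable {F : Type} [Field F] [NumberField F] [IsGalois ℚ F]

/-- the inertia field of `P` is unramified at the prime below `P` -/
theorem lf_ramificationIdx_inertiaField {p : ℕ} [hp : Fact p.Prime] (P : Ideal (𝓞 F)) [P.IsPrime]
    (hpP : ((p : ℕ) : 𝓞 F) ∈ P) :
    (P.under (𝓞 (FixedPoints.intermediateField (P.inertia Gal(F/ℚ)) : IntermediateField ℚ F))
      ).ramificationIdx ℤ = 1 := by
  have hP0 : P ≠ ⊥ := by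
    intro h
    rw [h, Ideal.mem_bot] at hpP
    exact (Nat.cast_ne_zero.2 hp.out.ne_zero) hpP
  set E : IntermediateField ℚ F := FixedPoints.intermediateField (P.inertia Gal(F/ℚ)) with hE
  set 𝔮 : Ideal (𝓞 E) := P.under (𝓞 E) with h𝔮
  have hlo : P.LiesOver 𝔮 := ⟨rfl⟩
  have htower := Ideal.ramificationIdx_tower (R := ℤ) 𝔮 P
  rw [← card_inertia_eq_ramificationIdx hpP, ramificationIdx_fixedField _ P hP0] at htower
  have hsub : Nat.card (P.inertia ↥(P.inertia Gal(F/ℚ))) =
      Nat.card ((P.inertia Gal(F/ℚ)).subgroupOf (P.inertia Gal(F/ℚ))) := rfl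
  rw [hsub, Subgroup.subgroupOf_self, Subgroup.card_top] at htower
  have hpos : 0 < Nat.card (P.inertia Gal(F/ℚ)) := Nat.card_pos
  have h2 : 𝔮.ramificationIdx ℤ * Nat.card (P.inertia Gal(F/ℚ)) =
      1 * Nat.card (P.inertia Gal(F/ℚ)) := by rw [← htower, one_mul]
  exact Nat.eq_of_mul_eq_mul_right hpos h2

section Unif

variable {E : Type} [Field E] [NumberField E]

/-- at an unramified prime `𝔮` over `p`, every nonzero integer is `p ^ k` up to elements outside
`𝔮` -/
theorem lf_exists_mul_eq_pow_mul {p : ℕ} [hp : Fact p.Prime] (𝔮 : Ideal (𝓞 E)) [h𝔮 : 𝔮.IsPrime]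
    (hp𝔮 : ((p : ℕ) : 𝓞 E) ∈ 𝔮) (he : 𝔮.ramificationIdx ℤ = 1) {a : 𝓞 E} (ha : a ≠ 0) :
    ∃ (k : ℕ) (s t : 𝓞 E), s ∉ 𝔮 ∧ t ∉ 𝔮 ∧ s * a = (p : 𝓞 E) ^ k * t := by
  have h𝔮0 : 𝔮 ≠ ⊥ := by
    intro h
    rw [h, Ideal.mem_bot] at hp𝔮
    exact (Nat.cast_ne_zero.2 hp.out.ne_zero) hp𝔮
  set Rq := Localization.AtPrime 𝔮 with hRq
  haveI : IsDiscreteValuationRing Rq :=
    IsLocalization.AtPrime.isDiscreteValuationRing_of_dedekind_domain (𝓞 E) h𝔮0 Rq
  have hlo := liesOver_span_natCast_of_mem hp𝔮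
  -- `p` generates the maximal ideal
  have hmax : (𝔮.under ℤ).map (algebraMap ℤ Rq) = IsLocalRing.maximalIdeal Rq := by
    rw [ramificationIdx_def, ENat.toNat_eq_iff_eq_natCast, Nat.cast_one, Module.length_eq_one_iff,
      isSimpleModule_iff_isCoatom, ← Ideal.isMaximal_def, IsLocalRing.isMaximal_iff] at he
    exact he
  have hunder : 𝔮.under ℤ = Ideal.span {((p : ℕ) : ℤ)} := (hlo.over).symm
  have hirr : Irreducible ((p : ℕ) : Rq) := by
    rw [IsDiscreteValuationRing.irreducible_iff_uniformizer, ← hmax, hunder, Ideal.map_span,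
      Set.image_singleton, map_natCast]
  have ha' : algebraMap (𝓞 E) Rq a ≠ 0 := by
    intro h0
    apply ha
    have hinj : Function.Injective (algebraMap (𝓞 E) Rq) :=
      IsLocalization.injective Rq 𝔮.primeCompl_le_nonZeroDivisors
    exact hinj (by rw [h0, map_zero])
  obtain ⟨k, u, hu⟩ := IsDiscreteValuationRing.eq_unit_mul_pow_irreducible ha' hirr
  obtain ⟨t, s, hts⟩ := IsLocalization.exists_mk'_eq 𝔮.primeCompl (u : Rq)
  have htu : t ∈ 𝔮.primeCompl := by
    rw [← IsLocalization.AtPrime.isUnit_mk'_iff Rq 𝔮 t s, hts]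
    exact u.isUnit
  refine ⟨k, (s : 𝓞 E), t, s.2, htu, ?_⟩
  have hinj : Function.Injective (algebraMap (𝓞 E) Rq) :=
    IsLocalization.injective Rq 𝔮.primeCompl_le_nonZeroDivisors
  apply hinj
  rw [map_mul, hu, ← hts, map_mul, map_pow, map_natCast]
  have h1 : algebraMap (𝓞 E) Rq (s : 𝓞 E) * IsLocalization.mk' Rq t s = algebraMap (𝓞 E) Rq t := by
    rw [mul_comm]
    exact IsLocalization.mk'_spec Rq t s
  calc algebraMap (𝓞 E) Rq (s : 𝓞 E) * (IsLocalization.mk' Rq t s * ((p : ℕ) : Rq) ^ k)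
      = (algebraMap (𝓞 E) Rq (s : 𝓞 E) * IsLocalization.mk' Rq t s) * ((p : ℕ) : Rq) ^ k := by ring
    _ = ((p : ℕ) : Rq) ^ k * algebraMap (𝓞 E) Rq t := by rw [h1]; ring

end Unif

end Fermat.Agent.TW
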