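/-
P10 / G7 WP-B (helper5), LF1: the inertia field `K0 = ℚ̄^I` of a place `𝔓` of `ℚ̄` is unramified:
`v(K0ˣ) = ℤ` (`FFPlace.lf_unr : 𝔓.Unr`).
-/
import Fermat.Agent.Lib.TW.LF.UnrNF
import Fermat.Agent.Lib.TW.Flat.Base
import Fermat.Agent.Lib.CFT.Bridge.UnramifiedLevel

set_option autoImplicit false
set_option linter.unusedSectionVars false
set_option linter.style.haveILetI false

open NumberField Ideal
open scoped IntermediateField

namespace Fermat.Agent.TW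

open Fermat.Agent.CFT Fermat.Agent.CFT.Bridge Fermat.Agent.CFT.Global Fermat.Agent.S05Lib

local notation "Qb" => AlgebraicClosure ℚ

namespace FFPlace

variable (𝔓 : FFPlace)

theorem lf_unr : 𝔓.Unr := by
  intro x hx hx0
  haveI : Fact 𝔓.p.Prime := ⟨𝔓.hp⟩
  set A := 𝔓.P with hA
  set F : IntermediateField ℚ Qb := IntermediateField.normalClosure ℚ ℚ⟮x⟯ Qb with hF
  have hxF : x ∈ F :=
    (IntermediateField.le_normalClosure ℚ⟮x⟯) (IntermediateField.mem_adjoin_simple_self ℚ x)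
  haveI : FiniteDimensional ℚ ℚ⟮x⟯ :=
    IntermediateField.adjoin.finiteDimensional ((AlgebraicClosure.isAlgebraic ℚ).isIntegral.isIntegral x)
  have hfd : @FiniteDimensional ℚ ↥F _ _ (F.algebra').toModule := by
    rw [hF]; infer_instance
  have hnorm : @Normal ℚ ↥F _ _ F.algebra' := by
    rw [hF]; infer_instance
  haveI : NumberField ↥F := numberField_of_finiteDimensional F hfd
  have hgal : @IsGalois ℚ _ ↥F _ F.algebra' := by
    letI : Algebra ℚ ↥F := F.algebra'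
    exact ⟨⟩
  haveI : IsGalois ℚ ↥F := isGalois_toRatAlgebra F hgal
  -- the prime below and its inertia field
  set PF : Ideal (𝓞 ↥F) := primeUnder F A with hPF
  have hpPF : ((𝔓.p : ℕ) : 𝓞 ↥F) ∈ PF := natCast_mem_primeUnder F 𝔓.hP
  set E : IntermediateField ℚ ↥F := FixedPoints.intermediateField (PF.inertia Gal(↥F/ℚ)) with hE
  have he := lf_ramificationIdx_inertiaField (p := 𝔓.p) PF hpPF
  set 𝔮 : Ideal (𝓞 ↥E) := PF.under (𝓞 ↥E) with h𝔮
  -- `x` lies in `E`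
  have hxE : (⟨x, hxF⟩ : ↥F) ∈ E := by
    intro τ
    obtain ⟨σ, hσ, hστ⟩ := exists_mem_inertiaSubgroupIn_restrictRat_eq F hnorm 𝔓.hp 𝔓.hP τ.2
    apply Subtype.ext
    have h1 := restrictRat_coe F hnorm σ ⟨x, hxF⟩
    rw [hστ] at h1
    have h2 : σ x = x := (𝔓.mem_K0_iff x).mp hx σ hσ
    rw [h2] at h1
    exact h1
  -- the valuation of integers of `E`
  set val : 𝓞 ↥E → _ := fun c => A.valuation ((algebraMap (𝓞 ↥F) ↥F (algebraMap (𝓞 ↥E) (𝓞 ↥F) c) : ↥F) : Qb)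
    with hval
  have hval_mul : ∀ c d, val (c * d) = val c * val d := by
    intro c d
    simp only [hval, map_mul, MulMemClass.coe_mul]
  have hval_le : ∀ c, val c ≤ 1 := by
    intro c
    exact (A.valuation_le_one_iff _).mpr (integersToValuationSubring F A (algebraMap (𝓞 ↥E) (𝓞 ↥F) c)).2
  have hval_one : ∀ c, c ∉ 𝔮 → val c = 1 := by
    intro c hc
    refine le_antisymm (hval_le c) (not_lt.mp fun hlt => hc ?_)
    rw [h𝔮, Ideal.under_def, Ideal.mem_comap, hPF, mem_primeUnder_iff]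
    exact hlt
  have hval_p : val ((𝔓.p : ℕ) : 𝓞 ↥E) = A.valuation ((𝔓.p : ℕ) : Qb) := by
    simp only [hval, map_natCast]
    rfl
  have hp𝔮 : ((𝔓.p : ℕ) : 𝓞 ↥E) ∈ 𝔮 := by
    rw [h𝔮, Ideal.under_def, Ideal.mem_comap, map_natCast]
    exact hpPF
  have hπ := qv_pi_pos A 𝔓.hp 𝔓.hP
  have key : ∀ a : 𝓞 ↥E, a ≠ 0 → ∃ k : ℕ, val a = A.valuation ((𝔓.p : ℕ) : Qb) ^ k := by
    intro a ha
    obtain ⟨k, s, t, hs, ht, hst⟩ := lf_exists_mul_eq_pow_mul (p := 𝔓.p) 𝔮 hp𝔮 he ha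
    refine ⟨k, ?_⟩
    have h1 := congrArg val hst
    rw [hval_mul, hval_mul, hval_one s hs, hval_one t ht, one_mul, mul_one] at h1
    rw [h1, ← hval_p]
    simp only [hval, map_pow, SubmonoidClass.coe_pow]
  -- write `x = a / b`
  obtain ⟨a, b, hb, hab⟩ := IsFractionRing.div_surjective (A := 𝓞 ↥E) (⟨⟨x, hxF⟩, hxE⟩ : ↥E)
  have hb0 : b ≠ 0 := nonZeroDivisors.ne_zero hb
  have ha0 : a ≠ 0 := by
    rintro rfl
    rw [map_zero, zero_div] at hab
    apply hx0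
    have := congrArg (fun z : ↥E => ((z : ↥F) : Qb)) hab
    exact this.symm
  obtain ⟨k, hk⟩ := key a ha0
  obtain ⟨k', hk'⟩ := key b hb0
  have hxab : x = ((algebraMap (𝓞 ↥F) ↥F (algebraMap (𝓞 ↥E) (𝓞 ↥F) a) : ↥F) : Qb) /
      ((algebraMap (𝓞 ↥F) ↥F (algebraMap (𝓞 ↥E) (𝓞 ↥F) b) : ↥F) : Qb) := by
    have := congrArg (fun z : ↥E => ((z : ↥F) : Qb)) hab
    simp only at this
    rw [← this]
    rfl
  refine ⟨(k : ℤ) - k', ?_⟩
  have hvx : A.valuation x ^ 1 = A.valuation ((𝔓.p : ℕ) : Qb) ^ ((k : ℤ) - k') := by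
    rw [pow_one, hxab, map_div₀]
    change val a / val b = _
    rw [hk, hk', zpow_sub₀ hπ.1.ne', zpow_natCast, zpow_natCast]
  have := qvOrd_eq A 𝔓.hp 𝔓.hP one_pos hvx
  rw [𝔓.ord_def, this]
  simp

end FFPlace

end Fermat.Agent.TW
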