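/-
P10 / G7 WP-B (helper5), LF0: Galois theory of `ℚ̄ / K0`: the decomposition and inertia groups of a
place `𝔓` of `ℚ̄` are closed, `Gal(ℚ̄ / K0) = I`, and the Galois correspondence above `K0`.
-/
import Fermat.Agent.Lib.TW.LF.Unr

set_option autoImplicit false
set_option linter.unusedSectionVars false
set_option linter.style.haveILetI false

open scoped IntermediateField Pointwise

namespace Fermat.Agent.TW

open Fermat.Agent.CFT Fermat.Agent.CFT.Bridge Fermat.Agent.S05Lib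

local notation "Qb" => AlgebraicClosure ℚ
local notation "GQ" => (AlgebraicClosure ℚ ≃ₐ[ℚ] AlgebraicClosure ℚ)

/-- the set of automorphisms with a prescribed value at a point is open -/
theorem lf_isOpen_setOf_apply_eq (x y : Qb) : IsOpen {σ : GQ | σ x = y} := by
  rw [isOpen_iff_mem_nhds]
  intro σ0 hσ0
  have hopen := stabilizer_isOpen_of_isIntegral (K := ℚ) (L := Qb) x
  have h2 : IsOpen ((Homeomorph.mulLeft σ0) '' (MulAction.stabilizer GQ x : Set GQ)) :=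
    (Homeomorph.mulLeft σ0).isOpenMap _ hopen
  refine Filter.mem_of_superset (h2.mem_nhds ⟨1, one_mem _, by simp⟩) ?_
  rintro _ ⟨τ, hτ, rfl⟩
  have hτx : τ x = x := hτ
  change (σ0 * τ) x = y
  rw [AlgEquiv.mul_apply, hτx]
  exact hσ0

/-- the set of automorphisms mapping a point into a given set is clopen -/
theorem lf_isClopen_setOf_apply_mem (x : Qb) (S : Set Qb) : IsClopen {σ : GQ | σ x ∈ S} := by
  have hop : ∀ T : Set Qb, IsOpen {σ : GQ | σ x ∈ T} := by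
    intro T
    have : {σ : GQ | σ x ∈ T} = ⋃ y ∈ T, {σ : GQ | σ x = y} := by
      ext σ
      simp
    rw [this]
    exact isOpen_biUnion fun y _ => lf_isOpen_setOf_apply_eq x y
  refine ⟨?_, hop S⟩
  rw [← isOpen_compl_iff]
  exact hop Sᶜ

namespace FFPlace

variable (𝔓 : FFPlace)

theorem lf_mem_D_iff (σ : GQ) :
    σ ∈ 𝔓.D ↔ (∀ x ∈ 𝔓.P, σ x ∈ 𝔓.P) ∧ (∀ x ∈ 𝔓.P, σ⁻¹ x ∈ 𝔓.P) := by
  constructor
  · intro hσ
    exact ⟨fun x hx => qv_decomp_mem 𝔓.P hσ hx,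
      fun x hx => qv_decomp_mem 𝔓.P (𝔓.D.inv_mem hσ) hx⟩
  · rintro ⟨h1, h2⟩
    change σ • 𝔓.P = 𝔓.P
    ext y
    constructor
    · rintro ⟨x, hx, rfl⟩
      exact h1 x hx
    · intro hy
      refine ⟨σ⁻¹ y, h2 y hy, ?_⟩
      change σ (σ⁻¹ y) = y
      rw [← AlgEquiv.mul_apply, mul_inv_cancel, AlgEquiv.one_apply]

theorem lf_isClosed_D : IsClosed (𝔓.D : Set GQ) := by
  have : (𝔓.D : Set GQ) = (⋂ x ∈ 𝔓.P, {σ : GQ | σ x ∈ (𝔓.P : Set Qb)}) ∩
      (⋂ x ∈ 𝔓.P, (fun σ : GQ => σ⁻¹) ⁻¹' {σ : GQ | σ x ∈ (𝔓.P : Set Qb)}) := by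
    ext σ
    simp only [SetLike.mem_coe, Set.mem_inter_iff, Set.mem_iInter, Set.mem_ofPred_eq,
      Set.mem_preimage]
    exact 𝔓.lf_mem_D_iff σ
  rw [this]
  refine IsClosed.inter ?_ ?_
  · exact isClosed_biInter fun x _ => (lf_isClopen_setOf_apply_mem x _).1
  · exact isClosed_biInter fun x _ =>
      (lf_isClopen_setOf_apply_mem x _).1.preimage continuous_inv

theorem lf_isClosed_I : IsClosed (𝔓.I : Set GQ) := by
  have : (𝔓.I : Set GQ) = (𝔓.D : Set GQ) ∩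
      ⋂ x ∈ 𝔓.P, {σ : GQ | σ x ∈ {y : Qb | 𝔓.P.valuation (y - x) < 1}} := by
    ext σ
    simp only [SetLike.mem_coe, Set.mem_inter_iff, Set.mem_iInter, Set.mem_ofPred_eq]
    exact mem_inertiaSubgroupIn_iff 𝔓.P σ
  rw [this]
  exact 𝔓.lf_isClosed_D.inter (isClosed_biInter fun x _ => (lf_isClopen_setOf_apply_mem x _).1)

/-- `Gal(ℚ̄ / K0) = I` -/
theorem lf_fixingSubgroup_K0 : 𝔓.K0.fixingSubgroup = 𝔓.I :=
  InfiniteGalois.fixingSubgroup_fixedField ⟨𝔓.I, 𝔓.lf_isClosed_I⟩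

/-- an automorphism fixing `K0` pointwise lies in the inertia group -/
theorem lf_mem_I_of_forall {σ : GQ} (h : ∀ x ∈ 𝔓.K0, σ x = x) : σ ∈ 𝔓.I := by
  rw [← 𝔓.lf_fixingSubgroup_K0, IntermediateField.mem_fixingSubgroup_iff]
  exact h

theorem lf_fixingSubgroup_le {M : IntermediateField ℚ Qb} (hM : 𝔓.K0 ≤ M) :
    M.fixingSubgroup ≤ 𝔓.I := by
  rw [← 𝔓.lf_fixingSubgroup_K0]
  exact IntermediateField.fixingSubgroup_antitone hM

/-- Galois correspondence: membership in an intermediate field is detected by its Galois group -/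
theorem lf_mem_iff_forall (M : IntermediateField ℚ Qb) (x : Qb) :
    x ∈ M ↔ ∀ σ ∈ M.fixingSubgroup, σ x = x := by
  conv_lhs => rw [← InfiniteGalois.fixedField_fixingSubgroup M]
  rw [IntermediateField.mem_fixedField_iff]

end FFPlace

end Fermat.Agent.TW
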