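/-
P10 / G7 WP-B (helper5), LF1' and LF-J: subfields `M ⊇ K0` of `ℚ̄` with discrete value group.

* `FFPlace.LFUnif M ϖ` : `ϖ ∈ M` generates the value group of `M`;
* `FFPlace.lf_ge_sub` (LF-J): for `τ ∈ I` every integral `z ∈ M` satisfies
  `v(τ z - z) ≥ v(τ ϖ - ϖ)` ("`𝒪_M = W[ϖ]` up to any precision, as the residue field does not
  grow");
-/
import Fermat.Agent.Lib.TW.LF.Galois
import Fermat.Agent.Lib.TW.Flat.BaseRing

set_option autoImplicit false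
set_option linter.unusedSectionVars false
set_option linter.style.haveILetI false

open scoped IntermediateField

namespace Fermat.Agent.TW

open Fermat.Agent.S05Lib

local notation "Qb" => AlgebraicClosure ℚ
local notation "GQ" => (AlgebraicClosure ℚ ≃ₐ[ℚ] AlgebraicClosure ℚ)

namespace FFPlace

variable (𝔓 : FFPlace)

/-- `ϖ ∈ M` generates the value group of `M` -/
structure LFUnif (M : IntermediateField ℚ Qb) (ϖ : Qb) : Prop where
  mem : ϖ ∈ M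
  ne_zero : ϖ ≠ 0
  pos : 0 < 𝔓.v.ord ϖ
  gen : ∀ x ∈ M, x ≠ 0 → ∃ k : ℤ, 𝔓.v.ord x = k * 𝔓.v.ord ϖ

variable {𝔓}

lemma LFUnif.is {M : IntermediateField ℚ Qb} {ϖ : Qb} (h : 𝔓.LFUnif M ϖ) :
    𝔓.v.Is ϖ (𝔓.v.ord ϖ) := ⟨h.ne_zero, rfl⟩

/-- an element of `M` of positive valuation is divisible by the uniformiser -/
lemma LFUnif.div_ge {M : IntermediateField ℚ Qb} {ϖ : Qb} (h : 𝔓.LFUnif M ϖ) {x : Qb}
    (hx : x ∈ M) (hpos : 𝔓.v.Gt x 0) : 𝔓.v.Ge (x / ϖ) 0 := by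
  by_cases hx0 : x = 0
  · left; rw [hx0, zero_div]
  right
  obtain ⟨k, hk⟩ := h.gen x hx hx0
  have hxpos : 0 < 𝔓.v.ord x := by
    rcases hpos with h0 | h0
    · exact absurd h0 hx0
    · exact h0
  rw [𝔓.v.ord_div hx0 h.ne_zero, hk]
  have hk1 : (1 : ℤ) ≤ k := by
    by_contra hlt
    have hk0 : k ≤ 0 := by omega
    have : (k : ℚ) * 𝔓.v.ord ϖ ≤ 0 :=
      mul_nonpos_of_nonpos_of_nonneg (by exact_mod_cast hk0) h.pos.le
    rw [hk] at hxpos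
    linarith
  have hk1' : (1 : ℚ) ≤ k := by exact_mod_cast hk1
  nlinarith [h.pos]

/-- one step of the `ϖ`-adic expansion with coefficients in `W` -/
lemma LFUnif.exists_eq_add_mul {M : IntermediateField ℚ Qb} {ϖ : Qb} (h : 𝔓.LFUnif M ϖ)
    (hM : 𝔓.K0 ≤ M) {z : Qb} (hz : z ∈ M) (hz0 : 𝔓.v.Ge z 0) :
    ∃ w ∈ 𝔓.W, ∃ z' ∈ M, 𝔓.v.Ge z' 0 ∧ z = w + ϖ * z' := by
  obtain ⟨w, hw, hgt⟩ := 𝔓.exists_W_sub_gt hz0
  have hwM : w ∈ M := hM (K0_of_W hw)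
  refine ⟨w, hw, (z - w) / ϖ, div_mem (sub_mem hz hwM) h.mem, h.div_ge (sub_mem hz hwM) hgt, ?_⟩
  rw [mul_div_cancel₀ _ h.ne_zero]
  ring

/-- **LF-J.** An element `τ` of the inertia group moves every integer of `M` at least as much as
it moves the uniformiser. -/
theorem lf_ge_sub {M : IntermediateField ℚ Qb} {ϖ : Qb} (h : 𝔓.LFUnif M ϖ) (hM : 𝔓.K0 ≤ M)
    {τ : GQ} (hτ : τ ∈ 𝔓.I) {c : ℚ} (hc : 𝔓.v.Ge (τ ϖ - ϖ) c) {z : Qb} (hz : z ∈ M)
    (hz0 : 𝔓.v.Ge z 0) : 𝔓.v.Ge (τ z - z) c := by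
  have hτD : τ ∈ 𝔓.D := 𝔓.I_le_D hτ
  -- approximate statement
  have key : ∀ j : ℕ, ∀ z ∈ M, 𝔓.v.Ge z 0 → 𝔓.v.Ge (τ z - z) (min c (j * 𝔓.v.ord ϖ)) := by
    intro j
    induction j with
    | zero =>
      intro z _ hz0
      have h1 : 𝔓.v.Ge (τ z - z) 0 := (𝔓.ge_D hτD hz0).sub hz0
      refine h1.mono ?_
      simp
    | succ j ih =>
      intro z hz hz0
      obtain ⟨w, hw, z', hz', hz'0, rfl⟩ := h.exists_eq_add_mul hM hz hz0
      have hτw : τ w = w := ((𝔓.mem_W_iff w).mp hw).2 τ hτ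
      have heq : τ (w + ϖ * z') - (w + ϖ * z') = (τ ϖ - ϖ) * τ z' + ϖ * (τ z' - z') := by
        rw [map_add, map_mul, hτw]; ring
      rw [heq]
      have h1 : 𝔓.v.Ge ((τ ϖ - ϖ) * τ z') (c + 0) := hc.mul (𝔓.ge_D hτD hz'0)
      have h2 : 𝔓.v.Ge (ϖ * (τ z' - z')) (𝔓.v.ord ϖ + min c (j * 𝔓.v.ord ϖ)) :=
        h.is.ge.mul (ih z' hz' hz'0)
      have hpos := h.pos
      refine (h1.mono ?_).add (h2.mono ?_)
      · rw [add_zero]; exact min_le_left _ _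
      · push_cast
        rcases le_total c (j * 𝔓.v.ord ϖ) with hle | hle
        · rw [min_eq_left hle]
          exact (min_le_left _ _).trans (by linarith)
        · rw [min_eq_right hle]
          exact (min_le_right _ _).trans (by linarith)
  obtain ⟨j, hj⟩ := exists_nat_ge (c / 𝔓.v.ord ϖ)
  have hjc : c ≤ j * 𝔓.v.ord ϖ := by
    rwa [div_le_iff₀ h.pos] at hj
  have := key j z hz hz0
  rwa [min_eq_left hjc] at this

end FFPlace

end Fermat.Agent.TW
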