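/-
P10 / G7 WP-B (helper5), LF1': existence of uniformisers for subfields `M ⊇ K0` of `ℚ̄` all of whose
elements have a bounded number of conjugates under the inertia group (e.g. `M / K0` finite).
-/
import Fermat.Agent.Lib.TW.LF.Unif

set_option autoImplicit false
set_option linter.unusedSectionVars false
set_option linter.style.haveILetI false

open scoped IntermediateField

namespace Fermat.Agent.TW

open Fermat.Agent.S05Lib

local notation "Qb" => AlgebraicClosure ℚ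
local notation "GQ" => (AlgebraicClosure ℚ ≃ₐ[ℚ] AlgebraicClosure ℚ)

namespace FFPlace

variable (𝔓 : FFPlace)

/-- valuation of a finite product -/
lemma lf_is_prod {ι : Type*} (s : Finset ι) (f : ι → Qb) (t : ι → ℚ)
    (h : ∀ i ∈ s, 𝔓.v.Is (f i) (t i)) : 𝔓.v.Is (∏ i ∈ s, f i) (∑ i ∈ s, t i) := by
  classical
  induction s using Finset.induction_on with
  | empty => simpa using QVal.is_one
  | insert a s ha ih =>
    rw [Finset.prod_insert ha, Finset.sum_insert ha]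
    exact (h a (Finset.mem_insert_self a s)).mul
      (ih (fun i hi => h i (Finset.mem_insert_of_mem hi)))

/-- every element of `M` has at most `n` conjugates under the inertia group -/
def LFBdd (M : IntermediateField ℚ Qb) (n : ℕ) : Prop :=
  ∀ x ∈ M, ∃ T : Finset Qb, T.card ≤ n ∧ x ∈ T ∧ (∀ σ ∈ 𝔓.I, ∀ ρ ∈ T, σ ρ ∈ T) ∧
    ∀ ρ ∈ T, ∃ σ ∈ 𝔓.I, σ x = ρ

variable {𝔓}

/-- the product over a finite set stable under the inertia group lies in `K0` -/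
lemma lf_prod_mem_K0 {T : Finset Qb} (hT : ∀ σ ∈ 𝔓.I, ∀ ρ ∈ T, σ ρ ∈ T) :
    ∏ ρ ∈ T, ρ ∈ 𝔓.K0 := by
  rw [𝔓.mem_K0_iff]
  intro σ hσ
  rw [map_prod]
  refine Finset.prod_nbij (fun ρ => σ ρ) (fun ρ hρ => hT σ hσ ρ hρ)
    (fun a _ b _ hab => σ.injective hab) ?_ (fun _ _ => rfl)
  have hinj : Set.InjOn (fun ρ => σ ρ) (T : Set Qb) := fun a _ b _ hab => σ.injective hab
  exact Finset.surjOn_of_injOn_of_card_le _ (fun ρ hρ => hT σ hσ ρ hρ) hinj le_rfl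

/-- the valuation of an element with at most `n` conjugates lies in `(1/n!) ℤ` -/
lemma LFBdd.exists_int {M : IntermediateField ℚ Qb} {n : ℕ} (h : 𝔓.LFBdd M n) {x : Qb}
    (hx : x ∈ M) (hx0 : x ≠ 0) : ∃ s : ℤ, 𝔓.v.ord x = (s : ℚ) / (n.factorial : ℚ) := by
  obtain ⟨T, hcard, hxT, hstab, horb⟩ := h x hx
  have hTpos : 0 < T.card := Finset.card_pos.mpr ⟨x, hxT⟩
  have hK0 := lf_prod_mem_K0 hstab
  have hall : ∀ ρ ∈ T, 𝔓.v.Is ρ (𝔓.v.ord x) := by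
    intro ρ hρ
    obtain ⟨σ, hσ, rfl⟩ := horb ρ hρ
    exact 𝔓.is_D (𝔓.I_le_D hσ) ⟨hx0, rfl⟩
  have hprod := 𝔓.lf_is_prod T (fun ρ => ρ) (fun _ => 𝔓.v.ord x) hall
  rw [Finset.sum_const, nsmul_eq_mul] at hprod
  obtain ⟨k, hk⟩ := 𝔓.lf_unr _ hK0 hprod.1
  rw [hprod.2] at hk
  have hdvd : T.card ∣ n.factorial := Nat.dvd_factorial hTpos hcard
  obtain ⟨c, hc⟩ := hdvd
  refine ⟨k * c, ?_⟩
  have hTq : (T.card : ℚ) ≠ 0 := by exact_mod_cast hTpos.ne'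
  have hcq : (c : ℚ) ≠ 0 := by
    intro h0
    have : c = 0 := by exact_mod_cast h0
    rw [this, mul_zero] at hc
    exact (Nat.factorial_pos _).ne' hc
  rw [hc]
  push_cast
  field_simp
  linarith

/-- **Discreteness.** A subfield `M ⊇ ℚ` of `ℚ̄` whose elements have boundedly many conjugates under
the inertia group has a uniformiser. -/
theorem LFBdd.exists_unif {M : IntermediateField ℚ Qb} {n : ℕ} (h : 𝔓.LFBdd M n) :
    ∃ ϖ : Qb, 𝔓.LFUnif M ϖ := by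
  classical
  set N : ℕ := n.factorial with hN
  have hNpos : 0 < N := Nat.factorial_pos _
  have hNq : (0 : ℚ) < N := by exact_mod_cast hNpos
  let P : ℕ → Prop := fun k => 0 < k ∧ ∃ x : Qb, x ∈ M ∧ x ≠ 0 ∧ 𝔓.v.ord x = (k : ℚ) / N
  have hP : ∃ k, P k := by
    refine ⟨N, hNpos, (𝔓.p : Qb), natCast_mem M 𝔓.p, 𝔓.p_ne_zero, ?_⟩
    rw [𝔓.is_p.2, div_self hNq.ne']
  obtain ⟨hk₀pos, ϖ, hϖM, hϖ0, hϖ⟩ := Nat.find_spec hP
  set k₀ := Nat.find hP with hk₀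
  have hk₀q : (0 : ℚ) < k₀ := by exact_mod_cast hk₀pos
  have hϖpos : 0 < 𝔓.v.ord ϖ := by rw [hϖ]; positivity
  refine ⟨ϖ, hϖM, hϖ0, hϖpos, fun x hxM hx0 => ?_⟩
  obtain ⟨s, hs⟩ := h.exists_int hxM hx0
  rw [← hN] at hs
  set c : ℤ := s / k₀ with hc
  set r : ℤ := s % k₀ with hr
  have hk₀z : (0 : ℤ) < k₀ := by exact_mod_cast hk₀pos
  have hr0 : 0 ≤ r := Int.emod_nonneg _ hk₀z.ne'
  have hrlt : r < k₀ := Int.emod_lt_of_pos _ hk₀z
  have hdiv : s = k₀ * c + r := (Int.mul_ediv_add_emod s k₀).symm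
  refine ⟨c, ?_⟩
  set y : Qb := x / ϖ ^ c with hy
  have hyM : y ∈ M := div_mem hxM (zpow_mem hϖM c)
  have hϖc0 : ϖ ^ c ≠ 0 := zpow_ne_zero _ hϖ0
  have hy0 : y ≠ 0 := div_ne_zero hx0 hϖc0
  have hordzpow : 𝔓.v.ord (ϖ ^ c) = c * 𝔓.v.ord ϖ := by
    rcases Int.eq_nat_or_neg c with ⟨m, hm | hm⟩
    · rw [hm, zpow_natCast, 𝔓.v.ord_pow hϖ0]; push_cast; rfl
    · rw [hm, zpow_neg, zpow_natCast, 𝔓.v.ord_inv (pow_ne_zero m hϖ0), 𝔓.v.ord_pow hϖ0]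
      push_cast; ring
  have hordy : 𝔓.v.ord y = (r : ℚ) / N := by
    rw [hy, 𝔓.v.ord_div hx0 hϖc0, hordzpow, hs, hϖ, hdiv]
    push_cast
    field_simp
    ring
  have hr_eq : r = 0 := by
    by_contra hne
    have hrpos : 0 < r := lt_of_le_of_ne hr0 (Ne.symm hne)
    have hmem : P r.toNat := by
      refine ⟨by omega, y, hyM, hy0, ?_⟩
      rw [hordy]
      congr 1
      have : ((r.toNat : ℤ) : ℚ) = (r : ℚ) := by rw [Int.toNat_of_nonneg hr0]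
      exact_mod_cast this.symm
    have := Nat.find_min' hP hmem
    omega
  rw [hs, hϖ, hdiv, hr_eq]
  push_cast
  field_simp
  ring

/-- if the inertia group acts on `M` through a finite group, the conjugates are bounded -/
theorem lf_bdd_of_hom {M : IntermediateField ℚ Qb} {G : Type*} [Group G] [Fintype G]
    (φ : 𝔓.I →* G) (hker : ∀ σ : 𝔓.I, φ σ = 1 → ∀ x ∈ M, (σ : GQ) x = x) :
    𝔓.LFBdd M (Fintype.card G) := by
  classical
  intro x hx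
  -- a section of `φ`
  let F : G → Qb := fun g => if h : ∃ σ : 𝔓.I, φ σ = g then ((h.choose : 𝔓.I) : GQ) x else x
  have hF : ∀ σ : 𝔓.I, F (φ σ) = (σ : GQ) x := by
    intro σ
    have hex : ∃ σ' : 𝔓.I, φ σ' = φ σ := ⟨σ, rfl⟩
    simp only [F, dif_pos hex]
    set σ' := hex.choose with hσ'
    have h1 : φ σ' = φ σ := hex.choose_spec
    have h2 : φ (σ⁻¹ * σ') = 1 := by rw [map_mul, map_inv, h1, inv_mul_cancel]
    have h3 := hker _ h2 x hx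
    have h4 : ((σ⁻¹ * σ' : 𝔓.I) : GQ) x = (σ : GQ)⁻¹ ((σ' : GQ) x) := rfl
    rw [h4] at h3
    have h5 : (σ : GQ) ((σ : GQ)⁻¹ ((σ' : GQ) x)) = (σ : GQ) x := congrArg (fun z => (σ : GQ) z) h3
    rw [← AlgEquiv.mul_apply, mul_inv_cancel, AlgEquiv.one_apply] at h5
    exact h5
  refine ⟨Finset.univ.image F, ?_, ?_, ?_, ?_⟩
  · exact Finset.card_image_le.trans (by simp)
  · rw [Finset.mem_image]
    refine ⟨φ 1, Finset.mem_univ _, ?_⟩
    rw [hF]; rfl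
  · intro τ hτ ρ hρ
    rw [Finset.mem_image] at hρ ⊢
    obtain ⟨g, -, rfl⟩ := hρ
    by_cases h : ∃ σ : 𝔓.I, φ σ = g
    · obtain ⟨σ, rfl⟩ := h
      refine ⟨φ (⟨τ, hτ⟩ * σ), Finset.mem_univ _, ?_⟩
      rw [hF, hF]; rfl
    · refine ⟨φ ⟨τ, hτ⟩, Finset.mem_univ _, ?_⟩
      rw [hF]
      simp only [F, dif_neg h]
  · intro ρ hρ
    rw [Finset.mem_image] at hρ
    obtain ⟨g, -, rfl⟩ := hρ
    by_cases h : ∃ σ : 𝔓.I, φ σ = g
    · obtain ⟨σ, rfl⟩ := h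
      exact ⟨σ, σ.2, (hF σ).symm⟩
    · refine ⟨1, 𝔓.I.one_mem, ?_⟩
      simp only [F, dif_neg h]
      rfl

/-- the ramification index of `M` -/
lemma LFUnif.exists_e {M : IntermediateField ℚ Qb} {ϖ : Qb} (h : 𝔓.LFUnif M ϖ) :
    ∃ e : ℕ, 0 < e ∧ (e : ℚ) * 𝔓.v.ord ϖ = 1 := by
  obtain ⟨k, hk⟩ := h.gen (𝔓.p : Qb) (natCast_mem M 𝔓.p) 𝔓.p_ne_zero
  rw [𝔓.is_p.2] at hk
  have hkpos : 0 < k := by
    by_contra hle
    have hk0 : k ≤ 0 := not_lt.mp hle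
    have : (k : ℚ) * 𝔓.v.ord ϖ ≤ 0 :=
      mul_nonpos_of_nonpos_of_nonneg (by exact_mod_cast hk0) h.pos.le
    linarith
  refine ⟨k.toNat, by omega, ?_⟩
  have : ((k.toNat : ℤ) : ℚ) = (k : ℚ) := by rw [Int.toNat_of_nonneg hkpos.le]
  have h2 : ((k.toNat : ℕ) : ℚ) = (k : ℚ) := by exact_mod_cast this
  rw [h2]
  exact hk.symm

end FFPlace

end Fermat.Agent.TW
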