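/-
P10 / G7 WP-B (helper5): valuation lemmas in `ℚ̄`: sums with a unique term of minimal valuation,
integers prime to `p`, `v(ζ_p - 1) = 1/(p-1)`, `v((1+ε)^r - 1) = v(ε)` for `p ∤ r`.
-/
import Fermat.Agent.Lib.TW.LF.UnifExists

set_option autoImplicit false
set_option linter.unusedSectionVars false
set_option linter.style.haveILetI false

open scoped IntermediateField

namespace Fermat.Agent.TW

open Fermat.Agent.S05Lib

local notation "Qb" => AlgebraicClosure ℚ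
local notation "GQ" => (AlgebraicClosure ℚ ≃ₐ[ℚ] AlgebraicClosure ℚ)

namespace FFPlace

variable (𝔓 : FFPlace)

lemma lf_gt_sum {ι : Type*} (s : Finset ι) (f : ι → Qb) {c : ℚ}
    (h : ∀ i ∈ s, 𝔓.v.Gt (f i) c) : 𝔓.v.Gt (∑ i ∈ s, f i) c := by
  classical
  induction s using Finset.induction_on with
  | empty => simpa using QVal.gt_zero'
  | insert a s ha ih =>
    rw [Finset.sum_insert ha]
    exact (h a (Finset.mem_insert_self a s)).add (ih (fun i hi => h i (Finset.mem_insert_of_mem hi)))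

/-- a finite sum with a unique term of minimal valuation -/
lemma lf_is_sum_of_unique_min {ι : Type*} (s : Finset ι) (f : ι → Qb) {i₀ : ι} (hi₀ : i₀ ∈ s)
    {c : ℚ} (h0 : 𝔓.v.Is (f i₀) c) (h : ∀ i ∈ s, i ≠ i₀ → 𝔓.v.Gt (f i) c) :
    𝔓.v.Is (∑ i ∈ s, f i) c := by
  classical
  rw [← Finset.add_sum_erase s f hi₀]
  refine h0.add_gt (𝔓.lf_gt_sum _ _ fun i hi => ?_)
  exact h i (Finset.mem_of_mem_erase hi) (Finset.ne_of_mem_erase hi)

/-- a finite sum whose nonzero terms have pairwise distinct valuations -/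
lemma lf_is_sum_of_distinct {ι : Type*} (s : Finset ι) (f : ι → Qb) (hne : ∃ i ∈ s, f i ≠ 0)
    (hdist : ∀ i ∈ s, ∀ j ∈ s, f i ≠ 0 → f j ≠ 0 → 𝔓.v.ord (f i) = 𝔓.v.ord (f j) → i = j) :
    ∃ i ∈ s, f i ≠ 0 ∧ 𝔓.v.Is (∑ j ∈ s, f j) (𝔓.v.ord (f i)) := by
  classical
  set s' := s.filter (fun i => f i ≠ 0) with hs'
  have hs'ne : s'.Nonempty := by
    obtain ⟨i, hi, hfi⟩ := hne
    exact ⟨i, Finset.mem_filter.mpr ⟨hi, hfi⟩⟩
  obtain ⟨i₀, hi₀, hmin⟩ := Finset.exists_min_image s' (fun i => 𝔓.v.ord (f i)) hs'ne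
  obtain ⟨hi₀s, hfi₀⟩ := Finset.mem_filter.mp hi₀
  refine ⟨i₀, hi₀s, hfi₀, ?_⟩
  refine 𝔓.lf_is_sum_of_unique_min s f hi₀s ⟨hfi₀, rfl⟩ fun i hi hne' => ?_
  by_cases hfi : f i = 0
  · left; exact hfi
  · right
    have h1 := hmin i (Finset.mem_filter.mpr ⟨hi, hfi⟩)
    refine lt_of_le_of_ne h1 fun heq => hne' ?_
    exact (hdist i₀ hi₀s i hi hfi₀ hfi heq).symm

/-- natural numbers prime to `p` are units -/
lemma lf_is_natCast {n : ℕ} (hn : ¬ 𝔓.p ∣ n) : 𝔓.v.Is ((n : ℕ) : Qb) 0 := by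
  have hn0 : n ≠ 0 := fun h => hn (h ▸ dvd_zero _)
  refine ⟨by exact_mod_cast hn0, ?_⟩
  have h := qvOrd_intCast 𝔓.P 𝔓.hp 𝔓.hP (n := (n : ℤ)) (by exact_mod_cast hn)
  rw [𝔓.ord_def]
  exact_mod_cast h

/-- integers are integral -/
lemma lf_ge_natCast (n : ℕ) : 𝔓.v.Ge ((n : ℕ) : Qb) 0 := by
  rw [← 𝔓.mem_P_iff]
  exact natCast_mem _ n

lemma lf_ge_sum_range_pow {x : Qb} (hx : 𝔓.v.Ge x 0) (n : ℕ) :
    𝔓.v.Ge (∑ k ∈ Finset.range n, x ^ k) 0 :=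
  𝔓.ge_zero_sum _ _ fun k _ => 𝔓.ge_zero_pow hx k

/-- `v((1+ε)^r - 1) = v(ε)` for `v(ε) > 0` and `p ∤ r` -/
lemma lf_is_one_add_pow_sub_one {ε : Qb} {c : ℚ} (hε : 𝔓.v.Is ε c) (hc : 0 < c) {r : ℕ}
    (hr : ¬ 𝔓.p ∣ r) : 𝔓.v.Is ((1 + ε) ^ r - 1) c := by
  have hgeom : (1 + ε) ^ r - 1 = (∑ k ∈ Finset.range r, (1 + ε) ^ k) * ε := by
    have := geom_sum_mul (1 + ε) r
    rw [add_sub_cancel_left] at this
    exact this.symm
  rw [hgeom]
  have hsum : 𝔓.v.Is (∑ k ∈ Finset.range r, (1 + ε) ^ k) 0 := by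
    -- the sum is `r` plus a multiple of `ε`
    have h1 : ∀ k : ℕ, 𝔓.v.Gt ((1 + ε) ^ k - 1) 0 := by
      intro k
      have := geom_sum_mul (1 + ε) k
      rw [add_sub_cancel_left] at this
      have h2 : (1 + ε) ^ k - 1 = (∑ j ∈ Finset.range k, (1 + ε) ^ j) * ε := this.symm
      rw [h2]
      have hge : 𝔓.v.Ge (1 + ε) 0 := (QVal.is_one.ge).add (hε.ge.mono hc.le)
      have := (𝔓.lf_ge_sum_range_pow hge k).mul_gt (hε.gt hc)
      rwa [zero_add] at this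
    have h3 : ∑ k ∈ Finset.range r, (1 + ε) ^ k =
        (r : Qb) + ∑ k ∈ Finset.range r, ((1 + ε) ^ k - 1) := by
      rw [Finset.sum_sub_distrib]; simp
    rw [h3]
    exact (𝔓.lf_is_natCast hr).add_gt (𝔓.lf_gt_sum _ _ fun k _ => h1 k)
  have := hsum.mul hε
  rwa [zero_add] at this

/-- `1 - x^k` is a multiple of `1 - x` -/
lemma lf_ge_one_sub_pow {x : Qb} (hx : 𝔓.v.Ge x 0) {c : ℚ} (h : 𝔓.v.Ge (1 - x) c) (k : ℕ) :
    𝔓.v.Ge (1 - x ^ k) c := by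
  have h1 := geom_sum_mul_neg x k
  rw [← h1]
  have := (𝔓.lf_ge_sum_range_pow hx k).mul h
  rwa [zero_add] at this

/-- **`v(ζ_p - 1) = 1/(p-1)`** -/
theorem lf_is_zeta_sub_one {ζ : Qb} (hζ : IsPrimitiveRoot ζ 𝔓.p) :
    𝔓.v.Is (ζ - 1) (1 / ((𝔓.p : ℚ) - 1)) := by
  have hp := 𝔓.hp
  have hp2 : 2 ≤ 𝔓.p := hp.two_le
  have hζu : 𝔓.v.Is ζ 0 := 𝔓.is_zero_of_pow_eq_one hp.pos hζ.pow_eq_one
  have hne : ∀ k : ℕ, ¬ 𝔓.p ∣ k → 1 - ζ ^ k ≠ 0 := by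
    intro k hk h0
    apply hk
    exact (hζ.pow_eq_one_iff_dvd k).mp (sub_eq_zero.mp h0).symm
  have hne1 : 1 - ζ ≠ 0 := by
    have := hne 1 (fun h => by have := Nat.le_of_dvd one_pos h; omega)
    rwa [pow_one] at this
  set c := 𝔓.v.ord (1 - ζ) with hc
  have hall : ∀ k : ℕ, ¬ 𝔓.p ∣ k → 𝔓.v.Is (1 - ζ ^ k) c := by
    intro k hk
    refine ⟨hne k hk, le_antisymm ?_ ?_⟩
    · -- `ζ = (ζ^k)^k'`
      have hcop : Nat.Coprime k 𝔓.p := (Nat.Prime.coprime_iff_not_dvd hp).mpr hk |>.symm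
      obtain ⟨m, -, hm⟩ := Nat.exists_mul_mod_eq_one_of_coprime hcop (by omega)
      have hζm : (ζ ^ k) ^ m = ζ := by
        rw [← pow_mul]
        have := Nat.div_add_mod (k * m) 𝔓.p
        rw [hm] at this
        rw [← this, pow_add, pow_mul, hζ.pow_eq_one, one_pow, one_mul, pow_one]
      have h1 : 𝔓.v.Ge (1 - ζ ^ k) (𝔓.v.ord (1 - ζ ^ k)) := Or.inr le_rfl
      have h2 := 𝔓.lf_ge_one_sub_pow (by simpa using (hζu.pow k).ge) h1 m
      rw [hζm] at h2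
      rcases h2 with h2 | h2
      · exact absurd h2 hne1
      · exact h2
    · have h1 : 𝔓.v.Ge (1 - ζ) c := Or.inr le_rfl
      rcases 𝔓.lf_ge_one_sub_pow hζu.ge h1 k with h2 | h2
      · exact absurd h2 (hne k hk)
      · exact h2
  obtain ⟨n, hn⟩ : ∃ n, 𝔓.p = n + 1 := ⟨𝔓.p - 1, by omega⟩
  have hprod := IsPrimitiveRoot.prod_one_sub_pow_eq_order (μ := ζ) (n := n) (by rw [← hn]; exact hζ)
  have hIs := 𝔓.lf_is_prod (Finset.range n) (fun k => 1 - ζ ^ (k + 1)) (fun _ => c) (by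
    intro k hk
    refine hall (k + 1) fun hdvd => ?_
    have := Nat.le_of_dvd (Nat.succ_pos k) hdvd
    have := Finset.mem_range.mp hk
    omega)
  rw [hprod, Finset.sum_const, Finset.card_range, nsmul_eq_mul] at hIs
  have hpIs : 𝔓.v.Is ((n : Qb) + 1) 1 := by
    have := 𝔓.is_p
    rw [hn] at this
    exact_mod_cast this
  have hnc : (n : ℚ) * c = 1 := hIs.unique hpIs
  have hnq : (𝔓.p : ℚ) - 1 = n := by rw [hn]; push_cast; ring
  have hn0 : (n : ℚ) ≠ 0 := by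
    intro h0; rw [h0, zero_mul] at hnc; exact zero_ne_one hnc
  have hneg : ζ - 1 = -(1 - ζ) := by ring
  rw [hneg, hnq]
  refine QVal.Is.neg ⟨hne1, ?_⟩
  rw [← hc]
  field_simp
  linarith

end FFPlace

end Fermat.Agent.TW
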