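/-
P10 / G7 WP-B (helper5): simple extensions `E(y)` of subfields of `ℚ̄` (as intermediate fields of
`ℚ̄ / ℚ`), their elements as polynomials of bounded degree in `y`, and their Galois groups.
-/
import Fermat.Agent.Lib.TW.LF.ValLemmas

set_option autoImplicit false
set_option linter.unusedSectionVars false
set_option linter.style.haveILetI false

open scoped IntermediateField
open Polynomial

namespace Fermat.Agent.TW

open Fermat.Agent.S05Lib

local notation "Qb" => AlgebraicClosure ℚ
local notation "GQ" => (AlgebraicClosure ℚ ≃ₐ[ℚ] AlgebraicClosure ℚ)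

/-- the field `E(y)` -/
noncomputable def lfAdjoin (E : IntermediateField ℚ Qb) (y : Qb) : IntermediateField ℚ Qb :=
  (IntermediateField.adjoin ↥E {y}).restrictScalars ℚ

theorem lf_mem_adjoin_iff (E : IntermediateField ℚ Qb) (y x : Qb) :
    x ∈ lfAdjoin E y ↔ x ∈ IntermediateField.adjoin ↥E {y} := Iff.rfl

theorem lf_le_adjoin (E : IntermediateField ℚ Qb) (y : Qb) : E ≤ lfAdjoin E y := by
  intro x hx
  rw [lf_mem_adjoin_iff]
  exact (IntermediateField.adjoin ↥E {y}).algebraMap_mem ⟨x, hx⟩

theorem lf_self_mem_adjoin (E : IntermediateField ℚ Qb) (y : Qb) : y ∈ lfAdjoin E y := by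
  rw [lf_mem_adjoin_iff]
  exact IntermediateField.mem_adjoin_simple_self _ y

/-- `E(y)` is the smallest intermediate field containing `E` and `y` -/
theorem lf_adjoin_le {E M : IntermediateField ℚ Qb} {y : Qb} (hE : E ≤ M) (hy : y ∈ M) :
    lfAdjoin E y ≤ M := by
  intro x hx
  rw [lf_mem_adjoin_iff] at hx
  -- view `M` as an intermediate field over `E`
  let M' : IntermediateField ↥E Qb := IntermediateField.extendScalars hE
  have hle : IntermediateField.adjoin ↥E {y} ≤ M' := by
    rw [IntermediateField.adjoin_le_iff]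
    rintro z rfl
    exact hy
  exact hle hx

/-- elements of `E(y)` are polynomials of degree `< d` in `y` if `y` is a root of a monic polynomial
of degree `d` over `E` -/
theorem lf_exists_eq_sum {E : IntermediateField ℚ Qb} {y : Qb} {f : (↥E)[X]} (hf : f.Monic)
    (hy : aeval y f = 0) {x : Qb} (hx : x ∈ lfAdjoin E y) :
    ∃ a : ℕ → Qb, (∀ j, a j ∈ E) ∧ x = ∑ j ∈ Finset.range f.natDegree, a j * y ^ j := by
  rw [lf_mem_adjoin_iff] at hx
  have hint : IsIntegral ↥E y := ⟨f, hf, hy⟩
  have h1 : x ∈ (IntermediateField.adjoin ↥E {y}).toSubalgebra := hx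
  rw [IntermediateField.adjoin_simple_toSubalgebra_of_isAlgebraic hint.isAlgebraic,
    Algebra.adjoin_singleton_eq_range_aeval] at h1
  obtain ⟨q, rfl⟩ := h1
  set r := q %ₘ f with hr
  have hqr : aeval y q = aeval y r := by
    have h2 := Polynomial.modByMonic_add_div q f
    have h3 := congrArg (aeval y) h2
    rw [map_add, map_mul, hy, zero_mul, add_zero] at h3
    exact h3.symm
  have hdeg : r.natDegree < f.natDegree ∨ f.natDegree = 0 := by
    by_cases hf1 : f = 1
    · right; rw [hf1, natDegree_one]
    · left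
      exact Polynomial.natDegree_modByMonic_lt q hf hf1
  refine ⟨fun j => ((r.coeff j : ↥E) : Qb), fun j => (r.coeff j).2, ?_⟩
  change aeval y q = _
  rw [hqr]
  rcases hdeg with hdeg | hdeg
  · rw [Polynomial.aeval_eq_sum_range' hdeg]
    refine Finset.sum_congr rfl fun j _ => ?_
    rw [Algebra.smul_def]
    rfl
  · have hf1 : f = 1 := by
      have := Polynomial.eq_C_of_natDegree_eq_zero hdeg
      rw [this, ← hdeg]
      have hl : f.coeff f.natDegree = 1 := hf.coeff_natDegree
      rw [hdeg] at hl ⊢
      rw [hl, C_1]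
    rw [hf1, map_one] at hy
    exact absurd hy one_ne_zero

namespace FFPlace

variable (𝔓 : FFPlace)

/-- the Galois group of `E(y)` -/
theorem lf_mem_fixingSubgroup_adjoin_iff (E : IntermediateField ℚ Qb) (y : Qb) (σ : GQ) :
    σ ∈ (lfAdjoin E y).fixingSubgroup ↔ σ ∈ E.fixingSubgroup ∧ σ y = y := by
  constructor
  · intro h
    rw [IntermediateField.mem_fixingSubgroup_iff] at h
    refine ⟨?_, h y (lf_self_mem_adjoin E y)⟩
    rw [IntermediateField.mem_fixingSubgroup_iff]
    exact fun x hx => h x (lf_le_adjoin E y hx)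
  · rintro ⟨h1, h2⟩
    rw [IntermediateField.mem_fixingSubgroup_iff] at h1 ⊢
    -- the fixed field of `σ` contains `E` and `y`
    let M : IntermediateField ℚ Qb := IntermediateField.fixedField (Subgroup.zpowers σ)
    have hM : ∀ x, x ∈ M ↔ σ x = x := by
      intro x
      rw [IntermediateField.mem_fixedField_iff]
      constructor
      · intro h; exact h σ (Subgroup.mem_zpowers σ)
      · intro h τ hτ
        obtain ⟨k, rfl⟩ := Subgroup.mem_zpowers_iff.mp hτ
        have : ∀ n : ℕ, (σ ^ n) x = x := by
          intro n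
          induction n with
          | zero => simp
          | succ n ih => rw [pow_succ, AlgEquiv.mul_apply, h, ih]
        have hinv : ∀ n : ℕ, (σ ^ n)⁻¹ x = x := by
          intro n
          have h3 := this n
          calc (σ ^ n)⁻¹ x = (σ ^ n)⁻¹ ((σ ^ n) x) := by rw [h3]
            _ = x := by rw [← AlgEquiv.mul_apply, inv_mul_cancel, AlgEquiv.one_apply]
        rcases Int.eq_nat_or_neg k with ⟨n, rfl | rfl⟩
        · rw [zpow_natCast]; exact this n
        · rw [zpow_neg, zpow_natCast]; exact hinv n
    have hle : lfAdjoin E y ≤ M :=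
      lf_adjoin_le (fun x hx => (hM x).mpr (h1 x hx)) ((hM y).mpr h2)
    exact fun x hx => (hM x).mp (hle hx)

end FFPlace

end Fermat.Agent.TW
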