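/-
P10 / G7 WP-B (helper5), (KB): Kummer extensions of degree `p` of a subfield `E ⊇ K0(ζ_p)` of `ℚ̄`:
uniformiser of `E(y)`, `y ^ p = u`, and the valuation of `τ ϖ' - ϖ'` (the "Kummer break").
-/
import Fermat.Agent.Lib.TW.LF.Adjoin

set_option autoImplicit false
set_option linter.unusedSectionVars false
set_option linter.style.haveILetI false

open scoped IntermediateField
open Polynomial

namespace Fermat.Agent.TW

open Fermat.Agent.S05Lib

local notation "Qb" => AlgebraicClosure ℚ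
local notation "GQ" => (AlgebraicClosure ℚ ≃ₐ[ℚ] AlgebraicClosure ℚ)

namespace FFPlace

variable (𝔓 : FFPlace)

lemma lf_ord_zpow {x : Qb} (hx : x ≠ 0) (c : ℤ) : 𝔓.v.ord (x ^ c) = c * 𝔓.v.ord x := by
  rcases Int.eq_nat_or_neg c with ⟨m, hm | hm⟩
  · rw [hm, zpow_natCast, 𝔓.v.ord_pow hx]; push_cast; rfl
  · rw [hm, zpow_neg, zpow_natCast, 𝔓.v.ord_inv (pow_ne_zero m hx), 𝔓.v.ord_pow hx]
    push_cast; ring

lemma lf_is_zpow {x : Qb} {a : ℚ} (hx : 𝔓.v.Is x a) (c : ℤ) : 𝔓.v.Is (x ^ c) (c * a) :=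
  ⟨zpow_ne_zero _ hx.1, by rw [𝔓.lf_ord_zpow hx.1, hx.2]⟩

variable {𝔓}

/-- **Uniformiser of a totally ramified extension of degree `p`**: if every element of `M' ⊇ E` is
a polynomial of degree `< p` in `t` with coefficients in `E` and `v(t) = i/(pe)` with `p ∤ i`, then
`π ^ s * t ^ r` (`r i + p s = 1`) generates the value group `(1/(pe)) ℤ` of `M'`. -/
theorem lf_unif_of_span {E M' : IntermediateField ℚ Qb} {π t : Qb} (hπ : 𝔓.LFUnif E π) {e : ℕ}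
    (he : (e : ℚ) * 𝔓.v.ord π = 1) (hEM : E ≤ M') (htM : t ∈ M') {i : ℤ}
    (hi : ¬ (𝔓.p : ℤ) ∣ i) (ht : 𝔓.v.Is t ((i : ℚ) / ((𝔓.p : ℚ) * e)))
    (hspan : ∀ x ∈ M', ∃ a : ℕ → Qb, (∀ j, a j ∈ E) ∧
      x = ∑ j ∈ Finset.range 𝔓.p, a j * t ^ j)
    {r : ℕ} {s : ℤ} (hrs : (r : ℤ) * i + (𝔓.p : ℤ) * s = 1) :
    𝔓.LFUnif M' (π ^ s * t ^ r) ∧ 𝔓.v.Is (π ^ s * t ^ r) (1 / ((𝔓.p : ℚ) * e)) := by
  have hp := 𝔓.hp
  have hpq : (0 : ℚ) < 𝔓.p := by exact_mod_cast hp.pos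
  have he0 : e ≠ 0 := by
    rintro rfl
    simp at he
  have heq : (0 : ℚ) < e := by exact_mod_cast Nat.pos_of_ne_zero he0
  have hordπ : 𝔓.v.ord π = 1 / e := by
    field_simp
    linarith
  have hπis : 𝔓.v.Is π (1 / e) := ⟨hπ.ne_zero, hordπ⟩
  have hrsq : (r : ℚ) * i + (𝔓.p : ℚ) * s = 1 := by exact_mod_cast hrs
  have hϖis : 𝔓.v.Is (π ^ s * t ^ r) (1 / ((𝔓.p : ℚ) * e)) := by
    have h1 := (𝔓.lf_is_zpow hπis s).mul (ht.pow r)
    refine h1.congr ?_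
    field_simp
    linarith
  refine ⟨⟨mul_mem (zpow_mem (hEM hπ.mem) s) (pow_mem htM r), hϖis.1, ?_, ?_⟩, hϖis⟩
  · rw [hϖis.2]; positivity
  · intro x hxM hx0
    obtain ⟨a, haE, rfl⟩ := hspan x hxM
    set f : ℕ → Qb := fun j => a j * t ^ j with hf
    -- valuations of the nonzero terms
    have hterm : ∀ j, f j ≠ 0 → ∃ k : ℤ,
        𝔓.v.ord (f j) = ((𝔓.p : ℤ) * k + j * i : ℤ) / ((𝔓.p : ℚ) * e) := by
      intro j hj
      have haj : a j ≠ 0 := fun h0 => hj (by simp [hf, h0])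
      obtain ⟨k, hk⟩ := hπ.gen (a j) (haE j) haj
      refine ⟨k, ?_⟩
      have h0 : 𝔓.v.Is (a j) (k * (1 / e)) := ⟨haj, by rw [hk, hordπ]⟩
      have h1 : 𝔓.v.Is (f j) (k * (1 / e) + j * ((i : ℚ) / ((𝔓.p : ℚ) * e))) :=
        h0.mul (ht.pow j)
      rw [h1.2]
      push_cast
      field_simp
    have hne : ∃ j ∈ Finset.range 𝔓.p, f j ≠ 0 := by
      by_contra hcon
      push Not at hcon
      exact hx0 (Finset.sum_eq_zero hcon)
    have hdist : ∀ j ∈ Finset.range 𝔓.p, ∀ j' ∈ Finset.range 𝔓.p, f j ≠ 0 → f j' ≠ 0 →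
        𝔓.v.ord (f j) = 𝔓.v.ord (f j') → j = j' := by
      intro j hj j' hj' hfj hfj' hord
      obtain ⟨k, hk⟩ := hterm j hfj
      obtain ⟨k', hk'⟩ := hterm j' hfj'
      rw [hk, hk'] at hord
      have hpe : ((𝔓.p : ℚ) * e) ≠ 0 := by positivity
      have h1 : (((𝔓.p : ℤ) * k + j * i : ℤ) : ℚ) = (((𝔓.p : ℤ) * k' + j' * i : ℤ) : ℚ) := by
        field_simp at hord
        exact hord
      have h2 : (𝔓.p : ℤ) * k + j * i = (𝔓.p : ℤ) * k' + j' * i := by exact_mod_cast h1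
      have h3 : (𝔓.p : ℤ) ∣ ((j : ℤ) - j') * i := ⟨k' - k, by linarith⟩
      have hpz : Prime (𝔓.p : ℤ) := Nat.prime_iff_prime_int.mp hp
      rcases hpz.dvd_or_dvd h3 with h4 | h4
      · have hjlt := Finset.mem_range.mp hj
        have hj'lt := Finset.mem_range.mp hj'
        obtain ⟨c, hc⟩ := h4
        have : c = 0 := by
          by_contra hc0
          have : (1 : ℤ) ≤ |c| := Int.one_le_abs hc0
          have habs : |(j : ℤ) - j'| = (𝔓.p : ℤ) * |c| := by rw [hc, abs_mul, Nat.abs_cast]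
          have hlt : |(j : ℤ) - j'| < 𝔓.p := by
            rw [abs_lt]; constructor <;> omega
          nlinarith
        rw [this, mul_zero] at hc
        omega
      · exact absurd h4 hi
    obtain ⟨j₀, -, hfj₀, hIs⟩ := 𝔓.lf_is_sum_of_distinct (Finset.range 𝔓.p) f hne hdist
    obtain ⟨k, hk⟩ := hterm j₀ hfj₀
    refine ⟨(𝔓.p : ℤ) * k + j₀ * i, ?_⟩
    rw [hIs.2, hk, hϖis.2]
    field_simp

end FFPlace

end Fermat.Agent.TW
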