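/-
P10 / G7 WP-B (helper5), (KB) continued: the Kummer break.

For `E ⊇ K0` with uniformiser `π` (`e·v(π) = 1`), `u ∈ E`, `y ^ p = u`:
* `lf_is_root_sub_one` : `0 < v(u-1) = a < p/(p-1)` implies `v(y-1) = a/p`;
* `lf_kummer_unit`, `lf_kummer_nonunit` : uniformiser `ϖ'` of `E(y)` and the exact value of
  `v(τ ϖ' - ϖ')`;
* `lf_kummer_unit_ge`, `lf_kummer_nonunit_ge` : the resulting lower bound for `v(τ z - z)` on all
  integers `z` of `E(y)` (to be fed into `FFModel.ordGE_act_sub`).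
-/
import Fermat.Agent.Lib.TW.LF.Kummer

set_option autoImplicit false
set_option linter.unusedSectionVars false
set_option linter.style.haveILetI false

open scoped IntermediateField
open Polynomial

namespace Fermat.Agent.TW

open Fermat.Agent.S05Lib

local notation "Qb" => AlgebraicClosure ℚ
local notation "GQ" => (AlgebraicClosure ℚ ≃ₐ[ℚ] AlgebraicClosure ℚ)

namespace FFPlace

variable (𝔓 : FFPlace)

/-- binomial expansion modulo `p` with an integral remainder -/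
lemma lf_exists_one_add_pow {t : Qb} (ht : 𝔓.v.Ge t 0) :
    ∃ r : Qb, 𝔓.v.Ge r 0 ∧ (1 + t) ^ 𝔓.p = 1 + t ^ 𝔓.p + (𝔓.p : Qb) * t * r := by
  have htP : t ∈ 𝔓.P := (𝔓.mem_P_iff t).mpr ht
  obtain ⟨r, hr⟩ := exists_add_pow_prime_eq 𝔓.hp (1 : 𝔓.P) ⟨t, htP⟩
  refine ⟨(r : Qb), (𝔓.mem_P_iff _).mp r.2, ?_⟩
  have := congrArg (fun z : 𝔓.P => (z : Qb)) hr
  simpa using this

/-- **Kummer, unit case**: if `y ^ p = u` and `0 < v(u - 1) = a < p/(p-1)` then `v(y - 1) = a/p` -/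
theorem lf_is_root_sub_one {u y : Qb} (hy : y ^ 𝔓.p = u) {a : ℚ} (hu : 𝔓.v.Is (u - 1) a)
    (ha0 : 0 < a) (ha : a < (𝔓.p : ℚ) / ((𝔓.p : ℚ) - 1)) : 𝔓.v.Is (y - 1) (a / 𝔓.p) := by
  have hp := 𝔓.hp
  have hpq : (1 : ℚ) < 𝔓.p := by exact_mod_cast hp.one_lt
  have hp0 : (0 : ℚ) < 𝔓.p := by linarith
  -- `u` and `y` are units
  have huis : 𝔓.v.Is u 0 := by
    have : u = 1 + (u - 1) := by ring
    rw [this]
    exact QVal.is_one.add_gt (hu.gt ha0)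
  have hy0 : y ≠ 0 := by
    rintro rfl
    rw [zero_pow hp.ne_zero] at hy
    exact huis.1 hy.symm
  have hyis : 𝔓.v.Is y 0 := by
    refine ⟨hy0, ?_⟩
    have h1 := 𝔓.v.ord_pow hy0 𝔓.p
    rw [hy, huis.2] at h1
    rcases mul_eq_zero.mp h1.symm with h | h
    · exact absurd h hp0.ne'
    · exact h
  set t := y - 1 with ht
  have htge : 𝔓.v.Ge t 0 := hyis.ge.sub QVal.is_one.ge
  obtain ⟨r, hr0, hr⟩ := 𝔓.lf_exists_one_add_pow htge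
  have hyt : y = 1 + t := by rw [ht]; ring
  have hexp : u - 1 = t ^ 𝔓.p + (𝔓.p : Qb) * t * r := by
    rw [← hy, hyt, hr]; ring
  have ht0 : t ≠ 0 := by
    intro h0
    rw [h0, zero_pow hp.ne_zero, mul_zero, zero_mul, add_zero] at hexp
    exact hu.1 hexp
  set s := 𝔓.v.ord t with hs
  have htis : 𝔓.v.Is t s := ⟨ht0, rfl⟩
  have hs0 : 0 ≤ s := by
    rcases htge with h | h
    · exact absurd h ht0
    · exact h
  have h1 : 𝔓.v.Is (t ^ 𝔓.p) (𝔓.p * s) := htis.pow 𝔓.p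
  have h2 : 𝔓.v.Ge ((𝔓.p : Qb) * t * r) (1 + s) := by
    have := (𝔓.is_p.mul htis).ge.mul hr0
    rwa [add_zero] at this
  rcases lt_or_ge ((𝔓.p : ℚ) * s) (1 + s) with hlt | hge
  · have h3 := h1.add_gt (h2.gt hlt)
    rw [← hexp] at h3
    have := hu.unique h3
    refine ⟨ht0, ?_⟩
    rw [← hs, this]
    field_simp
  · exfalso
    have h3 : 𝔓.v.Ge (u - 1) (1 + s) := by
      rw [hexp]
      exact (h1.ge.mono hge).add h2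
    have h4 : 1 + s ≤ a := by
      rcases h3 with h | h
      · exact absurd h hu.1
      · rw [hu.2] at h; exact h
    have hp1 : (0 : ℚ) < (𝔓.p : ℚ) - 1 := by linarith
    have h5 : 1 ≤ ((𝔓.p : ℚ) - 1) * s := by linarith
    have h6 : a * ((𝔓.p : ℚ) - 1) < 𝔓.p := by
      rwa [lt_div_iff₀ hp1] at ha
    nlinarith

/-- Bezout with a natural exponent -/
lemma lf_exists_bezout {i : ℤ} (hi : ¬ (𝔓.p : ℤ) ∣ i) :
    ∃ (r : ℕ) (s : ℤ), (r : ℤ) * i + (𝔓.p : ℤ) * s = 1 ∧ ¬ 𝔓.p ∣ r := by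
  have hpz : Prime (𝔓.p : ℤ) := Nat.prime_iff_prime_int.mp 𝔓.hp
  have hcop : IsCoprime i (𝔓.p : ℤ) := (hpz.coprime_iff_not_dvd.mpr hi).symm
  obtain ⟨a, b, hab⟩ := hcop
  have hp0 : (0 : ℤ) < 𝔓.p := by exact_mod_cast 𝔓.hp.pos
  have hr0 : 0 ≤ a % (𝔓.p : ℤ) := Int.emod_nonneg _ hp0.ne'
  have hdiv := Int.mul_ediv_add_emod a (𝔓.p : ℤ)
  have hrs : ((a % (𝔓.p : ℤ)).toNat : ℤ) * i + (𝔓.p : ℤ) * (b + a / (𝔓.p : ℤ) * i) = 1 := by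
    rw [Int.toNat_of_nonneg hr0]
    have : a % (𝔓.p : ℤ) = a - (𝔓.p : ℤ) * (a / (𝔓.p : ℤ)) := by linarith
    rw [this]
    linarith
  refine ⟨(a % (𝔓.p : ℤ)).toNat, b + a / (𝔓.p : ℤ) * i, hrs, fun hdvd => ?_⟩
  have h1 : (𝔓.p : ℤ) ∣ ((a % (𝔓.p : ℤ)).toNat : ℤ) := by exact_mod_cast hdvd
  have h2 : (𝔓.p : ℤ) ∣ 1 := by
    rw [← hrs]
    exact dvd_add (Dvd.dvd.mul_right h1 _) (dvd_mul_right _ _)
  exact hpz.not_isUnit (isUnit_of_dvd_one h2)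

/-- a `p`-th root of unity different from `1` is primitive -/
lemma lf_isPrimitiveRoot {ζ : Qb} (h1 : ζ ^ 𝔓.p = 1) (hne : ζ ≠ 1) : IsPrimitiveRoot ζ 𝔓.p :=
  isPrimitiveRoot_of_mem_nthRootsFinset 𝔓.hp ((mem_nthRootsFinset 𝔓.hp.pos _).mpr h1) hne

/-- the quotient of two `p`-th roots of the same element -/
lemma lf_root_div {u y : Qb} (hy : y ^ 𝔓.p = u) (hu0 : u ≠ 0) {τ : GQ} (hτu : τ u = u)
    (hτy : τ y ≠ y) : IsPrimitiveRoot (τ y / y) 𝔓.p := by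
  have hy0 : y ≠ 0 := by
    rintro rfl
    rw [zero_pow 𝔓.hp.ne_zero] at hy
    exact hu0 hy.symm
  refine 𝔓.lf_isPrimitiveRoot ?_ ?_
  · rw [div_pow, ← map_pow, hy, hτu, div_self hu0]
  · intro h
    rw [div_eq_one_iff_eq hy0] at h
    exact hτy h

variable {𝔓}

/-- **Kummer break, non-unit case** (`p ∤ e·v(u)`): `E(u^{1/p})` has the uniformiser
`ϖ' = π ^ s * y ^ r` of valuation `1/(pe)` and `v(τ ϖ' - ϖ') = 1/(pe) + 1/(p-1)` for every `τ`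
of `Gal(ℚ̄/E)` moving `y`. -/
theorem lf_kummer_nonunit {E : IntermediateField ℚ Qb} {π : Qb} (hπ : 𝔓.LFUnif E π) {e : ℕ}
    (he : (e : ℚ) * 𝔓.v.ord π = 1) {u y : Qb} (hu : u ∈ E) (hy : y ^ 𝔓.p = u) {n : ℤ}
    (hn : ¬ (𝔓.p : ℤ) ∣ n) (hun : 𝔓.v.Is u ((n : ℚ) / e)) :
    ∃ ϖ' : Qb, 𝔓.LFUnif (lfAdjoin E y) ϖ' ∧ 𝔓.v.Is ϖ' (1 / ((𝔓.p : ℚ) * e)) ∧
      ∀ τ ∈ E.fixingSubgroup, τ y ≠ y →
        𝔓.v.Is (τ ϖ' - ϖ') (1 / ((𝔓.p : ℚ) * e) + 1 / ((𝔓.p : ℚ) - 1)) := by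
  have hp := 𝔓.hp
  have hp0 : (0 : ℚ) < 𝔓.p := by exact_mod_cast hp.pos
  have he0 : e ≠ 0 := by
    rintro rfl
    simp at he
  have heq : (0 : ℚ) < e := by exact_mod_cast Nat.pos_of_ne_zero he0
  have hu0 : u ≠ 0 := hun.1
  have hy0 : y ≠ 0 := by
    rintro rfl
    rw [zero_pow hp.ne_zero] at hy
    exact hu0 hy.symm
  have hyis : 𝔓.v.Is y ((n : ℚ) / ((𝔓.p : ℚ) * e)) := by
    refine ⟨hy0, ?_⟩
    have h1 := 𝔓.v.ord_pow hy0 𝔓.p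
    rw [hy, hun.2] at h1
    field_simp
    field_simp at h1
    linarith
  -- the polynomial
  set f : (↥E)[X] := X ^ 𝔓.p - C (⟨u, hu⟩ : ↥E) with hf
  have hfm : f.Monic := monic_X_pow_sub_C _ hp.ne_zero
  have hfd : f.natDegree = 𝔓.p := natDegree_X_pow_sub_C
  have hfy : aeval y f = 0 := by
    rw [hf, map_sub, map_pow, aeval_X, aeval_C, hy]
    exact sub_self _
  have hspan : ∀ x ∈ lfAdjoin E y, ∃ a : ℕ → Qb, (∀ j, a j ∈ E) ∧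
      x = ∑ j ∈ Finset.range 𝔓.p, a j * y ^ j := by
    intro x hx
    have := lf_exists_eq_sum hfm hfy hx
    rwa [hfd] at this
  obtain ⟨r, s, hrs, hr⟩ := 𝔓.lf_exists_bezout hn
  obtain ⟨hunif, hϖis⟩ := lf_unif_of_span hπ he (lf_le_adjoin E y) (lf_self_mem_adjoin E y) hn hyis
    hspan hrs
  refine ⟨π ^ s * y ^ r, hunif, hϖis, fun τ hτ hτy => ?_⟩
  rw [IntermediateField.mem_fixingSubgroup_iff] at hτ
  have hτπ : τ π = π := hτ π hπ.mem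
  have hζ := 𝔓.lf_root_div hy hu0 (hτ u hu) hτy
  set ζ := τ y / y with hζdef
  have hτy' : τ y = ζ * y := by rw [hζdef, div_mul_cancel₀ _ hy0]
  have hζr : IsPrimitiveRoot (ζ ^ r) 𝔓.p :=
    hζ.pow_of_coprime r ((Nat.Prime.coprime_iff_not_dvd hp).mpr hr).symm
  have h1 : τ (π ^ s * y ^ r) - π ^ s * y ^ r = (ζ ^ r - 1) * (π ^ s * y ^ r) := by
    rw [map_mul, map_zpow₀, map_pow, hτπ, hτy', mul_pow]; ring
  rw [h1]
  have := (𝔓.lf_is_zeta_sub_one hζr).mul hϖis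
  refine this.congr ?_
  ring

/-- **Kummer break, unit case** (`v(u - 1) = i/e`, `p ∤ i`, `0 < i < pe/(p-1)`): `E(u^{1/p})` has
the uniformiser `ϖ' = π ^ s * (y - 1) ^ r` of valuation `1/(pe)` and
`v(τ ϖ' - ϖ') = 1/(pe) + 1/(p-1) - i/(pe)` for every `τ` of `Gal(ℚ̄/E)` moving `y`. -/
theorem lf_kummer_unit {E : IntermediateField ℚ Qb} {π : Qb} (hπ : 𝔓.LFUnif E π) {e : ℕ}
    (he : (e : ℚ) * 𝔓.v.ord π = 1) {u y : Qb} (hu : u ∈ E) (hy : y ^ 𝔓.p = u) {i : ℕ}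
    (hi : ¬ 𝔓.p ∣ i) (hi0 : 0 < i) (hui : 𝔓.v.Is (u - 1) ((i : ℚ) / e))
    (hlt : (i : ℚ) / e < (𝔓.p : ℚ) / ((𝔓.p : ℚ) - 1)) :
    ∃ ϖ' : Qb, 𝔓.LFUnif (lfAdjoin E y) ϖ' ∧ 𝔓.v.Is ϖ' (1 / ((𝔓.p : ℚ) * e)) ∧
      ∀ τ ∈ E.fixingSubgroup, τ y ≠ y →
        𝔓.v.Is (τ ϖ' - ϖ')
          (1 / ((𝔓.p : ℚ) * e) + 1 / ((𝔓.p : ℚ) - 1) - (i : ℚ) / ((𝔓.p : ℚ) * e)) := by
  have hp := 𝔓.hp
  have hp0 : (0 : ℚ) < 𝔓.p := by exact_mod_cast hp.pos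
  have hp1 : (0 : ℚ) < (𝔓.p : ℚ) - 1 := by
    have : (1 : ℚ) < 𝔓.p := by exact_mod_cast hp.one_lt
    linarith
  have he0 : e ≠ 0 := by
    rintro rfl
    simp at he
  have heq : (0 : ℚ) < e := by exact_mod_cast Nat.pos_of_ne_zero he0
  have hiq : (0 : ℚ) < i := by exact_mod_cast hi0
  have ha0 : (0 : ℚ) < (i : ℚ) / e := by positivity
  set t := y - 1 with ht
  have htis : 𝔓.v.Is t (((i : ℤ) : ℚ) / ((𝔓.p : ℚ) * e)) := by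
    have := 𝔓.lf_is_root_sub_one hy hui ha0 hlt
    refine this.congr ?_
    push_cast
    field_simp
  have htpos : (0 : ℚ) < ((i : ℤ) : ℚ) / ((𝔓.p : ℚ) * e) := by push_cast; positivity
  have hyt : y = 1 + t := by rw [ht]; ring
  have hyis : 𝔓.v.Is y 0 := by
    rw [hyt]
    exact QVal.is_one.add_gt (htis.gt htpos)
  have hy0 : y ≠ 0 := hyis.1
  have hu0 : u ≠ 0 := by rw [← hy]; exact pow_ne_zero _ hy0
  -- the polynomial of `t`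
  set f : (↥E)[X] := (X + C 1) ^ 𝔓.p - C (⟨u, hu⟩ : ↥E) with hf
  have hXm : ((X + C 1 : (↥E)[X]) ^ 𝔓.p).Monic := (monic_X_add_C (1 : ↥E)).pow 𝔓.p
  have hXd : ((X + C 1 : (↥E)[X]) ^ 𝔓.p).natDegree = 𝔓.p := by
    rw [(monic_X_add_C (1 : ↥E)).natDegree_pow, natDegree_X_add_C, mul_one]
  have hCd : (C (⟨u, hu⟩ : ↥E)).natDegree < ((X + C 1 : (↥E)[X]) ^ 𝔓.p).natDegree := by
    rw [hXd, natDegree_C]; exact hp.pos
  have hfm : f.Monic := hXm.sub_of_left (degree_lt_degree hCd)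
  have hfd : f.natDegree = 𝔓.p := by
    rw [hf, natDegree_sub_eq_left_of_natDegree_lt hCd, hXd]
  have hft : aeval t f = 0 := by
    rw [hf, map_sub, map_pow, map_add, aeval_X, aeval_C, aeval_C, map_one]
    have : t + 1 = y := by rw [ht]; ring
    rw [this, hy]
    exact sub_self _
  have htM : t ∈ lfAdjoin E y :=
    sub_mem (lf_self_mem_adjoin E y) (one_mem _)
  have hle : lfAdjoin E y ≤ lfAdjoin E t := by
    refine lf_adjoin_le (lf_le_adjoin E t) ?_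
    rw [hyt]
    exact add_mem (one_mem _) (lf_self_mem_adjoin E t)
  have hspan : ∀ x ∈ lfAdjoin E y, ∃ a : ℕ → Qb, (∀ j, a j ∈ E) ∧
      x = ∑ j ∈ Finset.range 𝔓.p, a j * t ^ j := by
    intro x hx
    have := lf_exists_eq_sum hfm hft (hle hx)
    rwa [hfd] at this
  have hiz : ¬ (𝔓.p : ℤ) ∣ (i : ℤ) := by exact_mod_cast hi
  obtain ⟨r, s, hrs, hr⟩ := 𝔓.lf_exists_bezout hiz
  obtain ⟨hunif, hϖis⟩ := lf_unif_of_span hπ he (lf_le_adjoin E y) htM hiz htis hspan hrs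
  refine ⟨π ^ s * t ^ r, hunif, hϖis, fun τ hτ hτy => ?_⟩
  rw [IntermediateField.mem_fixingSubgroup_iff] at hτ
  have hτπ : τ π = π := hτ π hπ.mem
  have hζ := 𝔓.lf_root_div hy hu0 (hτ u hu) hτy
  set ζ := τ y / y with hζdef
  have hτy' : τ y = ζ * y := by rw [hζdef, div_mul_cancel₀ _ hy0]
  set ε := (ζ - 1) * y / t with hε
  have hεis : 𝔓.v.Is ε (1 / ((𝔓.p : ℚ) - 1) - (i : ℚ) / ((𝔓.p : ℚ) * e)) := by
    have := ((𝔓.lf_is_zeta_sub_one hζ).mul hyis).div htis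
    refine this.congr ?_
    push_cast
    ring
  have hεpos : 0 < 1 / ((𝔓.p : ℚ) - 1) - (i : ℚ) / ((𝔓.p : ℚ) * e) := by
    rw [sub_pos, div_lt_div_iff₀ (by positivity) hp1]
    rw [div_lt_div_iff₀ heq hp1] at hlt
    nlinarith
  have hτt : τ t = t * (1 + ε) := by
    rw [ht, map_sub, map_one, hτy', hε, ← ht, mul_add, mul_one, mul_div_cancel₀ _ htis.1, ht]
    ring
  have h1 : τ (π ^ s * t ^ r) - π ^ s * t ^ r = (π ^ s * t ^ r) * ((1 + ε) ^ r - 1) := by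
    rw [map_mul, map_zpow₀, map_pow, hτπ, hτt, mul_pow]; ring
  rw [h1]
  have := hϖis.mul (𝔓.lf_is_one_add_pow_sub_one hεis hεpos hr)
  refine this.congr ?_
  ring

/-- an element of `Gal(ℚ̄/E)` fixing `y` fixes `E(y)` -/
lemma lf_apply_eq_of_mem_adjoin {E : IntermediateField ℚ Qb} {y : Qb} {τ : GQ}
    (hτ : τ ∈ E.fixingSubgroup) (hτy : τ y = y) {z : Qb} (hz : z ∈ lfAdjoin E y) : τ z = z := by
  have := (lf_mem_fixingSubgroup_adjoin_iff E y τ).mpr ⟨hτ, hτy⟩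
  rw [IntermediateField.mem_fixingSubgroup_iff] at this
  exact this z hz

/-- **(KB)+(LF-J), unit case**: every element of `Gal(ℚ̄/E)` moves the integers of `E(u^{1/p})` by
at least `1/(pe) + 1/(p-1) - i/(pe)`. -/
theorem lf_kummer_unit_ge {E : IntermediateField ℚ Qb} (hE : 𝔓.K0 ≤ E) {π : Qb}
    (hπ : 𝔓.LFUnif E π) {e : ℕ} (he : (e : ℚ) * 𝔓.v.ord π = 1) {u y : Qb} (hu : u ∈ E)
    (hy : y ^ 𝔓.p = u) {i : ℕ} (hi : ¬ 𝔓.p ∣ i) (hi0 : 0 < i)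
    (hui : 𝔓.v.Is (u - 1) ((i : ℚ) / e))
    (hlt : (i : ℚ) / e < (𝔓.p : ℚ) / ((𝔓.p : ℚ) - 1)) {τ : GQ} (hτ : τ ∈ E.fixingSubgroup)
    {z : Qb} (hz : z ∈ lfAdjoin E y) (hz0 : 𝔓.v.Ge z 0) :
    𝔓.v.Ge (τ z - z)
      (1 / ((𝔓.p : ℚ) * e) + 1 / ((𝔓.p : ℚ) - 1) - (i : ℚ) / ((𝔓.p : ℚ) * e)) := by
  by_cases hτy : τ y = y
  · left
    rw [lf_apply_eq_of_mem_adjoin hτ hτy hz, sub_self]
  · obtain ⟨ϖ', hunif, -, hbreak⟩ := lf_kummer_unit hπ he hu hy hi hi0 hui hlt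
    exact lf_ge_sub hunif (hE.trans (lf_le_adjoin E y)) (𝔓.lf_fixingSubgroup_le hE hτ)
      (hbreak τ hτ hτy).ge hz hz0

/-- **(KB)+(LF-J), non-unit case**: every element of `Gal(ℚ̄/E)` moves the integers of
`E(u^{1/p})`, `p ∤ e·v(u)`, by at least `1/(pe) + 1/(p-1)`. -/
theorem lf_kummer_nonunit_ge {E : IntermediateField ℚ Qb} (hE : 𝔓.K0 ≤ E) {π : Qb}
    (hπ : 𝔓.LFUnif E π) {e : ℕ} (he : (e : ℚ) * 𝔓.v.ord π = 1) {u y : Qb} (hu : u ∈ E)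
    (hy : y ^ 𝔓.p = u) {n : ℤ} (hn : ¬ (𝔓.p : ℤ) ∣ n) (hun : 𝔓.v.Is u ((n : ℚ) / e))
    {τ : GQ} (hτ : τ ∈ E.fixingSubgroup) {z : Qb} (hz : z ∈ lfAdjoin E y)
    (hz0 : 𝔓.v.Ge z 0) :
    𝔓.v.Ge (τ z - z) (1 / ((𝔓.p : ℚ) * e) + 1 / ((𝔓.p : ℚ) - 1)) := by
  by_cases hτy : τ y = y
  · left
    rw [lf_apply_eq_of_mem_adjoin hτ hτy hz, sub_self]
  · obtain ⟨ϖ', hunif, -, hbreak⟩ := lf_kummer_nonunit hπ he hu hy hn hun
    exact lf_ge_sub hunif (hE.trans (lf_le_adjoin E y)) (𝔓.lf_fixingSubgroup_le hE hτ)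
      (hbreak τ hτ hτy).ge hz hz0

end FFPlace

end Fermat.Agent.TW
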