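/-
P10 / G7 WP-B (helper5), (UF): the unit filtration of a subfield `E ⊇ K0(ζ_p)` of `ℚ̄` with
uniformiser `π`, `e·v(π) = 1`, modulo `p`-th powers.

* `lf_not_is_pow_sub_one` (UF-b) : for `p ∤ i < pe/(p-1)` no `p`-th power lies in `U^(i) \ U^(i+1)`;
* `lf_exists_pow_mul_gt` (UF-a) : for `p ∣ i < pe/(p-1)`: `U^(i) ⊆ U^(i+1) (Eˣ)^p`;
* `lf_exists_root_of_ge` (UF-c) : `U^(i) ⊆ (Eˣ)^p` for `i ≥ pe/(p-1)`;
* `lf_kummer_classify` : every class of `Eˣ/(Eˣ)^p` is of non-unit type, trivial, or a principal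
  unit of a level `i` prime to `p`, `0 < i < pe/(p-1)` (`LFLevel`).
-/
import Fermat.Agent.Lib.TW.LF.KummerBreak

set_option autoImplicit false
set_option linter.unusedSectionVars false
set_option linter.style.haveILetI false

open scoped IntermediateField
open Polynomial

namespace Fermat.Agent.TW

open Fermat.Agent.S05Lib

local notation "Qb" => AlgebraicClosure ℚ
local notation "GQ" => (AlgebraicClosure ℚ ≃ₐ[ℚ] AlgebraicClosure ℚ)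

namespace FFPlace

variable {𝔓 : FFPlace}

/-- **(UF-b)** for `p ∤ i`, `0 < i < pe/(p-1)` there is no `p`-th power of `E` in
`U^(i) \ U^(i+1)` -/
theorem lf_not_is_pow_sub_one {E : IntermediateField ℚ Qb} {π : Qb} (hπ : 𝔓.LFUnif E π) {e : ℕ}
    (he : (e : ℚ) * 𝔓.v.ord π = 1) {i : ℕ} (hi : ¬ 𝔓.p ∣ i) (hi0 : 0 < i)
    (hlt : (i : ℚ) / e < (𝔓.p : ℚ) / ((𝔓.p : ℚ) - 1)) {w : Qb} (hw : w ∈ E) :
    ¬ 𝔓.v.Is (w ^ 𝔓.p - 1) ((i : ℚ) / e) := by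
  intro h
  have hp0 : (0 : ℚ) < 𝔓.p := by exact_mod_cast 𝔓.hp.pos
  have he0 : e ≠ 0 := by
    rintro rfl
    simp at he
  have heq : (0 : ℚ) < e := by exact_mod_cast Nat.pos_of_ne_zero he0
  have hiq : (0 : ℚ) < i := by exact_mod_cast hi0
  have h1 := 𝔓.lf_is_root_sub_one (y := w) rfl h (by positivity) hlt
  obtain ⟨k, hk⟩ := hπ.gen (w - 1) (sub_mem hw (one_mem _)) h1.1
  rw [h1.2] at hk
  have hordπ : 𝔓.v.ord π = 1 / e := by
    field_simp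
    linarith
  rw [hordπ] at hk
  have h2 : (i : ℚ) = (𝔓.p : ℚ) * k := by
    field_simp at hk
    linarith
  have h3 : (i : ℤ) = (𝔓.p : ℤ) * k := by exact_mod_cast h2
  apply hi
  have : (𝔓.p : ℤ) ∣ (i : ℤ) := ⟨k, h3⟩
  exact_mod_cast this

/-- **(UF-a)** for `p ∣ i`, `0 < i < pe/(p-1)`: `U^(i) ⊆ U^(i+1) · (Eˣ)^p` -/
theorem lf_exists_pow_mul_gt {E : IntermediateField ℚ Qb} (hE : 𝔓.K0 ≤ E) {π : Qb}
    (hπ : 𝔓.LFUnif E π) {e : ℕ} (he : (e : ℚ) * 𝔓.v.ord π = 1) {i : ℕ} (hi : 𝔓.p ∣ i)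
    (hi0 : 0 < i) (hlt : (i : ℚ) / e < (𝔓.p : ℚ) / ((𝔓.p : ℚ) - 1)) {u : Qb}
    (hui : 𝔓.v.Is (u - 1) ((i : ℚ) / e)) :
    ∃ w ∈ E, 𝔓.v.Is w 0 ∧ 𝔓.v.Gt (u / w ^ 𝔓.p - 1) ((i : ℚ) / e) := by
  have hp := 𝔓.hp
  have hp0 : (0 : ℚ) < 𝔓.p := by exact_mod_cast hp.pos
  have hp1 : (0 : ℚ) < (𝔓.p : ℚ) - 1 := by
    have : (1 : ℚ) < 𝔓.p := by exact_mod_cast hp.one_lt
    linarith
  have he0 : e ≠ 0 := by
    rintro rfl
    simp at he
  have heq : (0 : ℚ) < e := by exact_mod_cast Nat.pos_of_ne_zero he0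
  have hiq : (0 : ℚ) < i := by exact_mod_cast hi0
  have hordπ : 𝔓.v.ord π = 1 / e := by
    field_simp
    linarith
  have hπis : 𝔓.v.Is π (1 / e) := ⟨hπ.ne_zero, hordπ⟩
  obtain ⟨i', rfl⟩ := hi
  have hi'q : (0 : ℚ) < i' := by
    have : 0 < i' := Nat.pos_of_mul_pos_left hi0 |> fun h => by
      rcases Nat.eq_zero_or_pos i' with h0 | h0
      · rw [h0, mul_zero] at hi0; exact absurd hi0 (lt_irrefl _)
      · exact h0
    exact_mod_cast this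
  set b : Qb := π ^ i' with hb
  have hbE : b ∈ E := pow_mem hπ.mem i'
  have hbis : 𝔓.v.Is b ((i' : ℚ) / e) := by
    have := hπis.pow i'
    refine this.congr ?_
    ring
  have hbpis : 𝔓.v.Is (b ^ 𝔓.p) (((𝔓.p * i' : ℕ) : ℚ) / e) := by
    have := hbis.pow 𝔓.p
    refine this.congr ?_
    push_cast
    ring
  -- the leading coefficient
  set q0 : Qb := (u - 1) / b ^ 𝔓.p with hq0
  have hq0is : 𝔓.v.Is q0 0 := by
    have := hui.div hbpis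
    rwa [sub_self] at this
  obtain ⟨c0, hc0W, hc0⟩ := 𝔓.exists_W_sub_gt hq0is.ge
  obtain ⟨c, hcW, t', ht'W, hct⟩ := 𝔓.lf_unr.exists_pth_root hc0W
  have hcge : 𝔓.v.Ge c 0 := ((𝔓.mem_W_iff c).mp hcW).1
  have ht'ge : 𝔓.v.Ge t' 0 := ((𝔓.mem_W_iff t').mp ht'W).1
  have hqc : 𝔓.v.Gt (q0 - c ^ 𝔓.p) 0 := by
    have h1 : q0 - c ^ 𝔓.p = (q0 - c0) + (𝔓.p : Qb) * t' := by rw [hct]; ring
    rw [h1]
    refine hc0.add ?_
    have := 𝔓.is_p.ge.mul ht'ge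
    rw [add_zero] at this
    exact this.gt one_pos
  have hcE : c ∈ E := hE (K0_of_W hcW)
  -- the root
  set tt : Qb := c * b with htt
  have httge : 𝔓.v.Ge tt ((i' : ℚ) / e) := by
    have := hcge.mul hbis.ge
    rwa [zero_add] at this
  have httpos : 𝔓.v.Gt tt 0 := httge.gt (by positivity)
  obtain ⟨r, hr0, hr⟩ := 𝔓.lf_exists_one_add_pow httpos.ge
  set w : Qb := 1 + tt with hw
  have hwE : w ∈ E := add_mem (one_mem _) (mul_mem hcE hbE)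
  have hwis : 𝔓.v.Is w 0 := QVal.is_one.add_gt httpos
  refine ⟨w, hwE, hwis, ?_⟩
  have hwp : 𝔓.v.Is (w ^ 𝔓.p) 0 := by simpa using hwis.pow 𝔓.p
  have hdiff : u - w ^ 𝔓.p = b ^ 𝔓.p * (q0 - c ^ 𝔓.p) - (𝔓.p : Qb) * tt * r := by
    rw [hr, hq0, htt, mul_sub, mul_div_cancel₀ _ hbpis.1]
    ring
  have h1 : 𝔓.v.Gt (b ^ 𝔓.p * (q0 - c ^ 𝔓.p)) (((𝔓.p * i' : ℕ) : ℚ) / e) := by
    have := hbpis.ge.mul_gt hqc
    rwa [add_zero] at this
  have h2 : 𝔓.v.Gt ((𝔓.p : Qb) * tt * r) (((𝔓.p * i' : ℕ) : ℚ) / e) := by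
    have h3 : 𝔓.v.Ge ((𝔓.p : Qb) * tt * r) (1 + (i' : ℚ) / e + 0) :=
      (𝔓.is_p.ge.mul httge).mul hr0
    refine h3.gt ?_
    push_cast at hlt ⊢
    rw [div_lt_div_iff₀ heq hp1] at hlt
    rw [add_zero, div_lt_iff₀ heq]
    have : (1 + (i' : ℚ) / e) * e = e + i' := by field_simp
    rw [this]
    nlinarith
  have h4 : 𝔓.v.Gt (u - w ^ 𝔓.p) (((𝔓.p * i' : ℕ) : ℚ) / e) := by
    rw [hdiff]; exact h1.sub h2
  have h5 : u / w ^ 𝔓.p - 1 = (u - w ^ 𝔓.p) / w ^ 𝔓.p := by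
    field_simp [hwp.1]
  rw [h5]
  have := h4.div_is hwp
  rwa [sub_zero] at this

/-- **(UF-c)** `U^(i) ⊆ (Eˣ)^p` for `i ≥ pe/(p-1)` (`ζ_p ∈ E ⊇ K0`): a root `y` of `X^p = u`
with `v(y - 1) ≥ 1/(p-1)` exists and is fixed by `Gal(ℚ̄/E)` because inertia acts trivially on the
residue of `(y - 1)/(ζ - 1)`. -/
theorem lf_exists_root_of_ge {E : IntermediateField ℚ Qb} (hE : 𝔓.K0 ≤ E) {ζ : Qb}
    (hζ : IsPrimitiveRoot ζ 𝔓.p) (hζE : ζ ∈ E) {u : Qb} (hu : u ∈ E)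
    (h : 𝔓.v.Ge (u - 1) ((𝔓.p : ℚ) / ((𝔓.p : ℚ) - 1))) : ∃ w ∈ E, w ^ 𝔓.p = u := by
  classical
  have hp := 𝔓.hp
  have hp0 : (0 : ℚ) < 𝔓.p := by exact_mod_cast hp.pos
  have hp1 : (0 : ℚ) < (𝔓.p : ℚ) - 1 := by
    have : (1 : ℚ) < 𝔓.p := by exact_mod_cast hp.one_lt
    linarith
  have hlam := 𝔓.lf_is_zeta_sub_one hζ
  -- `u` is a unit
  have huis : 𝔓.v.Is u 0 := by
    have : u = 1 + (u - 1) := by ring
    rw [this]
    exact QVal.is_one.add_gt (h.gt (by positivity))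
  -- a root
  obtain ⟨y, hy⟩ := IsAlgClosed.exists_pow_nat_eq u hp.pos
  have hy0 : y ≠ 0 := by
    rintro rfl
    rw [zero_pow hp.ne_zero] at hy
    exact huis.1 hy.symm
  have hyis : 𝔓.v.Is y 0 := by
    refine ⟨hy0, ?_⟩
    have h1 := 𝔓.v.ord_pow hy0 𝔓.p
    rw [hy, huis.2] at h1
    rcases mul_eq_zero.mp h1.symm with h | h
    · exact absurd h hp0.ne'
    · exact h
  -- the product formula
  have hprod : ∏ k ∈ Finset.range 𝔓.p, (1 - ζ ^ k * y) = 1 - u := by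
    have h1 := X_pow_sub_C_eq_prod hζ hp.pos hy
    have h2 := congrArg (Polynomial.eval 1) h1
    simp only [eval_sub, eval_pow, eval_X, one_pow, eval_C, eval_prod] at h2
    exact h2.symm
  -- some root is close to `1`
  have hex : ∃ k ∈ Finset.range 𝔓.p, 𝔓.v.Ge (1 - ζ ^ k * y) (1 / ((𝔓.p : ℚ) - 1)) := by
    by_contra hcon
    push Not at hcon
    have hlt : ∀ k ∈ Finset.range 𝔓.p, 𝔓.v.Lt (1 - ζ ^ k * y) (1 / ((𝔓.p : ℚ) - 1)) := by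
      intro k hk
      rcases 𝔓.v.lt_or_ge (1 - ζ ^ k * y) (1 / ((𝔓.p : ℚ) - 1)) with h1 | h1
      · exact h1
      · exact absurd h1 (hcon k hk)
    have hIs := 𝔓.lf_is_prod (Finset.range 𝔓.p) (fun k => 1 - ζ ^ k * y)
      (fun k => 𝔓.v.ord (1 - ζ ^ k * y)) (fun k hk => ⟨(hlt k hk).1, rfl⟩)
    rw [hprod] at hIs
    have hsum : ∑ k ∈ Finset.range 𝔓.p, 𝔓.v.ord (1 - ζ ^ k * y) <
        ∑ _k ∈ Finset.range 𝔓.p, (1 / ((𝔓.p : ℚ) - 1)) :=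
      Finset.sum_lt_sum_of_nonempty ⟨0, Finset.mem_range.mpr hp.pos⟩ (fun k hk => (hlt k hk).2)
    rw [Finset.sum_const, Finset.card_range, nsmul_eq_mul] at hsum
    have hge : 𝔓.v.Ge (1 - u) ((𝔓.p : ℚ) / ((𝔓.p : ℚ) - 1)) := by
      have := h.neg
      rwa [neg_sub] at this
    have h3 : (𝔓.p : ℚ) * (1 / ((𝔓.p : ℚ) - 1)) = (𝔓.p : ℚ) / ((𝔓.p : ℚ) - 1) := by ring
    rw [h3] at hsum
    exact hIs.not_ge hge hsum
  obtain ⟨k, -, hk⟩ := hex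
  set w : Qb := ζ ^ k * y with hw
  have hwp : w ^ 𝔓.p = u := by
    rw [hw, mul_pow, ← pow_mul, mul_comm k, pow_mul, hζ.pow_eq_one, one_pow, one_mul, hy]
  have hwis : 𝔓.v.Is w 0 := by
    have := ((𝔓.is_zero_of_pow_eq_one hp.pos hζ.pow_eq_one).pow k).mul hyis
    simpa using this
  refine ⟨w, ?_, hwp⟩
  -- `w` is fixed by `Gal(ℚ̄/E)`
  rw [lf_mem_iff_forall]
  intro σ hσ
  by_contra hne
  have hσI : σ ∈ 𝔓.I := 𝔓.lf_fixingSubgroup_le hE hσ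
  rw [IntermediateField.mem_fixingSubgroup_iff] at hσ
  have hζ' := 𝔓.lf_root_div hwp huis.1 (hσ u hu) hne
  set ζ' := σ w / w with hζ'def
  have hσw : σ w = ζ' * w := by rw [hζ'def, div_mul_cancel₀ _ hwis.1]
  -- the integral element `z = (w - 1)/(ζ - 1)`
  set z : Qb := (w - 1) / (ζ - 1) with hz
  have hzge : 𝔓.v.Ge z 0 := by
    have h1 : 𝔓.v.Ge (w - 1) (1 / ((𝔓.p : ℚ) - 1)) := by
      have := hk.neg
      rwa [neg_sub] at this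
    have := h1.div_is hlam
    rwa [sub_self] at this
  have hgt := 𝔓.gt_I_sub hσI hzge
  have hσz : σ z - z = (ζ' - 1) * w / (ζ - 1) := by
    rw [hz, map_div₀, map_sub, map_sub, map_one, hσ ζ hζE, hσw]
    field_simp [hlam.1]
    ring
  rw [hσz] at hgt
  have hIs : 𝔓.v.Is ((ζ' - 1) * w / (ζ - 1)) 0 := by
    have := ((𝔓.lf_is_zeta_sub_one hζ').mul hwis).div hlam
    refine this.congr ?_
    ring
  exact hIs.not_gt hgt le_rfl

/-- the unit-type alternative in the classification of Kummer classes -/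
def LFLevel (𝔓 : FFPlace) (E : IntermediateField ℚ Qb) (e : ℕ) (u : Qb) : Prop :=
  ∃ w ∈ E, w ≠ 0 ∧ (u = w ^ 𝔓.p ∨ ∃ i : ℕ, 0 < i ∧ ¬ 𝔓.p ∣ i ∧
    (i : ℚ) / e < (𝔓.p : ℚ) / ((𝔓.p : ℚ) - 1) ∧ 𝔓.v.Is (u / w ^ 𝔓.p - 1) ((i : ℚ) / e))

lemma LFLevel.of_div {E : IntermediateField ℚ Qb} {e : ℕ} {u w₀ : Qb} (hw₀ : w₀ ∈ E)
    (hw₀0 : w₀ ≠ 0) (h : 𝔓.LFLevel E e (u / w₀ ^ 𝔓.p)) : 𝔓.LFLevel E e u := by
  obtain ⟨w, hwE, hw0, h⟩ := h
  refine ⟨w * w₀, mul_mem hwE hw₀, mul_ne_zero hw0 hw₀0, ?_⟩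
  have hw₀p : w₀ ^ 𝔓.p ≠ 0 := pow_ne_zero _ hw₀0
  rcases h with h | ⟨i, hi0, hi, hlt, hIs⟩
  · left
    rw [mul_pow, ← h, div_mul_cancel₀ _ hw₀p]
  · right
    refine ⟨i, hi0, hi, hlt, ?_⟩
    have : u / (w * w₀) ^ 𝔓.p = u / w₀ ^ 𝔓.p / w ^ 𝔓.p := by
      rw [mul_pow, div_div, mul_comm]
    rwa [this]

/-- principal units are `p`-th powers or have a level -/
theorem lf_level_of_gt {E : IntermediateField ℚ Qb} (hE : 𝔓.K0 ≤ E) {π : Qb}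
    (hπ : 𝔓.LFUnif E π) {e : ℕ} (he : (e : ℚ) * 𝔓.v.ord π = 1) {ζ : Qb}
    (hζ : IsPrimitiveRoot ζ 𝔓.p) (hζE : ζ ∈ E) {u : Qb} (hu : u ∈ E)
    (hgt : 𝔓.v.Gt (u - 1) 0) : 𝔓.LFLevel E e u := by
  have hp := 𝔓.hp
  have hp0 : (0 : ℚ) < 𝔓.p := by exact_mod_cast hp.pos
  have hp1 : (1 : ℚ) ≤ (𝔓.p : ℚ) - 1 := by
    have : (2 : ℚ) ≤ 𝔓.p := by exact_mod_cast hp.two_le
    linarith
  have he0 : e ≠ 0 := by
    rintro rfl
    simp at he
  have heq : (0 : ℚ) < e := by exact_mod_cast Nat.pos_of_ne_zero he0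
  have hordπ : 𝔓.v.ord π = 1 / e := by
    field_simp
    linarith
  have hbound : (𝔓.p : ℚ) / ((𝔓.p : ℚ) - 1) ≤ 2 := by
    rw [div_le_iff₀ (by linarith)]
    linarith
  -- induction on the distance to `2e`
  have key : ∀ m : ℕ, ∀ u ∈ E, 𝔓.v.Gt (u - 1) 0 →
      (∀ i : ℕ, 𝔓.v.Is (u - 1) ((i : ℚ) / e) → 2 * e ≤ i + m) → 𝔓.LFLevel E e u := by
    intro m
    induction m with
    | zero =>
      intro u hu hgt hb
      by_cases hu1 : u - 1 = 0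
      · exact ⟨1, one_mem _, one_ne_zero, Or.inl (by rw [one_pow]; exact sub_eq_zero.mp hu1)⟩
      obtain ⟨k, hk⟩ := hπ.gen (u - 1) (sub_mem hu (one_mem _)) hu1
      rw [hordπ] at hk
      have hkpos : 0 < k := by
        rcases hgt with h | h
        · exact absurd h hu1
        · rw [hk] at h
          by_contra hle
          have hk0 : (k : ℚ) ≤ 0 := by exact_mod_cast not_lt.mp hle
          have : (k : ℚ) * (1 / e) ≤ 0 := mul_nonpos_of_nonpos_of_nonneg hk0 (by positivity)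
          linarith
      have hkn : ((k.toNat : ℕ) : ℚ) = (k : ℚ) := by
        have : ((k.toNat : ℤ) : ℚ) = (k : ℚ) := by rw [Int.toNat_of_nonneg hkpos.le]
        exact_mod_cast this
      have hIs : 𝔓.v.Is (u - 1) ((k.toNat : ℚ) / e) := ⟨hu1, by rw [hk, hkn]; ring⟩
      have h2 := hb _ hIs
      rw [add_zero] at h2
      have h3 : (2 : ℚ) ≤ (k.toNat : ℚ) / e := by
        rw [le_div_iff₀ heq]
        exact_mod_cast h2
      obtain ⟨w, hwE, hw⟩ := lf_exists_root_of_ge hE hζ hζE hu (hIs.ge.mono (hbound.trans h3))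
      have hw0 : w ≠ 0 := by
        rintro rfl
        rw [zero_pow hp.ne_zero] at hw
        rw [← hw, zero_sub] at hgt
        exact (QVal.is_one (v := 𝔓.v)).neg.not_gt hgt le_rfl
      exact ⟨w, hwE, hw0, Or.inl hw.symm⟩
    | succ m ih =>
      intro u hu hgt hb
      by_cases hu1 : u - 1 = 0
      · exact ⟨1, one_mem _, one_ne_zero, Or.inl (by rw [one_pow]; exact sub_eq_zero.mp hu1)⟩
      obtain ⟨k, hk⟩ := hπ.gen (u - 1) (sub_mem hu (one_mem _)) hu1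
      rw [hordπ] at hk
      have hkpos : 0 < k := by
        rcases hgt with h | h
        · exact absurd h hu1
        · rw [hk] at h
          by_contra hle
          have hk0 : (k : ℚ) ≤ 0 := by exact_mod_cast not_lt.mp hle
          have : (k : ℚ) * (1 / e) ≤ 0 := mul_nonpos_of_nonpos_of_nonneg hk0 (by positivity)
          linarith
      set i := k.toNat with hi
      have hkn : ((i : ℕ) : ℚ) = (k : ℚ) := by
        have : ((k.toNat : ℤ) : ℚ) = (k : ℚ) := by rw [Int.toNat_of_nonneg hkpos.le]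
        exact_mod_cast this
      have hi0 : 0 < i := by omega
      have hIs : 𝔓.v.Is (u - 1) ((i : ℚ) / e) := ⟨hu1, by rw [hk, hkn]; ring⟩
      rcases lt_or_ge ((i : ℚ) / e) ((𝔓.p : ℚ) / ((𝔓.p : ℚ) - 1)) with hlt | hge
      · by_cases hpi : 𝔓.p ∣ i
        · obtain ⟨w, hwE, hwis, hwgt⟩ := lf_exists_pow_mul_gt hE hπ he hpi hi0 hlt hIs
          refine LFLevel.of_div hwE hwis.1 (ih _ (div_mem hu (pow_mem hwE _))
            (hwgt.mono (by positivity)) ?_)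
          intro i' hIs'
          have hlt' : (i : ℚ) / e < (i' : ℚ) / e := by
            rcases hwgt with h | h
            · exact absurd h hIs'.1
            · rwa [hIs'.2] at h
          have h4 : (i : ℚ) < i' := by
            rwa [div_lt_div_iff_of_pos_right heq] at hlt'
          have h5 : i < i' := by exact_mod_cast h4
          have := hb i hIs
          omega
        · refine ⟨1, one_mem _, one_ne_zero, Or.inr ⟨i, hi0, hpi, hlt, ?_⟩⟩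
          rwa [one_pow, div_one]
      · obtain ⟨w, hwE, hw⟩ := lf_exists_root_of_ge hE hζ hζE hu (hIs.ge.mono hge)
        have hw0 : w ≠ 0 := by
          rintro rfl
          rw [zero_pow hp.ne_zero] at hw
          rw [← hw, zero_sub] at hgt
          exact (QVal.is_one (v := 𝔓.v)).neg.not_gt hgt le_rfl
        exact ⟨w, hwE, hw0, Or.inl hw.symm⟩
  exact key (2 * e) u hu hgt (fun i _ => by omega)

/-- **Classification of Kummer classes of `E ⊇ K0(ζ_p)`**: modulo `p`-th powers every `u ∈ Eˣ`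
is either of non-unit type (`p ∤ e·v(u)`), or a `p`-th power, or a principal unit of level `i`
with `p ∤ i`, `0 < i < pe/(p-1)`. -/
theorem lf_kummer_classify {E : IntermediateField ℚ Qb} (hE : 𝔓.K0 ≤ E) {π : Qb}
    (hπ : 𝔓.LFUnif E π) {e : ℕ} (he : (e : ℚ) * 𝔓.v.ord π = 1) {ζ : Qb}
    (hζ : IsPrimitiveRoot ζ 𝔓.p) (hζE : ζ ∈ E) {u : Qb} (hu : u ∈ E) (hu0 : u ≠ 0) :
    (∃ n : ℤ, ¬ (𝔓.p : ℤ) ∣ n ∧ 𝔓.v.Is u ((n : ℚ) / e)) ∨ 𝔓.LFLevel E e u := by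
  have hp := 𝔓.hp
  have hp0 : (0 : ℚ) < 𝔓.p := by exact_mod_cast hp.pos
  have he0 : e ≠ 0 := by
    rintro rfl
    simp at he
  have heq : (0 : ℚ) < e := by exact_mod_cast Nat.pos_of_ne_zero he0
  have hordπ : 𝔓.v.ord π = 1 / e := by
    field_simp
    linarith
  have hπis : 𝔓.v.Is π (1 / e) := ⟨hπ.ne_zero, hordπ⟩
  obtain ⟨n, hn⟩ := hπ.gen u hu hu0
  rw [hordπ] at hn
  by_cases hpn : (𝔓.p : ℤ) ∣ n
  swap
  · exact Or.inl ⟨n, hpn, hu0, by rw [hn]; ring⟩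
  right
  obtain ⟨n', rfl⟩ := hpn
  -- remove the power of the uniformiser
  set w₁ : Qb := π ^ n' with hw₁
  have hw₁E : w₁ ∈ E := zpow_mem hπ.mem n'
  have hw₁0 : w₁ ≠ 0 := zpow_ne_zero _ hπ.ne_zero
  have hw₁is : 𝔓.v.Is (w₁ ^ 𝔓.p) ((((𝔓.p : ℤ) * n' : ℤ) : ℚ) * (1 / e)) := by
    have := (𝔓.lf_is_zpow hπis n').pow 𝔓.p
    refine this.congr ?_
    push_cast
    ring
  refine LFLevel.of_div hw₁E hw₁0 ?_
  set u₁ : Qb := u / w₁ ^ 𝔓.p with hu₁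
  have hu₁E : u₁ ∈ E := div_mem hu (pow_mem hw₁E _)
  have hu₁is : 𝔓.v.Is u₁ 0 := by
    have hu_is : 𝔓.v.Is u ((((𝔓.p : ℤ) * n' : ℤ) : ℚ) * (1 / e)) := ⟨hu0, hn⟩
    have := hu_is.div hw₁is
    rwa [sub_self] at this
  -- remove the residue
  obtain ⟨c0, hc0W, hc0⟩ := 𝔓.exists_W_sub_gt hu₁is.ge
  obtain ⟨c, hcW, t', ht'W, hct⟩ := 𝔓.lf_unr.exists_pth_root hc0W
  have ht'ge : 𝔓.v.Ge t' 0 := ((𝔓.mem_W_iff t').mp ht'W).1
  have hcE : c ∈ E := hE (K0_of_W hcW)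
  have huc : 𝔓.v.Gt (u₁ - c ^ 𝔓.p) 0 := by
    have h1 : u₁ - c ^ 𝔓.p = (u₁ - c0) + (𝔓.p : Qb) * t' := by rw [hct]; ring
    rw [h1]
    refine hc0.add ?_
    have := 𝔓.is_p.ge.mul ht'ge
    rw [add_zero] at this
    exact this.gt one_pos
  have hcpis : 𝔓.v.Is (c ^ 𝔓.p) 0 := by
    have h1 : c ^ 𝔓.p = u₁ - (u₁ - c ^ 𝔓.p) := by ring
    rw [h1]
    exact hu₁is.sub_gt huc
  have hc0' : c ≠ 0 := by
    rintro rfl
    rw [zero_pow hp.ne_zero] at hcpis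
    exact hcpis.1 rfl
  refine LFLevel.of_div hcE hc0' ?_
  refine lf_level_of_gt hE hπ he hζ hζE (div_mem hu₁E (pow_mem hcE _)) ?_
  have h2 : u₁ / c ^ 𝔓.p - 1 = (u₁ - c ^ 𝔓.p) / c ^ 𝔓.p := by
    field_simp [hcpis.1]
  rw [h2]
  have := huc.div_is hcpis
  rwa [sub_zero] at this

end FFPlace

end Fermat.Agent.TW
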