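/-
P10 / G7 WP-B (helper5), (RL): lifting an element of the inertia group from `M'` to a larger field
with controlled depth; orbits under subgroups acting through finite quotients.
-/
import Fermat.Agent.Lib.TW.LF.UnitFiltration

set_option autoImplicit false
set_option linter.unusedSectionVars false
set_option linter.style.haveILetI false

open scoped IntermediateField
open Polynomial

namespace Fermat.Agent.TW

open Fermat.Agent.S05Lib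

local notation "Qb" => AlgebraicClosure ℚ
local notation "GQ" => (AlgebraicClosure ℚ ≃ₐ[ℚ] AlgebraicClosure ℚ)

namespace FFPlace

variable {𝔓 : FFPlace}

/-- coefficients of a product of monic linear factors with integral roots are integral -/
lemma lf_coeff_prod_ge (T : Finset Qb) (hT : ∀ ρ ∈ T, 𝔓.v.Ge ρ 0) (j : ℕ) :
    𝔓.v.Ge ((∏ ρ ∈ T, (X - C ρ)).coeff j) 0 := by
  have hmem : (∏ ρ ∈ T, (X - C ρ)) ∈ Polynomial.lifts 𝔓.P.subtype := by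
    refine Subsemiring.prod_mem _ fun ρ hρ => ?_
    have hρP : ρ ∈ 𝔓.P := (𝔓.mem_P_iff ρ).mpr (hT ρ hρ)
    have h1 : (X - C ρ : Qb[X]) = X + C (-ρ) := by rw [C_neg]; ring
    rw [h1]
    refine Subsemiring.add_mem _ (X_mem_lifts _) ?_
    exact C'_mem_lifts ⟨⟨-ρ, neg_mem hρP⟩, rfl⟩
  rw [Polynomial.lifts_iff_coeff_lifts] at hmem
  obtain ⟨a, ha⟩ := hmem j
  rw [← ha]
  exact (𝔓.mem_P_iff _).mp a.2

/-- a polynomial whose set of roots is stable under a group of automorphisms is invariant -/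
lemma lf_map_prod_eq (T : Finset Qb) {σ : GQ} (hσ : ∀ ρ ∈ T, σ ρ ∈ T) :
    (∏ ρ ∈ T, (X - C ρ)).map (σ : Qb →+* Qb) = ∏ ρ ∈ T, (X - C ρ) := by
  rw [Polynomial.map_prod]
  have h1 : ∀ ρ ∈ T, (X - C ρ : Qb[X]).map (σ : Qb →+* Qb) = X - C (σ ρ) := by
    intro ρ _
    rw [Polynomial.map_sub, map_X, map_C]
    rfl
  rw [Finset.prod_congr rfl h1]
  refine Finset.prod_nbij (fun ρ => σ ρ) hσ (fun a _ b _ hab => σ.injective hab) ?_
    (fun _ _ => rfl)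
  have hinj : Set.InjOn (fun ρ => σ ρ) (T : Set Qb) := fun a _ b _ hab => σ.injective hab
  exact Finset.surjOn_of_injOn_of_card_le _ hσ hinj le_rfl

/-- **(RL)** Lifting with controlled depth: if `τ'` moves the integers of `M'` by at least `c` and
`ϖ` has `d` conjugates over `M'`, then some `τ ∈ I` with `τ = τ'` on `M'` moves `ϖ` by at least
`c / d` (the easy half of Serre, Local Fields IV Prop. 3). -/
theorem lf_exists_lift_ge {M' : IntermediateField ℚ Qb} (hM' : 𝔓.K0 ≤ M') {ϖ : Qb}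
    (hϖ : 𝔓.v.Ge ϖ 0) (T : Finset Qb) (hϖT : ϖ ∈ T)
    (hstab : ∀ σ ∈ M'.fixingSubgroup, ∀ ρ ∈ T, σ ρ ∈ T)
    (horb : ∀ ρ ∈ T, ∃ σ ∈ M'.fixingSubgroup, σ ϖ = ρ)
    {τ' : GQ} (hτ' : τ' ∈ 𝔓.I) {c : ℚ}
    (hc : ∀ a ∈ M', 𝔓.v.Ge a 0 → 𝔓.v.Ge (τ' a - a) c) :
    ∃ τ ∈ 𝔓.I, (∀ x ∈ M', τ x = τ' x) ∧ 𝔓.v.Ge (τ ϖ - ϖ) (c / T.card) := by
  classical
  have hTpos : 0 < T.card := Finset.card_pos.mpr ⟨ϖ, hϖT⟩
  have hTq : (0 : ℚ) < T.card := by exact_mod_cast hTpos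
  have hsubI : M'.fixingSubgroup ≤ 𝔓.I := 𝔓.lf_fixingSubgroup_le hM'
  have hTge : ∀ ρ ∈ T, 𝔓.v.Ge ρ 0 := by
    intro ρ hρ
    obtain ⟨σ, hσ, rfl⟩ := horb ρ hρ
    exact 𝔓.ge_D (𝔓.I_le_D (hsubI hσ)) hϖ
  set f : Qb[X] := ∏ ρ ∈ T, (X - C ρ) with hf
  have hfϖ : f.eval ϖ = 0 := by
    rw [hf, eval_prod]
    exact Finset.prod_eq_zero hϖT (by simp)
  have hcoeffM : ∀ j, f.coeff j ∈ M' := by
    intro j
    rw [lf_mem_iff_forall]
    intro σ hσ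
    have h1 := lf_map_prod_eq T (hstab σ hσ)
    have h2 := congrArg (fun g : Qb[X] => g.coeff j) h1
    simp only [coeff_map] at h2
    exact h2
  have hcoeffge : ∀ j, 𝔓.v.Ge (f.coeff j) 0 := lf_coeff_prod_ge T hTge
  -- evaluate `τ' f` at `ϖ`
  set g : Qb[X] := f.map (τ' : Qb →+* Qb) with hg
  have hgeval : 𝔓.v.Ge (g.eval ϖ) c := by
    have hn1 : f.natDegree < f.natDegree + 1 := Nat.lt_succ_self _
    have hn2 : g.natDegree < f.natDegree + 1 :=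
      lt_of_le_of_lt (natDegree_map_le) hn1
    have h1 : g.eval ϖ = g.eval ϖ - f.eval ϖ := by rw [hfϖ, sub_zero]
    rw [h1, eval_eq_sum_range' hn1, eval_eq_sum_range' hn2, ← Finset.sum_sub_distrib]
    refine 𝔓.ge_zero_sum _ _ fun j _ => ?_
    rw [hg, coeff_map, ← sub_mul]
    have h2 := (hc _ (hcoeffM j) (hcoeffge j)).mul (𝔓.ge_zero_pow hϖ j)
    rwa [add_zero] at h2
  have hgprod : g.eval ϖ = ∏ ρ ∈ T, (ϖ - τ' ρ) := by
    rw [hg, hf, Polynomial.map_prod, eval_prod]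
    refine Finset.prod_congr rfl fun ρ _ => ?_
    rw [Polynomial.map_sub, map_X, map_C, eval_sub, eval_X, eval_C]
    rfl
  -- some factor is small
  have hex : ∃ ρ ∈ T, 𝔓.v.Ge (ϖ - τ' ρ) (c / T.card) := by
    by_contra hcon
    push Not at hcon
    have hlt : ∀ ρ ∈ T, 𝔓.v.Lt (ϖ - τ' ρ) (c / T.card) := by
      intro ρ hρ
      rcases 𝔓.v.lt_or_ge (ϖ - τ' ρ) (c / T.card) with h1 | h1
      · exact h1
      · exact absurd h1 (hcon ρ hρ)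
    have hIs := 𝔓.lf_is_prod T (fun ρ => ϖ - τ' ρ) (fun ρ => 𝔓.v.ord (ϖ - τ' ρ))
      (fun ρ hρ => ⟨(hlt ρ hρ).1, rfl⟩)
    rw [← hgprod] at hIs
    have hsum : ∑ ρ ∈ T, 𝔓.v.ord (ϖ - τ' ρ) < ∑ _ρ ∈ T, (c / T.card) :=
      Finset.sum_lt_sum_of_nonempty ⟨ϖ, hϖT⟩ (fun ρ hρ => (hlt ρ hρ).2)
    rw [Finset.sum_const, nsmul_eq_mul, mul_div_cancel₀ _ hTq.ne'] at hsum
    exact hIs.not_ge hgeval hsum
  obtain ⟨ρ, hρT, hρ⟩ := hex
  obtain ⟨σ, hσ, rfl⟩ := horb ρ hρT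
  refine ⟨τ' * σ, 𝔓.I.mul_mem hτ' (hsubI hσ), fun x hx => ?_, ?_⟩
  · rw [IntermediateField.mem_fixingSubgroup_iff] at hσ
    rw [AlgEquiv.mul_apply, hσ x hx]
  · rw [AlgEquiv.mul_apply]
    have := hρ.neg
    rwa [neg_sub] at this

/-- the orbit of `x` under a subgroup `H` of `G_ℚ` acting through a finite group -/
theorem lf_exists_orbit_of_hom (H : Subgroup GQ) {G : Type*} [Group G] [Fintype G]
    (φ : H →* G) {x : Qb} (hker : ∀ σ : H, φ σ = 1 → (σ : GQ) x = x) :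
    ∃ T : Finset Qb, T.card ≤ Fintype.card G ∧ x ∈ T ∧ (∀ σ ∈ H, ∀ ρ ∈ T, σ ρ ∈ T) ∧
      ∀ ρ ∈ T, ∃ σ ∈ H, σ x = ρ := by
  classical
  let F : G → Qb := fun g => if h : ∃ σ : H, φ σ = g then ((h.choose : H) : GQ) x else x
  have hF : ∀ σ : H, F (φ σ) = (σ : GQ) x := by
    intro σ
    have hex : ∃ σ' : H, φ σ' = φ σ := ⟨σ, rfl⟩
    simp only [F, dif_pos hex]
    set σ' := hex.choose with hσ'
    have h1 : φ σ' = φ σ := hex.choose_spec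
    have h2 : φ (σ⁻¹ * σ') = 1 := by rw [map_mul, map_inv, h1, inv_mul_cancel]
    have h3 := hker _ h2
    have h4 : ((σ⁻¹ * σ' : H) : GQ) x = (σ : GQ)⁻¹ ((σ' : GQ) x) := rfl
    rw [h4] at h3
    have h5 : (σ : GQ) ((σ : GQ)⁻¹ ((σ' : GQ) x)) = (σ : GQ) x := congrArg (fun z => (σ : GQ) z) h3
    rw [← AlgEquiv.mul_apply, mul_inv_cancel, AlgEquiv.one_apply] at h5
    exact h5
  refine ⟨Finset.univ.image F, ?_, ?_, ?_, ?_⟩
  · exact Finset.card_image_le.trans (by simp)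
  · rw [Finset.mem_image]
    refine ⟨φ 1, Finset.mem_univ _, ?_⟩
    rw [hF]; rfl
  · intro τ hτ ρ hρ
    rw [Finset.mem_image] at hρ ⊢
    obtain ⟨g, -, rfl⟩ := hρ
    by_cases h : ∃ σ : H, φ σ = g
    · obtain ⟨σ, rfl⟩ := h
      refine ⟨φ (⟨τ, hτ⟩ * σ), Finset.mem_univ _, ?_⟩
      rw [hF, hF]; rfl
    · refine ⟨φ ⟨τ, hτ⟩, Finset.mem_univ _, ?_⟩
      rw [hF]
      simp only [F, dif_neg h]
  · intro ρ hρ
    rw [Finset.mem_image] at hρ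
    obtain ⟨g, -, rfl⟩ := hρ
    by_cases h : ∃ σ : H, φ σ = g
    · obtain ⟨σ, rfl⟩ := h
      exact ⟨σ, σ.2, (hF σ).symm⟩
    · refine ⟨1, H.one_mem, ?_⟩
      simp only [F, dif_neg h]
      rfl

end FFPlace

end Fermat.Agent.TW
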