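/-
P10 / G7 WP-B (helper5), (LF2): tamely ramified extensions of `K0` inside `ℚ̄`.

* `lf_unif_K0`, `lf_unif_of_span_gen`, `lf_unif_adjoin_of_root`, `lf_unif_adjoin_radical`;
* `lf_unif_adjoin_zeta` : `K0(ζ_p)` has uniformiser `ζ_p - 1`, `e = p - 1`;
* `lf_exists_mem_I_apply_eq` : the inertia group permutes the `d`-th roots of `c ∈ K0`
  transitively if `v(c) / d` is in lowest terms (surjectivity of the tame characters `θ_d`);
* `lf_zeta_mem` : `ζ_p ∈ E` as soon as `E ⊇ K0` contains an element of valuation `1/(p-1)`;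
* `lf_gt_apply_sub_one` (UF-d) : the action of inertia on `U^(i)/U^(i+1)`;
* `lf_E0` : the field `K0((-p)^{1/(p²-1)})`.
-/
import Fermat.Agent.Lib.TW.LF.Lift

set_option autoImplicit false
set_option linter.unusedSectionVars false
set_option linter.style.haveILetI false

open scoped IntermediateField
open Polynomial

namespace Fermat.Agent.TW

open Fermat.Agent.S05Lib

local notation "Qb" => AlgebraicClosure ℚ
local notation "GQ" => (AlgebraicClosure ℚ ≃ₐ[ℚ] AlgebraicClosure ℚ)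

namespace FFPlace

variable {𝔓 : FFPlace}

/-- `p` is a uniformiser of `K0` -/
theorem lf_unif_K0 : 𝔓.LFUnif 𝔓.K0 (𝔓.p : Qb) := by
  refine ⟨natCast_mem _ _, 𝔓.p_ne_zero, by rw [𝔓.is_p.2]; exact one_pos, fun x hx hx0 => ?_⟩
  obtain ⟨n, hn⟩ := 𝔓.lf_unr x hx hx0
  exact ⟨n, by rw [hn, 𝔓.is_p.2, mul_one]⟩

/-- **Uniformiser of a totally ramified extension of degree `d`** (general version of
`lf_unif_of_span`): if every element of `M' ⊇ E` is a polynomial of degree `< d` in `t` with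
coefficients in `E` and `v(t) = i/(de)` with `i` prime to `d`, then `π ^ s * t ^ r`
(`r i + d s = 1`) generates the value group `(1/(de)) ℤ` of `M'`. -/
theorem lf_unif_of_span_gen {E M' : IntermediateField ℚ Qb} {π t : Qb} (hπ : 𝔓.LFUnif E π)
    {e : ℕ} (he : (e : ℚ) * 𝔓.v.ord π = 1) (hEM : E ≤ M') (htM : t ∈ M') {d : ℕ} (hd : 0 < d)
    {i : ℤ} (hi : IsCoprime i (d : ℤ)) (ht : 𝔓.v.Is t ((i : ℚ) / ((d : ℚ) * e)))
    (hspan : ∀ x ∈ M', ∃ a : ℕ → Qb, (∀ j, a j ∈ E) ∧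
      x = ∑ j ∈ Finset.range d, a j * t ^ j)
    {r : ℕ} {s : ℤ} (hrs : (r : ℤ) * i + (d : ℤ) * s = 1) :
    𝔓.LFUnif M' (π ^ s * t ^ r) ∧ 𝔓.v.Is (π ^ s * t ^ r) (1 / ((d : ℚ) * e)) := by
  have hdq : (0 : ℚ) < d := by exact_mod_cast hd
  have he0 : e ≠ 0 := by
    rintro rfl
    simp at he
  have heq : (0 : ℚ) < e := by exact_mod_cast Nat.pos_of_ne_zero he0
  have hordπ : 𝔓.v.ord π = 1 / e := by
    field_simp
    linarith
  have hπis : 𝔓.v.Is π (1 / e) := ⟨hπ.ne_zero, hordπ⟩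
  have hrsq : (r : ℚ) * i + (d : ℚ) * s = 1 := by exact_mod_cast hrs
  have hϖis : 𝔓.v.Is (π ^ s * t ^ r) (1 / ((d : ℚ) * e)) := by
    have h1 := (𝔓.lf_is_zpow hπis s).mul (ht.pow r)
    refine h1.congr ?_
    field_simp
    linarith
  refine ⟨⟨mul_mem (zpow_mem (hEM hπ.mem) s) (pow_mem htM r), hϖis.1, ?_, ?_⟩, hϖis⟩
  · rw [hϖis.2]; positivity
  · intro x hxM hx0
    obtain ⟨a, haE, rfl⟩ := hspan x hxM
    set f : ℕ → Qb := fun j => a j * t ^ j with hf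
    have hterm : ∀ j, f j ≠ 0 → ∃ k : ℤ,
        𝔓.v.ord (f j) = ((d : ℤ) * k + j * i : ℤ) / ((d : ℚ) * e) := by
      intro j hj
      have haj : a j ≠ 0 := fun h0 => hj (by simp [hf, h0])
      obtain ⟨k, hk⟩ := hπ.gen (a j) (haE j) haj
      refine ⟨k, ?_⟩
      have h0 : 𝔓.v.Is (a j) (k * (1 / e)) := ⟨haj, by rw [hk, hordπ]⟩
      have h1 : 𝔓.v.Is (f j) (k * (1 / e) + j * ((i : ℚ) / ((d : ℚ) * e))) :=
        h0.mul (ht.pow j)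
      rw [h1.2]
      push_cast
      field_simp
    have hne : ∃ j ∈ Finset.range d, f j ≠ 0 := by
      by_contra hcon
      push Not at hcon
      exact hx0 (Finset.sum_eq_zero hcon)
    have hdist : ∀ j ∈ Finset.range d, ∀ j' ∈ Finset.range d, f j ≠ 0 → f j' ≠ 0 →
        𝔓.v.ord (f j) = 𝔓.v.ord (f j') → j = j' := by
      intro j hj j' hj' hfj hfj' hord
      obtain ⟨k, hk⟩ := hterm j hfj
      obtain ⟨k', hk'⟩ := hterm j' hfj'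
      rw [hk, hk'] at hord
      have hpe : ((d : ℚ) * e) ≠ 0 := by positivity
      have h1 : (((d : ℤ) * k + j * i : ℤ) : ℚ) = (((d : ℤ) * k' + j' * i : ℤ) : ℚ) := by
        field_simp at hord
        exact hord
      have h2 : (d : ℤ) * k + j * i = (d : ℤ) * k' + j' * i := by exact_mod_cast h1
      have h3 : (d : ℤ) ∣ ((j : ℤ) - j') * i := ⟨k' - k, by linarith⟩
      have h4 : (d : ℤ) ∣ (j : ℤ) - j' := hi.symm.dvd_of_dvd_mul_right h3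
      have hjlt := Finset.mem_range.mp hj
      have hj'lt := Finset.mem_range.mp hj'
      obtain ⟨c, hc⟩ := h4
      have : c = 0 := by
        by_contra hc0
        have : (1 : ℤ) ≤ |c| := Int.one_le_abs hc0
        have habs : |(j : ℤ) - j'| = (d : ℤ) * |c| := by rw [hc, abs_mul, Nat.abs_cast]
        have hlt : |(j : ℤ) - j'| < d := by
          rw [abs_lt]; constructor <;> omega
        nlinarith
      rw [this, mul_zero] at hc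
      omega
    obtain ⟨j₀, -, hfj₀, hIs⟩ := 𝔓.lf_is_sum_of_distinct (Finset.range d) f hne hdist
    obtain ⟨k, hk⟩ := hterm j₀ hfj₀
    refine ⟨(d : ℤ) * k + j₀ * i, ?_⟩
    rw [hIs.2, hk, hϖis.2]
    field_simp

/-- **Eisenstein-type extensions**: if `t` is a root of a monic polynomial of degree `d` over `E`
and `v(t) = 1/(de)`, then `t` is a uniformiser of `E(t)` -/
theorem lf_unif_adjoin_of_root {E : IntermediateField ℚ Qb} {π t : Qb} (hπ : 𝔓.LFUnif E π)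
    {e : ℕ} (he : (e : ℚ) * 𝔓.v.ord π = 1) {f : (↥E)[X]} (hf : f.Monic) (hft : aeval t f = 0)
    (hd : 0 < f.natDegree) (ht : 𝔓.v.Is t (1 / ((f.natDegree : ℚ) * e))) :
    𝔓.LFUnif (lfAdjoin E t) t := by
  have hspan : ∀ x ∈ lfAdjoin E t, ∃ a : ℕ → Qb, (∀ j, a j ∈ E) ∧
      x = ∑ j ∈ Finset.range f.natDegree, a j * t ^ j := fun x hx => lf_exists_eq_sum hf hft hx
  have h := (lf_unif_of_span_gen hπ he (lf_le_adjoin E t) (lf_self_mem_adjoin E t) hd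
    (i := 1) isCoprime_one_left (by simpa using ht) hspan (r := 1) (s := 0) (by simp)).1
  simpa using h

/-- **`K0(ζ_p)`**: `ζ - 1` is a uniformiser, `e = p - 1` -/
theorem lf_unif_adjoin_zeta {ζ : Qb} (hζ : IsPrimitiveRoot ζ 𝔓.p) :
    𝔓.LFUnif (lfAdjoin 𝔓.K0 ζ) (ζ - 1) ∧
      (((𝔓.p - 1 : ℕ) : ℚ)) * 𝔓.v.ord (ζ - 1) = 1 := by
  have hp := 𝔓.hp
  have hp1 : (1 : ℚ) < 𝔓.p := by exact_mod_cast hp.one_lt
  have hcast : (((𝔓.p - 1 : ℕ) : ℚ)) = (𝔓.p : ℚ) - 1 := by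
    rw [Nat.cast_sub hp.one_lt.le]; simp
  have hlam := 𝔓.lf_is_zeta_sub_one hζ
  have hp1' : (𝔓.p : ℚ) - 1 ≠ 0 := by linarith
  refine ⟨?_, by rw [hlam.2, hcast, mul_one_div, div_self hp1']⟩
  set t := ζ - 1 with ht
  -- the polynomial of `t`
  set f : (↥𝔓.K0)[X] := (cyclotomic 𝔓.p ↥𝔓.K0).comp (X + C 1) with hf
  have hXm : (X + C 1 : (↥𝔓.K0)[X]).Monic := monic_X_add_C 1
  have hXd : (X + C 1 : (↥𝔓.K0)[X]).natDegree = 1 := natDegree_X_add_C 1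
  have hfm : f.Monic := (cyclotomic.monic 𝔓.p _).comp hXm (by rw [hXd]; exact one_ne_zero)
  have hfd : f.natDegree = 𝔓.p - 1 := by
    rw [hf, natDegree_comp, hXd, mul_one, natDegree_cyclotomic, Nat.totient_prime hp]
  have hft : aeval t f = 0 := by
    rw [hf, aeval_comp, map_add, aeval_X, aeval_C, map_one]
    have h1 : t + 1 = ζ := by rw [ht]; ring
    rw [h1, aeval_def, eval₂_eq_eval_map, map_cyclotomic]
    exact hζ.isRoot_cyclotomic hp.pos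
  have hle : lfAdjoin 𝔓.K0 ζ ≤ lfAdjoin 𝔓.K0 t := by
    refine lf_adjoin_le (lf_le_adjoin _ t) ?_
    have h1 : ζ = t + 1 := by rw [ht]; ring
    rw [h1]
    exact add_mem (lf_self_mem_adjoin _ t) (one_mem _)
  have htM : t ∈ lfAdjoin 𝔓.K0 ζ := sub_mem (lf_self_mem_adjoin _ ζ) (one_mem _)
  have hspan : ∀ x ∈ lfAdjoin 𝔓.K0 ζ, ∃ a : ℕ → Qb, (∀ j, a j ∈ 𝔓.K0) ∧
      x = ∑ j ∈ Finset.range (𝔓.p - 1), a j * t ^ j := by
    intro x hx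
    have := lf_exists_eq_sum hfm hft (hle hx)
    rwa [hfd] at this
  have hd : 0 < 𝔓.p - 1 := Nat.sub_pos_of_lt hp.one_lt
  have he : ((1 : ℕ) : ℚ) * 𝔓.v.ord (𝔓.p : Qb) = 1 := by rw [𝔓.is_p.2]; simp
  have htis : 𝔓.v.Is t (((1 : ℤ) : ℚ) / (((𝔓.p - 1 : ℕ) : ℚ) * ((1 : ℕ) : ℚ))) := by
    refine hlam.congr ?_
    rw [hcast]; simp
  have h := (lf_unif_of_span_gen lf_unif_K0 he (lf_le_adjoin _ ζ) htM hd
    (i := 1) isCoprime_one_left htis hspan (r := 1) (s := 0) (by simp)).1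
  simpa using h

/-- **Radical extensions**: if `c` is a uniformiser of `E` and `π₀ ^ d = c`, then `π₀` is a
uniformiser of `E(π₀)`, with ramification index `d e` -/
theorem lf_unif_adjoin_radical {E : IntermediateField ℚ Qb} {c π₀ : Qb} (hc : 𝔓.LFUnif E c)
    {e : ℕ} (he : (e : ℚ) * 𝔓.v.ord c = 1) {d : ℕ} (hd : 0 < d) (hπ₀ : π₀ ^ d = c) :
    𝔓.LFUnif (lfAdjoin E π₀) π₀ ∧ ((d * e : ℕ) : ℚ) * 𝔓.v.ord π₀ = 1 := by
  have hdq : (0 : ℚ) < d := by exact_mod_cast hd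
  have he0 : e ≠ 0 := by
    rintro rfl
    simp at he
  have heq : (0 : ℚ) < e := by exact_mod_cast Nat.pos_of_ne_zero he0
  have hπ₀0 : π₀ ≠ 0 := by
    rintro rfl
    rw [zero_pow hd.ne'] at hπ₀
    exact hc.ne_zero hπ₀.symm
  have hord : 𝔓.v.ord π₀ = 1 / ((d : ℚ) * e) := by
    have h1 := 𝔓.v.ord_pow hπ₀0 d
    rw [hπ₀] at h1
    field_simp
    field_simp at he
    rw [h1] at he
    linarith
  set f : (↥E)[X] := X ^ d - C (⟨c, hc.mem⟩ : ↥E) with hf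
  have hfm : f.Monic := monic_X_pow_sub_C _ hd.ne'
  have hfd : f.natDegree = d := natDegree_X_pow_sub_C
  have hft : aeval π₀ f = 0 := by
    rw [hf, map_sub, map_pow, aeval_X, aeval_C, hπ₀]
    exact sub_self _
  refine ⟨lf_unif_adjoin_of_root hc he hfm hft (by rw [hfd]; exact hd) ⟨hπ₀0, by rw [hfd, hord]⟩, ?_⟩
  rw [hord]
  push_cast
  field_simp

/-- **Surjectivity of the tame characters**: if `x ^ d = c ∈ K0` and `v(x) = a/d` with `a` prime to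
`d`, then the inertia group permutes the `d`-th roots of `c` transitively. -/
theorem lf_exists_mem_I_apply_eq {x c : Qb} (hc : c ∈ 𝔓.K0) {d : ℕ} (hd : 0 < d)
    (hx : x ^ d = c) {a : ℤ} (ha : IsCoprime a (d : ℤ)) (hxa : 𝔓.v.Is x ((a : ℚ) / d)) {ξ : Qb}
    (hξ : ξ ^ d = 1) : ∃ σ ∈ 𝔓.I, σ x = ξ * x := by
  classical
  have hdq : (0 : ℚ) < d := by exact_mod_cast hd
  set R : Finset Qb := nthRootsFinset d c with hR
  have hmemR : ∀ z : Qb, z ∈ R ↔ z ^ d = c := fun z => mem_nthRootsFinset hd c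
  have hRcard : R.card ≤ d := by
    rw [hR, nthRootsFinset_def]
    exact (Multiset.toFinset_card_le _).trans (card_nthRoots d c)
  -- the orbit
  have hfin : {ρ : Qb | ∃ σ ∈ 𝔓.I, σ x = ρ}.Finite := by
    refine (R.finite_toSet).subset ?_
    rintro ρ ⟨σ, hσ, rfl⟩
    rw [Finset.mem_coe, hmemR, ← map_pow, hx]
    exact (𝔓.mem_K0_iff c).mp hc σ hσ
  set T : Finset Qb := hfin.toFinset with hT
  have hmemT : ∀ ρ, ρ ∈ T ↔ ∃ σ ∈ 𝔓.I, σ x = ρ := fun ρ => by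
    rw [hT, Set.Finite.mem_toFinset]; rfl
  have hxT : x ∈ T := (hmemT x).mpr ⟨1, 𝔓.I.one_mem, rfl⟩
  have hTR : T ⊆ R := by
    intro ρ hρ
    obtain ⟨σ, hσ, rfl⟩ := (hmemT ρ).mp hρ
    rw [hmemR, ← map_pow, hx]
    exact (𝔓.mem_K0_iff c).mp hc σ hσ
  have hstab : ∀ σ ∈ 𝔓.I, ∀ ρ ∈ T, σ ρ ∈ T := by
    intro σ hσ ρ hρ
    obtain ⟨τ, hτ, rfl⟩ := (hmemT ρ).mp hρ
    exact (hmemT _).mpr ⟨σ * τ, 𝔓.I.mul_mem hσ hτ, rfl⟩
  -- the norm
  have hK0 := lf_prod_mem_K0 hstab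
  have hall : ∀ ρ ∈ T, 𝔓.v.Is ρ ((a : ℚ) / d) := by
    intro ρ hρ
    obtain ⟨σ, hσ, rfl⟩ := (hmemT ρ).mp hρ
    exact 𝔓.is_D (𝔓.I_le_D hσ) hxa
  have hprod := 𝔓.lf_is_prod T (fun ρ => ρ) (fun _ => (a : ℚ) / d) hall
  rw [Finset.sum_const, nsmul_eq_mul] at hprod
  obtain ⟨k, hk⟩ := 𝔓.lf_unr _ hK0 hprod.1
  rw [hprod.2] at hk
  have h1 : ((T.card : ℤ) : ℚ) * a = (d : ℤ) * k := by
    field_simp at hk
    push_cast
    linarith
  have h2 : (T.card : ℤ) * a = (d : ℤ) * k := by exact_mod_cast h1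
  have h3 : (d : ℤ) ∣ (T.card : ℤ) := by
    have : (d : ℤ) ∣ (T.card : ℤ) * a := ⟨k, h2⟩
    exact ha.symm.dvd_of_dvd_mul_right this
  have hTpos : 0 < T.card := Finset.card_pos.mpr ⟨x, hxT⟩
  have h4 : d ≤ T.card := by
    have : d ∣ T.card := by exact_mod_cast h3
    exact Nat.le_of_dvd hTpos this
  have hTeq : T = R := Finset.eq_of_subset_of_card_le hTR (hRcard.trans h4)
  have hξx : ξ * x ∈ T := by
    rw [hTeq, hmemR, mul_pow, hξ, one_mul, hx]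
  exact (hmemT _).mp hξx

/-- **`ζ_p` lies in every field `E ⊇ K0` containing an element of valuation `1/(p-1)`** -/
theorem lf_zeta_mem {E : IntermediateField ℚ Qb} (hE : 𝔓.K0 ≤ E) {π₁ : Qb} (hπ₁E : π₁ ∈ E)
    (hπ₁ : 𝔓.v.Is π₁ (1 / ((𝔓.p : ℚ) - 1))) {ζ : Qb} (hζ : IsPrimitiveRoot ζ 𝔓.p) : ζ ∈ E := by
  rw [lf_mem_iff_forall]
  intro σ hσ
  by_contra hne
  have hσI : σ ∈ 𝔓.I := 𝔓.lf_fixingSubgroup_le hE hσ
  rw [IntermediateField.mem_fixingSubgroup_iff] at hσ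
  have hζ' := 𝔓.lf_root_div hζ.pow_eq_one one_ne_zero (map_one σ) hne
  have hζis : 𝔓.v.Is ζ 0 := 𝔓.is_zero_of_pow_eq_one 𝔓.hp.pos hζ.pow_eq_one
  set z : Qb := (ζ - 1) / π₁ with hz
  have hzge : 𝔓.v.Ge z 0 := by
    have := (𝔓.lf_is_zeta_sub_one hζ).div hπ₁
    rw [sub_self] at this
    exact this.ge
  have hgt := 𝔓.gt_I_sub hσI hzge
  have hσz : σ z - z = ζ * (σ ζ / ζ - 1) / π₁ := by
    rw [hz, map_div₀, map_sub, map_one, hσ π₁ hπ₁E]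
    field_simp [hπ₁.1, hζis.1]
    ring
  rw [hσz] at hgt
  have hIs : 𝔓.v.Is (ζ * (σ ζ / ζ - 1) / π₁) 0 := by
    have := (hζis.mul (𝔓.lf_is_zeta_sub_one hζ')).div hπ₁
    refine this.congr ?_
    ring
  exact hIs.not_gt hgt le_rfl

/-- **(UF-d)** action of the inertia group on the graded pieces of the unit filtration:
`σ(u) - 1 ≡ (σπ/π)^i (u - 1)` modulo elements of valuation `> i·v(π)` -/
theorem lf_gt_apply_sub_one {σ : GQ} (hσ : σ ∈ 𝔓.I) {π : Qb} (hπ : π ≠ 0) {i : ℕ} {u : Qb}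
    (hu : 𝔓.v.Ge (u - 1) (i * 𝔓.v.ord π)) :
    𝔓.v.Gt (σ u - 1 - (σ π / π) ^ i * (u - 1)) (i * 𝔓.v.ord π) := by
  have hπis : 𝔓.v.Is π (𝔓.v.ord π) := ⟨hπ, rfl⟩
  have hπi : 𝔓.v.Is (π ^ i) (i * 𝔓.v.ord π) := hπis.pow i
  set q : Qb := (u - 1) / π ^ i with hq
  have hqge : 𝔓.v.Ge q 0 := by
    have := hu.div_is hπi
    rwa [sub_self] at this
  have hgt := 𝔓.gt_I_sub hσ hqge
  have hσπ : 𝔓.v.Is (σ π) (𝔓.v.ord π) := 𝔓.is_D (𝔓.I_le_D hσ) hπis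
  have huq : u - 1 = π ^ i * q := by rw [hq, mul_div_cancel₀ _ hπi.1]
  have h1 : σ u - 1 - (σ π / π) ^ i * (u - 1) = (σ π) ^ i * (σ q - q) := by
    have h2 : σ u - 1 = (σ π) ^ i * σ q := by
      have := congrArg σ huq
      rwa [map_sub, map_one, map_mul, map_pow] at this
    rw [h2, huq, div_pow]
    field_simp [hπi.1]
  rw [h1]
  have := (hσπ.pow i).ge.mul_gt hgt
  rwa [add_zero] at this

lemma LFUnif.neg {M : IntermediateField ℚ Qb} {ϖ : Qb} (h : 𝔓.LFUnif M ϖ) : 𝔓.LFUnif M (-ϖ) :=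
  ⟨neg_mem h.mem, neg_ne_zero.mpr h.ne_zero, by rw [𝔓.v.ord_neg]; exact h.pos,
    fun x hx hx0 => by rw [𝔓.v.ord_neg]; exact h.gen x hx hx0⟩

/-- **The field `E0 = K0(π₀)`, `π₀ ^ (p² - 1) = -p`**: `π₀` is a uniformiser with `e = p² - 1`,
`ζ_p ∈ E0`, and the inertia group acts on `π₀` through a surjective character onto
`μ_{p² - 1}` (the fundamental character `ψ₂` of level 2). -/
theorem lf_E0 {π₀ : Qb} (hπ₀ : π₀ ^ (𝔓.p ^ 2 - 1) = -(𝔓.p : Qb)) :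
    𝔓.LFUnif (lfAdjoin 𝔓.K0 π₀) π₀ ∧ ((𝔓.p ^ 2 - 1 : ℕ) : ℚ) * 𝔓.v.ord π₀ = 1 ∧
    (∀ ζ : Qb, IsPrimitiveRoot ζ 𝔓.p → ζ ∈ lfAdjoin 𝔓.K0 π₀) ∧
    (∀ ξ : Qb, ξ ^ (𝔓.p ^ 2 - 1) = 1 → ∃ σ ∈ 𝔓.I, σ π₀ = ξ * π₀) := by
  have hp := 𝔓.hp
  have hd : 0 < 𝔓.p ^ 2 - 1 := by
    have : 2 ≤ 𝔓.p := hp.two_le
    have : 4 ≤ 𝔓.p ^ 2 := by nlinarith
    omega
  have he : ((1 : ℕ) : ℚ) * 𝔓.v.ord (-(𝔓.p : Qb)) = 1 := by
    rw [𝔓.v.ord_neg, 𝔓.is_p.2]; simp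
  obtain ⟨hunif, hord⟩ := lf_unif_adjoin_radical (lf_unif_K0 (𝔓 := 𝔓)).neg he hd hπ₀
  rw [mul_one] at hord
  have hdq : ((𝔓.p ^ 2 - 1 : ℕ) : ℚ) = (𝔓.p : ℚ) ^ 2 - 1 := by
    rw [Nat.cast_sub (by omega)]; push_cast; ring
  have hp1 : (1 : ℚ) < 𝔓.p := by exact_mod_cast hp.one_lt
  have hordπ : 𝔓.v.ord π₀ = 1 / ((𝔓.p : ℚ) ^ 2 - 1) := by
    rw [hdq] at hord
    have : (𝔓.p : ℚ) ^ 2 - 1 ≠ 0 := by nlinarith
    field_simp
    linarith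
  refine ⟨hunif, hord, fun ζ hζ => ?_, fun ξ hξ => ?_⟩
  · refine lf_zeta_mem (lf_le_adjoin _ π₀) (pow_mem (lf_self_mem_adjoin _ π₀) (𝔓.p + 1)) ?_ hζ
    have hπ₀is : 𝔓.v.Is π₀ (1 / ((𝔓.p : ℚ) ^ 2 - 1)) := ⟨hunif.ne_zero, hordπ⟩
    have := hπ₀is.pow (𝔓.p + 1)
    refine this.congr ?_
    have h1 : (𝔓.p : ℚ) - 1 ≠ 0 := by linarith
    have h2 : (𝔓.p : ℚ) + 1 ≠ 0 := by linarith
    have h3 : (𝔓.p : ℚ) ^ 2 - 1 = ((𝔓.p : ℚ) - 1) * ((𝔓.p : ℚ) + 1) := by ring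
    rw [h3]
    push_cast
    field_simp
  · refine lf_exists_mem_I_apply_eq (c := -(𝔓.p : Qb)) (neg_mem (natCast_mem _ _)) hd hπ₀
      (a := 1) isCoprime_one_left ⟨hunif.ne_zero, ?_⟩ hξ
    rw [hordπ, hdq]; simp

end FFPlace

end Fermat.Agent.TW
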