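/-
P10 / G7 WP-B (helper5): (KUM) Kummer theory inside `ℚ̄`: an additive character `χ` of
`Gal(ℚ̄/E)` with values in `ZMod p` (`ζ_p ∈ E`), trivial on an open subgroup, is the Kummer
character of a `p`-th root `y` of an element of `E`: `σ y = ζ ^ χ(σ) · y`
(Hilbert 90 through Lagrange resolvents and Dedekind independence of characters).
-/
import Fermat.Agent.Lib.TW.LF.Tame

set_option autoImplicit false
set_option linter.unusedSectionVars false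
set_option linter.style.haveILetI false

open scoped IntermediateField
open Polynomial

namespace Fermat.Agent.TW

open Fermat.Agent.S05Lib

local notation "Qb" => AlgebraicClosure ℚ
local notation "GQ" => (AlgebraicClosure ℚ ≃ₐ[ℚ] AlgebraicClosure ℚ)

/-- `a ↦ ζ ^ a` on `ZMod p` -/
noncomputable def lfZPow {p : ℕ} (ζ : Qb) (a : ZMod p) : Qb := ζ ^ a.val

section ZPow

variable {p : ℕ} [NeZero p] {ζ : Qb}

lemma lfZPow_zero : lfZPow (p := p) ζ 0 = 1 := by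
  rw [lfZPow, ZMod.val_zero, pow_zero]

lemma lfZPow_add (hζ : ζ ^ p = 1) (a b : ZMod p) :
    lfZPow ζ (a + b) = lfZPow ζ a * lfZPow ζ b := by
  rw [lfZPow, lfZPow, lfZPow, ZMod.val_add, ← pow_add]
  have := Nat.div_add_mod (a.val + b.val) p
  conv_rhs => rw [← this, pow_add, pow_mul, hζ, one_pow, one_mul]

lemma lfZPow_ne_zero (hζ : ζ ^ p = 1) (a : ZMod p) : lfZPow ζ a ≠ 0 := by
  have h0 : ζ ≠ 0 := by
    rintro rfl
    rw [zero_pow (NeZero.ne p)] at hζ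
    exact zero_ne_one hζ
  exact pow_ne_zero _ h0

lemma lfZPow_eq_one_iff (hζ : IsPrimitiveRoot ζ p) (a : ZMod p) : lfZPow ζ a = 1 ↔ a = 0 := by
  rw [lfZPow, hζ.pow_eq_one_iff_dvd]
  constructor
  · intro h
    have h1 := Nat.eq_zero_of_dvd_of_lt h (ZMod.val_lt a)
    exact (ZMod.val_eq_zero a).mp h1
  · rintro rfl
    rw [ZMod.val_zero]
    exact dvd_zero _

end ZPow

/-- **Kummer theory (Hilbert 90 via Lagrange resolvents)**: an additive character `χ` of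
`Gal(ℚ̄/E)`, `ζ_p ∈ E`, which vanishes on the stabiliser of some `θ₀`, is the Kummer character of
some `y ≠ 0`: `σ y = ζ ^ χ(σ) · y`. -/
theorem lf_kummer_exists_core {p : ℕ} [hp : Fact p.Prime] (E : IntermediateField ℚ Qb) {ζ : Qb}
    (hζ : ζ ^ p = 1) (hζE : ζ ∈ E) (χ : GQ → ZMod p)
    (hadd : ∀ σ ∈ E.fixingSubgroup, ∀ τ ∈ E.fixingSubgroup, χ (σ * τ) = χ σ + χ τ)
    (θ₀ : Qb) (hθ₀ : ∀ σ ∈ E.fixingSubgroup, σ θ₀ = θ₀ → χ σ = 0) :
    ∃ y : Qb, y ≠ 0 ∧ ∀ σ ∈ E.fixingSubgroup, σ y = lfZPow ζ (χ σ) * y := by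
  classical
  haveI : NeZero p := ⟨hp.out.ne_zero⟩
  set H := E.fixingSubgroup with hH
  have hχ1 : χ 1 = 0 := by
    have := hadd 1 H.one_mem 1 H.one_mem
    rw [mul_one] at this
    exact left_eq_add.mp this
  have hχinv : ∀ σ ∈ H, χ σ⁻¹ = -χ σ := by
    intro σ hσ
    have := hadd σ hσ σ⁻¹ (H.inv_mem hσ)
    rw [mul_inv_cancel, hχ1] at this
    exact eq_neg_of_add_eq_zero_right this.symm
  -- the orbit of `θ₀`
  have hfin : {ρ : Qb | ∃ σ ∈ H, σ θ₀ = ρ}.Finite := by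
    refine ((minpoly ℚ θ₀).rootSet_finite Qb).subset ?_
    rintro ρ ⟨σ, -, rfl⟩
    have hint : IsIntegral ℚ θ₀ := (AlgebraicClosure.isAlgebraic ℚ).isIntegral.isIntegral θ₀
    rw [Polynomial.mem_rootSet]
    refine ⟨minpoly.ne_zero hint, ?_⟩
    rw [← AlgEquiv.coe_toAlgHom, Polynomial.aeval_algHom_apply, minpoly.aeval, map_zero]
  set Θ : Finset Qb := hfin.toFinset with hΘ
  have hmemΘ : ∀ ρ, ρ ∈ Θ ↔ ∃ σ ∈ H, σ θ₀ = ρ := fun ρ => by
    rw [hΘ, Set.Finite.mem_toFinset]; rfl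
  have hθ₀Θ : θ₀ ∈ Θ := (hmemΘ θ₀).mpr ⟨1, H.one_mem, rfl⟩
  have hstab : ∀ σ ∈ H, ∀ ρ ∈ Θ, σ ρ ∈ Θ := by
    intro σ hσ ρ hρ
    obtain ⟨τ, hτ, rfl⟩ := (hmemΘ ρ).mp hρ
    exact (hmemΘ _).mpr ⟨σ * τ, H.mul_mem hσ hτ, rfl⟩
  -- the character on the orbit
  let χ' : Qb → ZMod p := fun ρ => if h : ∃ σ ∈ H, σ θ₀ = ρ then χ h.choose else 0
  have hχ' : ∀ σ ∈ H, χ' (σ θ₀) = χ σ := by
    intro σ hσ
    have hex : ∃ τ ∈ H, τ θ₀ = σ θ₀ := ⟨σ, hσ, rfl⟩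
    simp only [χ', dif_pos hex]
    obtain ⟨hτH, hτ⟩ := hex.choose_spec
    set τ := hex.choose with hτdef
    have h1 : (σ⁻¹ * τ) θ₀ = θ₀ := by
      rw [AlgEquiv.mul_apply, hτ, ← AlgEquiv.mul_apply, inv_mul_cancel, AlgEquiv.one_apply]
    have h2 := hθ₀ _ (H.mul_mem (H.inv_mem hσ) hτH) h1
    rw [hadd _ (H.inv_mem hσ) _ hτH, hχinv σ hσ] at h2
    exact (neg_add_eq_zero.mp h2).symm
  have hχ'mul : ∀ σ ∈ H, ∀ ρ ∈ Θ, χ' (σ ρ) = χ σ + χ' ρ := by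
    intro σ hσ ρ hρ
    obtain ⟨τ, hτ, rfl⟩ := (hmemΘ ρ).mp hρ
    rw [← AlgEquiv.mul_apply, hχ' _ (H.mul_mem hσ hτ), hχ' τ hτ, hadd σ hσ τ hτ]
  -- the resolvents
  let y : ℕ → Qb := fun j => ∑ ρ ∈ Θ, lfZPow ζ (-χ' ρ) * ρ ^ j
  have hσζ : ∀ σ ∈ H, ∀ a : ZMod p, σ (lfZPow ζ a) = lfZPow ζ a := by
    intro σ hσ a
    rw [lfZPow, map_pow]
    rw [hH, IntermediateField.mem_fixingSubgroup_iff] at hσ
    rw [hσ ζ hζE]
  have hy : ∀ j, ∀ σ ∈ H, σ (y j) = lfZPow ζ (χ σ) * y j := by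
    intro j σ hσ
    simp only [y]
    rw [map_sum, Finset.mul_sum]
    have h1 : ∀ ρ ∈ Θ, σ (lfZPow ζ (-χ' ρ) * ρ ^ j) =
        lfZPow ζ (χ σ) * (lfZPow ζ (-χ' (σ ρ)) * (σ ρ) ^ j) := by
      intro ρ hρ
      rw [map_mul, map_pow, hσζ σ hσ, hχ'mul σ hσ ρ hρ, ← mul_assoc, ← lfZPow_add hζ]
      congr 2
      ring
    rw [Finset.sum_congr rfl h1]
    refine Finset.sum_nbij (fun ρ => σ ρ) (hstab σ hσ) (fun a _ b _ hab => σ.injective hab) ?_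
      (fun _ _ => rfl)
    have hinj : Set.InjOn (fun ρ => σ ρ) (Θ : Set Qb) := fun a _ b _ hab => σ.injective hab
    exact Finset.surjOn_of_injOn_of_card_le _ (hstab σ hσ) hinj le_rfl
  -- some resolvent does not vanish
  have hex : ∃ j, y j ≠ 0 := by
    by_contra hcon
    push Not at hcon
    let f : ↥Θ → (Multiplicative ℕ →* Qb) := fun ρ => powersHom Qb (ρ : Qb)
    have hfinj : Function.Injective f := by
      intro ρ ρ' h
      have := congrArg (fun g : Multiplicative ℕ →* Qb => g (Multiplicative.ofAdd 1)) h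
      simp only [f, powersHom_apply, toAdd_ofAdd, pow_one] at this
      exact Subtype.ext this
    have hli := (linearIndependent_monoidHom (Multiplicative ℕ) Qb).comp f hfinj
    rw [Fintype.linearIndependent_iff] at hli
    have h0 := hli (fun ρ => lfZPow ζ (-χ' (ρ : Qb))) (by
      funext n
      have := hcon n.toAdd
      simp only [y] at this
      rw [← Finset.sum_coe_sort] at this
      simpa [f, powersHom_apply] using this)
    exact lfZPow_ne_zero hζ _ (h0 ⟨θ₀, hθ₀Θ⟩)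
  obtain ⟨j, hj⟩ := hex
  exact ⟨y j, hj, hy j⟩

/-- the `p`-th power of a Kummer generator lies in the base field -/
theorem lf_kummer_pow_mem {p : ℕ} (E : IntermediateField ℚ Qb) {ζ : Qb}
    (hζ : ζ ^ p = 1) (χ : GQ → ZMod p) {y : Qb}
    (hy : ∀ σ ∈ E.fixingSubgroup, σ y = lfZPow ζ (χ σ) * y) : y ^ p ∈ E := by
  rw [FFPlace.lf_mem_iff_forall E (y ^ p)]
  intro σ hσ
  rw [map_pow, hy σ hσ, mul_pow, lfZPow, ← pow_mul, Nat.mul_comm, pow_mul, hζ, one_pow, one_mul]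

/-- the Galois group of `E(y)` for a Kummer generator `y` is the kernel of the character -/
theorem lf_kummer_fixingSubgroup {p : ℕ} [hp : Fact p.Prime] (E : IntermediateField ℚ Qb) {ζ : Qb}
    (hζ : IsPrimitiveRoot ζ p) (χ : GQ → ZMod p) {y : Qb} (hy0 : y ≠ 0)
    (hy : ∀ σ ∈ E.fixingSubgroup, σ y = lfZPow ζ (χ σ) * y) (σ : GQ) :
    σ ∈ (lfAdjoin E y).fixingSubgroup ↔ σ ∈ E.fixingSubgroup ∧ χ σ = 0 := by
  haveI : NeZero p := ⟨hp.out.ne_zero⟩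
  rw [FFPlace.lf_mem_fixingSubgroup_adjoin_iff]
  constructor
  · rintro ⟨h1, h2⟩
    refine ⟨h1, ?_⟩
    have h3 := hy σ h1
    rw [h2] at h3
    have h4 : lfZPow ζ (χ σ) = 1 := by
      have : (lfZPow ζ (χ σ) - 1) * y = 0 := by rw [sub_mul, one_mul, ← h3, sub_self]
      rcases mul_eq_zero.mp this with h | h
      · exact sub_eq_zero.mp h
      · exact absurd h hy0
    exact (lfZPow_eq_one_iff hζ _).mp h4
  · rintro ⟨h1, h2⟩
    refine ⟨h1, ?_⟩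
    rw [hy σ h1, h2, lfZPow_zero, one_mul]

/-- **Kummer theory**: an additive character `χ : Gal(ℚ̄/E) → ZMod p` (`ζ_p ∈ E`) which is trivial
on `Gal(ℚ̄/E) ∩ Gal(ℚ̄/F)` for some finite `F / ℚ` is a Kummer character. -/
theorem lf_kummer_exists {p : ℕ} [hp : Fact p.Prime] (E : IntermediateField ℚ Qb) {ζ : Qb}
    (hζ : ζ ^ p = 1) (hζE : ζ ∈ E) (χ : GQ → ZMod p)
    (hadd : ∀ σ ∈ E.fixingSubgroup, ∀ τ ∈ E.fixingSubgroup, χ (σ * τ) = χ σ + χ τ)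
    (F : IntermediateField ℚ Qb) [FiniteDimensional ℚ F]
    (hF : ∀ σ ∈ E.fixingSubgroup, σ ∈ F.fixingSubgroup → χ σ = 0) :
    ∃ y : Qb, y ≠ 0 ∧ y ^ p ∈ E ∧ ∀ σ ∈ E.fixingSubgroup, σ y = lfZPow ζ (χ σ) * y := by
  obtain ⟨θ₀, hθ₀⟩ := Field.exists_primitive_element ℚ ↥F
  have hθ : ∀ σ ∈ E.fixingSubgroup, σ (θ₀ : Qb) = θ₀ → χ σ = 0 := by
    intro σ hσ h
    refine hF σ hσ ?_
    rw [IntermediateField.mem_fixingSubgroup_iff]
    intro x hx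
    -- `x` is a polynomial in `θ₀`
    have hx' : (⟨x, hx⟩ : ↥F) ∈ ℚ⟮θ₀⟯ := by rw [hθ₀]; trivial
    have hint : IsIntegral ℚ θ₀ := Algebra.IsIntegral.isIntegral θ₀
    have h1 : (⟨x, hx⟩ : ↥F) ∈ (ℚ⟮θ₀⟯).toSubalgebra := hx'
    rw [IntermediateField.adjoin_simple_toSubalgebra_of_isAlgebraic hint.isAlgebraic,
      Algebra.adjoin_singleton_eq_range_aeval] at h1
    obtain ⟨q, hq⟩ := h1
    have h2 : x = aeval (θ₀ : Qb) q := by
      have := congrArg (fun z : ↥F => (z : Qb)) hq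
      simp only at this
      rw [← this]
      change (F.val (aeval θ₀ q)) = _
      rw [← Polynomial.aeval_algHom_apply]
      rfl
    rw [h2, ← AlgEquiv.coe_toAlgHom, ← Polynomial.aeval_algHom_apply, AlgEquiv.coe_toAlgHom, h]
  obtain ⟨y, hy0, hy⟩ := lf_kummer_exists_core E hζ hζE χ hadd (θ₀ : Qb) hθ
  exact ⟨y, hy0, lf_kummer_pow_mem E hζ χ hy, hy⟩

end Fermat.Agent.TW
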