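/-
P10 / G7 WP-B (helper5): complements to Kummer theory inside `ℚ̄`:
(KUM-inj) injectivity of the Kummer map, (KUM-Δ) equivariance under conjugation,
additivity of Kummer generators, (CYC) the action on `ζ_p - 1`, and the character through which
the inertia group acts on a Kummer class of given level (LEVELS).
-/
import Fermat.Agent.Lib.TW.LF.KummerTheory

set_option autoImplicit false
set_option linter.unusedSectionVars false
set_option linter.style.haveILetI false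

open scoped IntermediateField
open Polynomial

namespace Fermat.Agent.TW

open Fermat.Agent.S05Lib

local notation "Qb" => AlgebraicClosure ℚ
local notation "GQ" => (AlgebraicClosure ℚ ≃ₐ[ℚ] AlgebraicClosure ℚ)

section ZPow

variable {p : ℕ} [NeZero p] {ζ : Qb}

lemma lfZPow_pow (hζ : ζ ^ p = 1) (a : ZMod p) : lfZPow ζ a ^ p = 1 := by
  rw [lfZPow, ← pow_mul, Nat.mul_comm, pow_mul, hζ, one_pow]

lemma lfZPow_natCast (hζ : ζ ^ p = 1) (n : ℕ) : lfZPow ζ (n : ZMod p) = ζ ^ n := by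
  rw [lfZPow, ZMod.val_natCast]
  conv_rhs => rw [← Nat.div_add_mod n p, pow_add, pow_mul, hζ, one_pow, one_mul]

lemma lfZPow_mul (hζ : ζ ^ p = 1) (a b : ZMod p) :
    lfZPow (lfZPow ζ a) b = lfZPow ζ (a * b) := by
  have h1 : lfZPow ζ (a * b) = ζ ^ (a.val * b.val) := by
    rw [← lfZPow_natCast hζ, Nat.cast_mul, ZMod.natCast_zmod_val, ZMod.natCast_zmod_val]
  rw [h1, lfZPow, lfZPow, pow_mul]

lemma lfZPow_neg (hζ : ζ ^ p = 1) (a : ZMod p) : lfZPow ζ (-a) = (lfZPow ζ a)⁻¹ := by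
  have h := lfZPow_add hζ (-a) a
  rw [neg_add_cancel, lfZPow_zero] at h
  exact eq_inv_of_mul_eq_one_left h.symm

/-- every `p`-th root of unity is a power of a primitive one -/
lemma lf_exists_eq_lfZPow (hζ : IsPrimitiveRoot ζ p) {ξ : Qb} (hξ : ξ ^ p = 1) :
    ∃ a : ZMod p, ξ = lfZPow ζ a := by
  obtain ⟨i, -, hi⟩ := hζ.eq_pow_of_pow_eq_one hξ
  exact ⟨(i : ZMod p), by rw [lfZPow_natCast hζ.pow_eq_one, hi]⟩

end ZPow

section Kummer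

variable {p : ℕ} [hp : Fact p.Prime] (E : IntermediateField ℚ Qb) {ζ : Qb}

/-- (KUM-inj) a Kummer generator with trivial character lies in the base field -/
theorem lf_kummer_mem_of_eq_zero (χ : GQ → ZMod p) {y : Qb}
    (hy : ∀ σ ∈ E.fixingSubgroup, σ y = lfZPow ζ (χ σ) * y)
    (h0 : ∀ σ ∈ E.fixingSubgroup, χ σ = 0) : y ∈ E := by
  haveI : NeZero p := ⟨hp.out.ne_zero⟩
  rw [FFPlace.lf_mem_iff_forall E y]
  intro σ hσ
  rw [hy σ hσ, h0 σ hσ, lfZPow_zero, one_mul]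

/-- (KUM-inj) if every element of `Gal(ℚ̄/E)` fixes some `p`-th root of `u`, then `u` is a `p`-th
power in `E` (`ζ_p ∈ E`). -/
theorem lf_kummer_inj (hζ : IsPrimitiveRoot ζ p) (hζE : ζ ∈ E) {u : Qb}
    (h : ∀ σ ∈ E.fixingSubgroup, ∃ y : Qb, y ^ p = u ∧ σ y = y) : ∃ w ∈ E, w ^ p = u := by
  haveI : NeZero p := ⟨hp.out.ne_zero⟩
  obtain ⟨y₀, hy₀⟩ := IsAlgClosed.exists_pow_nat_eq u hp.out.pos
  refine ⟨y₀, ?_, hy₀⟩
  by_cases hu : u = 0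
  · have : y₀ = 0 := by
      rw [hu] at hy₀
      exact pow_eq_zero_iff hp.out.ne_zero |>.mp hy₀
    rw [this]; exact zero_mem _
  have hy₀0 : y₀ ≠ 0 := by
    rintro rfl
    rw [zero_pow hp.out.ne_zero] at hy₀
    exact hu hy₀.symm
  rw [FFPlace.lf_mem_iff_forall E y₀]
  intro σ hσ
  obtain ⟨y, hy, hσy⟩ := h σ hσ
  have hξ : (y / y₀) ^ p = 1 := by rw [div_pow, hy, hy₀, div_self hu]
  obtain ⟨a, ha⟩ := lf_exists_eq_lfZPow hζ hξ
  have hσξ : σ (y / y₀) = y / y₀ := by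
    rw [ha, lfZPow, map_pow]
    rw [IntermediateField.mem_fixingSubgroup_iff] at hσ
    rw [hσ ζ hζE]
  rw [map_div₀, hσy] at hσξ
  have hy0 : y ≠ 0 := by
    rintro rfl
    rw [zero_pow hp.out.ne_zero] at hy
    exact hu hy.symm
  have h2 : σ y₀ ≠ 0 := by
    intro h0
    exact hy₀0 ((map_eq_zero σ).mp h0)
  field_simp at hσξ
  exact hσξ.symm

/-- Kummer generators of the same character differ by an element of the base field -/
theorem lf_kummer_div_mem (hζ : ζ ^ p = 1) (χ : GQ → ZMod p) {y y' : Qb}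
    (hy : ∀ σ ∈ E.fixingSubgroup, σ y = lfZPow ζ (χ σ) * y)
    (hy' : ∀ σ ∈ E.fixingSubgroup, σ y' = lfZPow ζ (χ σ) * y') : y' / y ∈ E := by
  haveI : NeZero p := ⟨hp.out.ne_zero⟩
  rw [FFPlace.lf_mem_iff_forall E (y' / y)]
  intro σ hσ
  rw [map_div₀, hy σ hσ, hy' σ hσ, mul_div_mul_left _ _ (lfZPow_ne_zero hζ _)]

/-- the product of Kummer generators is a Kummer generator of the sum of the characters -/
theorem lf_kummer_mul (hζ : ζ ^ p = 1) (χ χ' : GQ → ZMod p) {y y' : Qb}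
    (hy : ∀ σ ∈ E.fixingSubgroup, σ y = lfZPow ζ (χ σ) * y)
    (hy' : ∀ σ ∈ E.fixingSubgroup, σ y' = lfZPow ζ (χ' σ) * y') :
    ∀ σ ∈ E.fixingSubgroup, σ (y * y') = lfZPow ζ (χ σ + χ' σ) * (y * y') := by
  haveI : NeZero p := ⟨hp.out.ne_zero⟩
  intro σ hσ
  rw [map_mul, hy σ hσ, hy' σ hσ, lfZPow_add hζ]
  ring

/-- powers of Kummer generators -/
theorem lf_kummer_pow (hζ : ζ ^ p = 1) (χ : GQ → ZMod p) {y : Qb}
    (hy : ∀ σ ∈ E.fixingSubgroup, σ y = lfZPow ζ (χ σ) * y) (a : ZMod p) :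
    ∀ σ ∈ E.fixingSubgroup, σ (y ^ a.val) = lfZPow ζ (a * χ σ) * y ^ a.val := by
  haveI : NeZero p := ⟨hp.out.ne_zero⟩
  intro σ hσ
  rw [map_pow, hy σ hσ, mul_pow, mul_comm a, ← lfZPow_mul hζ]
  rfl

/-- the inverse of a Kummer generator -/
theorem lf_kummer_inv (hζ : ζ ^ p = 1) (χ : GQ → ZMod p) {y : Qb}
    (hy : ∀ σ ∈ E.fixingSubgroup, σ y = lfZPow ζ (χ σ) * y) :
    ∀ σ ∈ E.fixingSubgroup, σ y⁻¹ = lfZPow ζ (-χ σ) * y⁻¹ := by
  haveI : NeZero p := ⟨hp.out.ne_zero⟩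
  intro σ hσ
  rw [map_inv₀, hy σ hσ, mul_inv, lfZPow_neg hζ]

/-- (KUM-Δ) **equivariance of the Kummer pairing**: if `g` normalises `Gal(ℚ̄/E)` and
`g ζ = ζ ^ a`, then `g y` is a Kummer generator of the character `σ ↦ a · χ(g⁻¹ σ g)`. -/
theorem lf_kummer_conj (hζ : ζ ^ p = 1) (χ : GQ → ZMod p) {y : Qb}
    (hy : ∀ σ ∈ E.fixingSubgroup, σ y = lfZPow ζ (χ σ) * y) (g : GQ)
    (hg : ∀ σ ∈ E.fixingSubgroup, g⁻¹ * σ * g ∈ E.fixingSubgroup) {a : ZMod p}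
    (ha : g ζ = lfZPow ζ a) :
    ∀ σ ∈ E.fixingSubgroup, σ (g y) = lfZPow ζ (a * χ (g⁻¹ * σ * g)) * g y := by
  haveI : NeZero p := ⟨hp.out.ne_zero⟩
  intro σ hσ
  have h1 : σ (g y) = g ((g⁻¹ * σ * g) y) := by
    rw [AlgEquiv.mul_apply, AlgEquiv.mul_apply, ← AlgEquiv.mul_apply g g⁻¹, mul_inv_cancel,
      AlgEquiv.one_apply]
  rw [h1, hy _ (hg σ hσ), map_mul, ← lfZPow_mul hζ, ← ha]
  congr 1
  rw [lfZPow, lfZPow, map_pow]

end Kummer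

namespace FFPlace

variable (𝔓 : FFPlace)

/-- (CYC) if `σ ζ = ζ ^ a` then `σ(ζ - 1)/(ζ - 1) ≡ a` modulo the maximal ideal -/
theorem lf_gt_apply_zeta_sub_one {ζ : Qb} (hζ : IsPrimitiveRoot ζ 𝔓.p) {σ : GQ} {a : ℕ}
    (h : σ ζ = ζ ^ a) : 𝔓.v.Gt (σ (ζ - 1) / (ζ - 1) - (a : Qb)) 0 := by
  have hz := 𝔓.lf_is_zeta_sub_one hζ
  have hp1 : (0 : ℚ) < 1 / ((𝔓.p : ℚ) - 1) := by
    have : (2 : ℚ) ≤ 𝔓.p := by exact_mod_cast 𝔓.hp.two_le
    apply div_pos one_pos; linarith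
  have hζu : 𝔓.v.Is ζ 0 := 𝔓.is_zero_of_pow_eq_one 𝔓.hp.pos hζ.pow_eq_one
  have h1 : σ (ζ - 1) / (ζ - 1) = ∑ k ∈ Finset.range a, ζ ^ k := by
    rw [map_sub, map_one, h, div_eq_iff hz.ne_zero, geom_sum_mul]
  have h2 : ∑ k ∈ Finset.range a, ζ ^ k - (a : Qb) = ∑ k ∈ Finset.range a, (ζ ^ k - 1) := by
    rw [Finset.sum_sub_distrib]; simp
  rw [h1, h2]
  refine 𝔓.lf_gt_sum _ _ fun k _ => ?_
  have h3 : 𝔓.v.Ge (1 - ζ) (1 / ((𝔓.p : ℚ) - 1)) := by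
    have := hz.neg.ge
    rwa [neg_sub] at this
  have h4 := (𝔓.lf_ge_one_sub_pow hζu.ge h3 k).neg
  rw [neg_sub] at h4
  exact h4.gt hp1

/-- (LEVELS) **the character of a Kummer class of level `i`**: if `u ∈ E` has level `i`
(`v(u - 1) = i / e`, `p ∤ i`, `0 < i < p e / (p - 1)`) and `σ ∈ I` maps `u` to `u ^ a` times a
`p`-th power of `E`, then `(σ π / π) ^ i ≡ a` modulo the maximal ideal. -/
theorem lf_level_char {E : IntermediateField ℚ Qb} {π : Qb} (hπ : 𝔓.LFUnif E π) {e : ℕ}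
    (he : (e : ℚ) * 𝔓.v.ord π = 1) {i : ℕ} (hi : ¬ 𝔓.p ∣ i) (hi0 : 0 < i)
    (hlt : (i : ℚ) / e < (𝔓.p : ℚ) / ((𝔓.p : ℚ) - 1)) {u : Qb}
    (hui : 𝔓.v.Is (u - 1) ((i : ℚ) / e)) {σ : GQ} (hσ : σ ∈ 𝔓.I) {a : ℕ} {w : Qb} (hw : w ∈ E)
    (hσu : σ u = u ^ a * w ^ 𝔓.p) : 𝔓.v.Gt ((σ π / π) ^ i - (a : Qb)) 0 := by
  have he0 : (e : ℚ) ≠ 0 := by
    rintro h0; rw [h0, zero_mul] at he; exact zero_ne_one he
  have hepos : (0 : ℚ) < e := lt_of_le_of_ne (Nat.cast_nonneg e) (Ne.symm he0)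
  have hordπ : 𝔓.v.ord π = 1 / e := by field_simp; linarith
  have hie : (i : ℚ) * 𝔓.v.ord π = (i : ℚ) / e := by rw [hordπ]; ring
  have hipos : (0 : ℚ) < (i : ℚ) / e := div_pos (by exact_mod_cast hi0) hepos
  -- `σ u - 1 ≡ (σ π / π) ^ i (u - 1)`
  have h1 := 𝔓.lf_gt_apply_sub_one hσ hπ.ne_zero (i := i) (u := u) (by rw [hie]; exact hui.ge)
  rw [hie] at h1
  -- `u ^ a - 1 ≡ a (u - 1)`
  have hu1 : 𝔓.v.Ge u 0 := by
    have : u = 1 + (u - 1) := by ring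
    rw [this]
    exact QVal.is_one.ge.add (hui.ge.mono hipos.le)
  have h2 : 𝔓.v.Gt (u ^ a - 1 - (a : Qb) * (u - 1)) ((i : ℚ) / e) := by
    have hgeom : u ^ a - 1 = (∑ k ∈ Finset.range a, u ^ k) * (u - 1) := (geom_sum_mul u a).symm
    have h3 : ∑ k ∈ Finset.range a, u ^ k - (a : Qb) = ∑ k ∈ Finset.range a, (u ^ k - 1) := by
      rw [Finset.sum_sub_distrib]; simp
    have h4 : u ^ a - 1 - (a : Qb) * (u - 1) = (∑ k ∈ Finset.range a, (u ^ k - 1)) * (u - 1) := by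
      rw [hgeom, ← h3]; ring
    rw [h4]
    have h5 : 𝔓.v.Gt (∑ k ∈ Finset.range a, (u ^ k - 1)) 0 := by
      refine 𝔓.lf_gt_sum _ _ fun k _ => ?_
      have h6 : 𝔓.v.Ge (1 - u) ((i : ℚ) / e) := by
        have := hui.neg.ge; rwa [neg_sub] at this
      have h7 := (𝔓.lf_ge_one_sub_pow hu1 h6 k).neg
      rw [neg_sub] at h7
      exact h7.gt hipos
    have := h5.mul_ge hui.ge
    rwa [zero_add] at this
  -- `w ^ p ≡ 1`
  have hua : 𝔓.v.Ge (u ^ a - 1) ((i : ℚ) / e) := by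
    have h6 : 𝔓.v.Ge (1 - u) ((i : ℚ) / e) := by
      have := hui.neg.ge; rwa [neg_sub] at this
    have h7 := (𝔓.lf_ge_one_sub_pow hu1 h6 a).neg
    rwa [neg_sub] at h7
  have hσu1 : 𝔓.v.Ge (σ u - 1) ((i : ℚ) / e) := by
    have hD := 𝔓.I_le_D hσ
    have : σ u - 1 = σ (u - 1) := by rw [map_sub, map_one]
    rw [this]
    exact 𝔓.ge_D hD hui.ge
  have hua_unit : 𝔓.v.Is (u ^ a) 0 := by
    have : u ^ a = 1 + (u ^ a - 1) := by ring
    rw [this]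
    exact QVal.is_one.add_gt (hua.gt hipos)
  have hwp : 𝔓.v.Gt (w ^ 𝔓.p - 1) ((i : ℚ) / e) := by
    have hge : 𝔓.v.Ge (w ^ 𝔓.p - 1) ((i : ℚ) / e) := by
      have h8 : w ^ 𝔓.p - 1 = ((σ u - 1) - (u ^ a - 1)) / u ^ a := by
        rw [hσu, eq_div_iff hua_unit.ne_zero]; ring
      rw [h8]
      have := (hσu1.sub hua).div_is hua_unit
      rwa [sub_zero] at this
    by_cases hz : w ^ 𝔓.p - 1 = 0
    · exact Or.inl hz
    rcases hge with h0 | h0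
    · exact Or.inl h0
    · rcases lt_or_eq_of_le h0 with h9 | h9
      · exact Or.inr h9
      · exact absurd ⟨hz, h9.symm⟩ (𝔓.lf_not_is_pow_sub_one hπ he hi hi0 hlt hw)
  -- assemble
  have h10 : 𝔓.v.Gt (σ u - 1 - (a : Qb) * (u - 1)) ((i : ℚ) / e) := by
    have h11 : σ u - 1 - (a : Qb) * (u - 1) =
        (u ^ a - 1 - (a : Qb) * (u - 1)) + u ^ a * (w ^ 𝔓.p - 1) := by
      rw [hσu]; ring
    rw [h11]
    refine h2.add ?_
    have := hua_unit.ge.mul_gt hwp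
    rwa [zero_add] at this
  have h12 : 𝔓.v.Gt (((σ π / π) ^ i - (a : Qb)) * (u - 1)) ((i : ℚ) / e) := by
    have h13 : ((σ π / π) ^ i - (a : Qb)) * (u - 1) =
        (σ u - 1 - (a : Qb) * (u - 1)) - (σ u - 1 - (σ π / π) ^ i * (u - 1)) := by ring
    rw [h13]
    exact h10.sub h1
  have h14 := h12.div_is hui
  rwa [mul_div_cancel_right₀ _ hui.ne_zero, sub_self] at h14

end FFPlace

end Fermat.Agent.TW
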