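/-
P10 / G7 WP-B (helper5): the residue field of the place `𝔓` and the residue map in terms of the
valuation calculus (`lfRes x = lfRes y ↔ v(x - y) > 0`).
-/
import Fermat.Agent.Lib.TW.LF.KummerEquiv

set_option autoImplicit false
set_option linter.unusedSectionVars false
set_option linter.style.haveILetI false

open scoped IntermediateField
open Polynomial

namespace Fermat.Agent.TW

open Fermat.Agent.S05Lib

local notation "Qb" => AlgebraicClosure ℚ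
local notation "GQ" => (AlgebraicClosure ℚ ≃ₐ[ℚ] AlgebraicClosure ℚ)

namespace FFPlace

variable (𝔓 : FFPlace)

/-- the residue field of `𝔓` -/
abbrev LFk : Type := IsLocalRing.ResidueField ↥𝔓.P

/-- the residue map, extended by zero outside the valuation ring -/
noncomputable def lfRes (x : Qb) : 𝔓.LFk := by
  classical
  exact if h : x ∈ 𝔓.P then IsLocalRing.residue ↥𝔓.P ⟨x, h⟩ else 0

variable {𝔓}

lemma lfRes_of_mem {x : Qb} (h : x ∈ 𝔓.P) : 𝔓.lfRes x = IsLocalRing.residue ↥𝔓.P ⟨x, h⟩ := by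
  rw [lfRes, dif_pos h]

lemma lf_mem_P {x : Qb} (h : 𝔓.v.Ge x 0) : x ∈ 𝔓.P := (𝔓.mem_P_iff x).mpr h

lemma lfRes_zero : 𝔓.lfRes 0 = 0 := by
  rw [lfRes_of_mem (zero_mem _)]
  exact map_zero _

lemma lfRes_one : 𝔓.lfRes 1 = 1 := by
  rw [lfRes_of_mem (one_mem _)]
  exact map_one _

lemma lfRes_add {x y : Qb} (hx : 𝔓.v.Ge x 0) (hy : 𝔓.v.Ge y 0) :
    𝔓.lfRes (x + y) = 𝔓.lfRes x + 𝔓.lfRes y := by
  rw [lfRes_of_mem (lf_mem_P hx), lfRes_of_mem (lf_mem_P hy),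
    lfRes_of_mem (add_mem (lf_mem_P hx) (lf_mem_P hy)), ← map_add]
  rfl

lemma lfRes_mul {x y : Qb} (hx : 𝔓.v.Ge x 0) (hy : 𝔓.v.Ge y 0) :
    𝔓.lfRes (x * y) = 𝔓.lfRes x * 𝔓.lfRes y := by
  rw [lfRes_of_mem (lf_mem_P hx), lfRes_of_mem (lf_mem_P hy),
    lfRes_of_mem (mul_mem (lf_mem_P hx) (lf_mem_P hy)), ← map_mul]
  rfl

lemma lfRes_neg {x : Qb} (hx : 𝔓.v.Ge x 0) : 𝔓.lfRes (-x) = -𝔓.lfRes x := by
  rw [lfRes_of_mem (lf_mem_P hx), lfRes_of_mem (neg_mem (lf_mem_P hx)), ← map_neg]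
  rfl

lemma lfRes_sub {x y : Qb} (hx : 𝔓.v.Ge x 0) (hy : 𝔓.v.Ge y 0) :
    𝔓.lfRes (x - y) = 𝔓.lfRes x - 𝔓.lfRes y := by
  rw [sub_eq_add_neg, lfRes_add hx hy.neg, lfRes_neg hy, sub_eq_add_neg]

lemma lfRes_pow {x : Qb} (hx : 𝔓.v.Ge x 0) (n : ℕ) : 𝔓.lfRes (x ^ n) = 𝔓.lfRes x ^ n := by
  induction n with
  | zero => rw [pow_zero, pow_zero, lfRes_one]
  | succ n ih => rw [pow_succ, pow_succ, lfRes_mul (𝔓.ge_zero_pow hx n) hx, ih]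

lemma lfRes_natCast (n : ℕ) : 𝔓.lfRes (n : Qb) = (n : 𝔓.LFk) := by
  rw [lfRes_of_mem (natCast_mem _ n)]
  exact map_natCast (IsLocalRing.residue ↥𝔓.P) n

lemma lfRes_nsmul {x : Qb} (hx : 𝔓.v.Ge x 0) (n : ℕ) : 𝔓.lfRes (n • x) = n • 𝔓.lfRes x := by
  rw [nsmul_eq_mul, nsmul_eq_mul, lfRes_mul (𝔓.lf_ge_natCast n) hx, lfRes_natCast]

/-- the kernel of the residue map -/
lemma lfRes_eq_zero_iff {x : Qb} (hx : 𝔓.v.Ge x 0) : 𝔓.lfRes x = 0 ↔ 𝔓.v.Gt x 0 := by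
  rw [lfRes_of_mem (lf_mem_P hx), IsLocalRing.residue_eq_zero_iff, IsLocalRing.mem_maximalIdeal,
    mem_nonunits_iff]
  constructor
  · intro hnu
    by_contra hgt
    apply hnu
    have hx0 : x ≠ 0 := fun h => hgt (Or.inl h)
    have hord : 𝔓.v.ord x = 0 := by
      rcases hx with h | h
      · exact absurd h hx0
      · have : ¬ 0 < 𝔓.v.ord x := fun h' => hgt (Or.inr h')
        exact le_antisymm (not_lt.mp this) h
    have hinv : x⁻¹ ∈ 𝔓.P := by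
      rw [𝔓.mem_P_iff]
      right
      rw [𝔓.v.ord_inv hx0, hord, neg_zero]
    refine ⟨⟨⟨x, lf_mem_P hx⟩, ⟨x⁻¹, hinv⟩, ?_, ?_⟩, rfl⟩
    · exact Subtype.ext (mul_inv_cancel₀ hx0)
    · exact Subtype.ext (inv_mul_cancel₀ hx0)
  · rintro hgt ⟨u, hu⟩
    have h1 : x * ((u⁻¹ : (↥𝔓.P)ˣ) : ↥𝔓.P) = 1 := by
      have := u.mul_inv
      rw [hu] at this
      exact congrArg Subtype.val this
    have hge : 𝔓.v.Ge (((u⁻¹ : (↥𝔓.P)ˣ) : ↥𝔓.P) : Qb) 0 :=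
      (𝔓.mem_P_iff _).mp (((u⁻¹ : (↥𝔓.P)ˣ) : ↥𝔓.P)).2
    have := hgt.mul_ge hge
    rw [h1, add_zero] at this
    exact QVal.is_one.not_gt this le_rfl

lemma lfRes_eq_iff {x y : Qb} (hx : 𝔓.v.Ge x 0) (hy : 𝔓.v.Ge y 0) :
    𝔓.lfRes x = 𝔓.lfRes y ↔ 𝔓.v.Gt (x - y) 0 := by
  rw [← lfRes_eq_zero_iff (hx.sub hy), lfRes_sub hx hy, sub_eq_zero]

lemma lfRes_ne_zero_of_is {x : Qb} (hx : 𝔓.v.Is x 0) : 𝔓.lfRes x ≠ 0 := by
  rw [Ne, lfRes_eq_zero_iff hx.ge]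
  intro h
  exact hx.not_gt h le_rfl

/-- the residue field has characteristic `p` -/
lemma lfRes_natCast_eq_zero_iff (n : ℕ) : (n : 𝔓.LFk) = 0 ↔ 𝔓.p ∣ n := by
  rw [← lfRes_natCast, lfRes_eq_zero_iff (𝔓.lf_ge_natCast n)]
  constructor
  · intro h
    by_contra hn
    exact (𝔓.lf_is_natCast hn).not_gt h le_rfl
  · rintro ⟨m, rfl⟩
    have h1 : 𝔓.v.Gt (𝔓.p : Qb) 0 := 𝔓.is_p.gt one_pos
    have := h1.mul_ge (𝔓.lf_ge_natCast m)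
    rw [add_zero] at this
    rw [Nat.cast_mul]
    exact this

end FFPlace

end Fermat.Agent.TW
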