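/-
P10 / G7 WP-B (helper5): (COUNT) the counting lemma for Kummer characters of a fixed level.

Let `E ⊇ K0` be a subfield of `ℚ̄` with discrete value group (`π`, `e`) containing `ζ_p`, and let
`c : Gal(ℚ̄/E) → V` be a continuous homomorphism to a finite `𝔽_p`-vector space all of whose
nonzero Kummer classes have the same level `i₀` (`p ∤ i₀`, `0 < i₀ < p e / (p - 1)`).  If `c` is
equivariant for elements `g_r` of the decomposition group which act on the residue field through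
`x ↦ x ^ (p ^ f_r)` and on `V` through endomorphisms `S_r` satisfying a linear relation
`∑ m_r S_r = 0` with a unique dominant term `r₀`, then the image of `c` has at most `p ^ f_{r₀}`
elements: the leading coefficients of the Kummer generators are roots of an additive polynomial of
degree `p ^ f_{r₀}` over the residue field.
-/
import Fermat.Agent.Lib.TW.LF.Residue

set_option autoImplicit false
set_option linter.unusedSectionVars false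
set_option linter.style.haveILetI false

open scoped IntermediateField
open Polynomial

namespace Fermat.Agent.TW

open Fermat.Agent.S05Lib

local notation "Qb" => AlgebraicClosure ℚ
local notation "GQ" => (AlgebraicClosure ℚ ≃ₐ[ℚ] AlgebraicClosure ℚ)

namespace FFPlace

instance lfFactPrime (𝔓 : FFPlace) : Fact 𝔓.p.Prime := ⟨𝔓.hp⟩

variable (𝔓 : FFPlace)

section Count

variable {V : Type*} [AddCommGroup V] [Module (ZMod 𝔓.p) V]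

/-- the standing hypotheses of the counting lemma -/
structure LFCountHyp (E : IntermediateField ℚ Qb) (π : Qb) (e : ℕ) (ζ : Qb) (i₀ : ℕ)
    (c : GQ → V) : Prop where
  unif : 𝔓.LFUnif E π
  he : (e : ℚ) * 𝔓.v.ord π = 1
  prim : IsPrimitiveRoot ζ 𝔓.p
  zeta_mem : ζ ∈ E
  hi : ¬ 𝔓.p ∣ i₀
  hi0 : 0 < i₀
  hlt : (i₀ : ℚ) / e < (𝔓.p : ℚ) / ((𝔓.p : ℚ) - 1)
  add : ∀ σ ∈ E.fixingSubgroup, ∀ τ ∈ E.fixingSubgroup, c (σ * τ) = c σ + c τ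
  cont : ∃ F : IntermediateField ℚ Qb, FiniteDimensional ℚ F ∧
    ∀ σ ∈ E.fixingSubgroup, σ ∈ F.fixingSubgroup → c σ = 0
  lev : ∀ (ℓ : V →ₗ[ZMod 𝔓.p] ZMod 𝔓.p) (y : Qb), y ≠ 0 →
    (∀ σ ∈ E.fixingSubgroup, σ y = lfZPow ζ (ℓ (c σ)) * y) →
    y ∈ E ∨ ∃ w ∈ E, w ≠ 0 ∧ 𝔓.v.Is (y ^ 𝔓.p / w ^ 𝔓.p - 1) ((i₀ : ℚ) / e)

/-- `a` is a leading coefficient (at level `i₀`) of a Kummer generator of `ℓ ∘ c` -/
def LFLead (E : IntermediateField ℚ Qb) (π : Qb) (e : ℕ) (ζ : Qb) (i₀ : ℕ) (c : GQ → V)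
    (ℓ : V →ₗ[ZMod 𝔓.p] ZMod 𝔓.p) (a : Qb) : Prop :=
  𝔓.v.Ge a 0 ∧ ∃ y : Qb, y ≠ 0 ∧ (∀ σ ∈ E.fixingSubgroup, σ y = lfZPow ζ (ℓ (c σ)) * y) ∧
    𝔓.v.Gt (y ^ 𝔓.p - 1 - π ^ i₀ * a) ((i₀ : ℚ) / e)

variable {𝔓} {E : IntermediateField ℚ Qb} {π : Qb} {e : ℕ} {ζ : Qb} {i₀ : ℕ} {c : GQ → V}

namespace LFCountHyp

variable (H : 𝔓.LFCountHyp E π e ζ i₀ c)
include H

lemma e_pos : (0 : ℚ) < e := by
  have he0 : (e : ℚ) ≠ 0 := by
    rintro h0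
    have := H.he
    rw [h0, zero_mul] at this
    exact zero_ne_one this
  exact lt_of_le_of_ne (Nat.cast_nonneg e) (Ne.symm he0)

lemma ord_pi : 𝔓.v.ord π = 1 / e := by
  have := H.he
  have h := H.e_pos
  field_simp
  linarith

lemma lev_pos : (0 : ℚ) < (i₀ : ℚ) / e := div_pos (by exact_mod_cast H.hi0) H.e_pos

lemma is_pi_pow : 𝔓.v.Is (π ^ i₀) ((i₀ : ℚ) / e) := by
  have h1 : 𝔓.v.Is π (𝔓.v.ord π) := ⟨H.unif.ne_zero, rfl⟩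
  have := h1.pow i₀
  rw [H.ord_pi] at this
  exact this.congr (by ring)

/-- a generator of the trivial character is an element of `E` -/
lemma zero_of_mem {ℓ : V →ₗ[ZMod 𝔓.p] ZMod 𝔓.p} {y : Qb} (hy0 : y ≠ 0)
    (hy : ∀ σ ∈ E.fixingSubgroup, σ y = lfZPow ζ (ℓ (c σ)) * y) (hyE : y ∈ E) :
    ∀ σ ∈ E.fixingSubgroup, ℓ (c σ) = 0 := by
  intro σ hσ
  have h1 := hy σ hσ
  rw [IntermediateField.mem_fixingSubgroup_iff] at hσ
  rw [hσ y hyE] at h1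
  have h2 : lfZPow ζ (ℓ (c σ)) = 1 := by
    have : (lfZPow ζ (ℓ (c σ)) - 1) * y = 0 := by rw [sub_mul, one_mul, ← h1, sub_self]
    rcases mul_eq_zero.mp this with h | h
    · exact sub_eq_zero.mp h
    · exact absurd h hy0
  exact (lfZPow_eq_one_iff H.prim _).mp h2

/-- leading coefficients exist -/
lemma lead_exists (ℓ : V →ₗ[ZMod 𝔓.p] ZMod 𝔓.p) : ∃ a, 𝔓.LFLead E π e ζ i₀ c ℓ a := by
  obtain ⟨F, hFfin, hF⟩ := H.cont
  haveI := hFfin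
  obtain ⟨y, hy0, -, hy⟩ := lf_kummer_exists E H.prim.pow_eq_one H.zeta_mem
    (fun σ => ℓ (c σ)) (by
      intro σ hσ τ hτ
      rw [H.add σ hσ τ hτ, map_add]) F (by
      intro σ hσ hσF
      rw [hF σ hσ hσF, map_zero])
  rcases H.lev ℓ y hy0 hy with hyE | ⟨w, hw, hw0, hlev⟩
  · -- trivial character
    have h0 := H.zero_of_mem hy0 hy hyE
    refine ⟨0, QVal.ge_zero', 1, one_ne_zero, ?_, ?_⟩
    · intro σ hσ
      rw [h0 σ hσ, lfZPow_zero, map_one, one_mul]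
    · rw [one_pow, sub_self, mul_zero, sub_zero]
      exact QVal.gt_zero'
  · refine ⟨(y ^ 𝔓.p / w ^ 𝔓.p - 1) / π ^ i₀, ?_, y / w, div_ne_zero hy0 hw0, ?_, ?_⟩
    · have := hlev.div H.is_pi_pow
      rw [sub_self] at this
      exact this.ge
    · intro σ hσ
      rw [map_div₀, hy σ hσ, mul_div_assoc]
      rw [IntermediateField.mem_fixingSubgroup_iff] at hσ
      rw [hσ w hw]
    · rw [div_pow, mul_div_cancel₀ _ H.is_pi_pow.ne_zero, sub_self]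
      exact QVal.gt_zero'

/-- leading coefficients are additive -/
lemma lead_add {ℓ ℓ' : V →ₗ[ZMod 𝔓.p] ZMod 𝔓.p} {a a' : Qb}
    (h : 𝔓.LFLead E π e ζ i₀ c ℓ a) (h' : 𝔓.LFLead E π e ζ i₀ c ℓ' a') :
    𝔓.LFLead E π e ζ i₀ c (ℓ + ℓ') (a + a') := by
  obtain ⟨ha, y, hy0, hy, hgt⟩ := h
  obtain ⟨ha', y', hy0', hy', hgt'⟩ := h'
  refine ⟨ha.add ha', y * y', mul_ne_zero hy0 hy0', ?_, ?_⟩
  · intro σ hσ
    have := lf_kummer_mul E H.prim.pow_eq_one (fun σ => ℓ (c σ)) (fun σ => ℓ' (c σ)) hy hy' σ hσ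
    rw [LinearMap.add_apply]
    exact this
  · set r := y ^ 𝔓.p - 1 - π ^ i₀ * a with hr
    set r' := y' ^ 𝔓.p - 1 - π ^ i₀ * a' with hr'
    have hpos := H.lev_pos
    have hπ := H.is_pi_pow
    have e1 : (y * y') ^ 𝔓.p - 1 - π ^ i₀ * (a + a') =
        r + r' + (π ^ i₀ * a) * (π ^ i₀ * a') + (π ^ i₀ * a) * r' + r * (π ^ i₀ * a') + r * r' := by
      rw [hr, hr', mul_pow]; ring
    rw [e1]
    have hA : 𝔓.v.Ge (π ^ i₀ * a) ((i₀ : ℚ) / e) := by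
      have := hπ.ge.mul ha
      rwa [add_zero] at this
    have hA' : 𝔓.v.Ge (π ^ i₀ * a') ((i₀ : ℚ) / e) := by
      have := hπ.ge.mul ha'
      rwa [add_zero] at this
    have t1 : 𝔓.v.Gt ((π ^ i₀ * a) * (π ^ i₀ * a')) ((i₀ : ℚ) / e) :=
      (hA.mul hA').gt (by linarith)
    have t2 : 𝔓.v.Gt ((π ^ i₀ * a) * r') ((i₀ : ℚ) / e) :=
      (hA.mul_gt hgt').mono (by linarith)
    have t3 : 𝔓.v.Gt (r * (π ^ i₀ * a')) ((i₀ : ℚ) / e) :=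
      (hgt.mul_ge hA').mono (by linarith)
    have t4 : 𝔓.v.Gt (r * r') ((i₀ : ℚ) / e) :=
      (hgt.mul_ge hgt'.ge).mono (by linarith)
    exact ((((hgt.add hgt').add t1).add t2).add t3).add t4

/-- a generator whose `p`-th power is `≡ 1` beyond level `i₀` lies in `E` -/
lemma mem_of_gt {ℓ : V →ₗ[ZMod 𝔓.p] ZMod 𝔓.p} {y : Qb} (hy0 : y ≠ 0)
    (hy : ∀ σ ∈ E.fixingSubgroup, σ y = lfZPow ζ (ℓ (c σ)) * y)
    (hgt : 𝔓.v.Gt (y ^ 𝔓.p - 1) ((i₀ : ℚ) / e)) : y ∈ E := by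
  rcases H.lev ℓ y hy0 hy with hyE | ⟨w, hw, hw0, hlev⟩
  · exact hyE
  · exfalso
    -- `w ^ p = y ^ p / (1 + δ)` with `v(δ) = i₀ / e`
    set δ := y ^ 𝔓.p / w ^ 𝔓.p - 1 with hδ
    have hpos := H.lev_pos
    have h1δ : 𝔓.v.Is (1 + δ) 0 := QVal.is_one.add_gt (hlev.gt hpos)
    have hwp : w ^ 𝔓.p - 1 = ((y ^ 𝔓.p - 1) - δ) / (1 + δ) := by
      have hw0' : w ^ 𝔓.p ≠ 0 := pow_ne_zero _ hw0
      rw [eq_div_iff h1δ.ne_zero, hδ]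
      field_simp
      ring
    have h2 : 𝔓.v.Is ((y ^ 𝔓.p - 1) - δ) ((i₀ : ℚ) / e) := by
      have := hlev.neg.add_gt hgt
      rw [neg_add_eq_sub] at this
      exact this
    have h3 : 𝔓.v.Is (w ^ 𝔓.p - 1) ((i₀ : ℚ) / e) := by
      rw [hwp]
      have := h2.div h1δ
      rwa [sub_zero] at this
    exact 𝔓.lf_not_is_pow_sub_one H.unif H.he H.hi H.hi0 H.hlt hw h3

/-- the kernel of the leading coefficient map -/
lemma lead_ker {ℓ : V →ₗ[ZMod 𝔓.p] ZMod 𝔓.p} {a : Qb} (h : 𝔓.LFLead E π e ζ i₀ c ℓ a)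
    (ha : 𝔓.v.Gt a 0) : ∀ σ ∈ E.fixingSubgroup, ℓ (c σ) = 0 := by
  obtain ⟨-, y, hy0, hy, hgt⟩ := h
  have h1 : 𝔓.v.Gt (π ^ i₀ * a) ((i₀ : ℚ) / e) := by
    have := H.is_pi_pow.ge.mul_gt ha
    rwa [add_zero] at this
  have h2 : 𝔓.v.Gt (y ^ 𝔓.p - 1) ((i₀ : ℚ) / e) := by
    have := hgt.add h1
    rwa [sub_add_cancel] at this
  exact H.zero_of_mem hy0 hy (H.mem_of_gt hy0 hy h2)

lemma lead_zero {ℓ : V →ₗ[ZMod 𝔓.p] ZMod 𝔓.p} (h : ∀ σ ∈ E.fixingSubgroup, ℓ (c σ) = 0) :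
    𝔓.LFLead E π e ζ i₀ c ℓ 0 := by
  refine ⟨QVal.ge_zero', 1, one_ne_zero, ?_, ?_⟩
  · intro σ hσ
    rw [h σ hσ, lfZPow_zero, map_one, one_mul]
  · rw [one_pow, sub_self, mul_zero, sub_zero]
    exact QVal.gt_zero'

/-- leading coefficients are unique modulo the maximal ideal -/
lemma lead_unique {ℓ : V →ₗ[ZMod 𝔓.p] ZMod 𝔓.p} {a a' : Qb}
    (h : 𝔓.LFLead E π e ζ i₀ c ℓ a) (h' : 𝔓.LFLead E π e ζ i₀ c ℓ a') : 𝔓.v.Gt (a' - a) 0 := by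
  obtain ⟨ha, y, hy0, hy, hgt⟩ := h
  obtain ⟨ha', y', hy0', hy', hgt'⟩ := h'
  by_contra hcon
  have hpos := H.lev_pos
  have hπ := H.is_pi_pow
  have hd : 𝔓.v.Is (a' - a) 0 := by
    have hge := ha'.sub ha
    have hne : a' - a ≠ 0 := fun h0 => hcon (Or.inl h0)
    refine ⟨hne, ?_⟩
    rcases hge with h0 | h0
    · exact absurd h0 hne
    · exact le_antisymm (not_lt.mp fun hl => hcon (Or.inr hl)) h0
  have htE : y' / y ∈ E := lf_kummer_div_mem E H.prim.pow_eq_one (fun σ => ℓ (c σ)) hy hy'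
  -- `y ^ p` is a unit
  have hA : 𝔓.v.Ge (π ^ i₀ * a) ((i₀ : ℚ) / e) := by
    have := hπ.ge.mul ha
    rwa [add_zero] at this
  have hyp : 𝔓.v.Is (y ^ 𝔓.p) 0 := by
    have e1 : y ^ 𝔓.p = 1 + ((y ^ 𝔓.p - 1 - π ^ i₀ * a) + π ^ i₀ * a) := by ring
    rw [e1]
    exact QVal.is_one.add_gt ((hgt.mono hpos.le).add (hA.gt hpos))
  have e2 : (y' / y) ^ 𝔓.p - 1 =
      (π ^ i₀ * (a' - a) + ((y' ^ 𝔓.p - 1 - π ^ i₀ * a') - (y ^ 𝔓.p - 1 - π ^ i₀ * a))) /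
        y ^ 𝔓.p := by
    rw [div_pow, eq_div_iff hyp.ne_zero, sub_mul, div_mul_cancel₀ _ hyp.ne_zero]
    ring
  have h3 : 𝔓.v.Is ((y' / y) ^ 𝔓.p - 1) ((i₀ : ℚ) / e) := by
    rw [e2]
    have h4 : 𝔓.v.Is (π ^ i₀ * (a' - a)) ((i₀ : ℚ) / e) := by
      have := hπ.mul hd
      rwa [add_zero] at this
    have := (h4.add_gt (hgt'.sub hgt)).div hyp
    rwa [sub_zero] at this
  exact 𝔓.lf_not_is_pow_sub_one H.unif H.he H.hi H.hi0 H.hlt htE h3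

/-- equivariance of leading coefficients -/
lemma lead_conj {ℓ : V →ₗ[ZMod 𝔓.p] ZMod 𝔓.p} {a : Qb} (h : 𝔓.LFLead E π e ζ i₀ c ℓ a)
    {g : GQ} (hgD : g ∈ 𝔓.D) (hgE : ∀ σ ∈ E.fixingSubgroup, g⁻¹ * σ * g ∈ E.fixingSubgroup)
    {S : V →ₗ[ZMod 𝔓.p] V} (hS : ∀ σ ∈ E.fixingSubgroup, c (g⁻¹ * σ * g) = S (c σ))
    {α : ZMod 𝔓.p} (hα : g ζ = lfZPow ζ α) :
    𝔓.LFLead E π e ζ i₀ c (α • (ℓ ∘ₗ S)) ((g π / π) ^ i₀ * g a) := by
  obtain ⟨ha, y, hy0, hy, hgt⟩ := h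
  have hπ0 := H.unif.ne_zero
  have hπu : 𝔓.v.Is (g π / π) 0 := by
    have h1 : 𝔓.v.Is π (𝔓.v.ord π) := ⟨hπ0, rfl⟩
    have := (𝔓.is_D hgD h1).div h1
    rwa [sub_self] at this
  have hπui : 𝔓.v.Is ((g π / π) ^ i₀) 0 := by
    have := hπu.pow i₀
    rwa [mul_zero] at this
  refine ⟨?_, g y, (map_ne_zero_iff g g.injective).mpr hy0, ?_, ?_⟩
  · have := hπui.ge.mul (𝔓.ge_D hgD ha)
    rwa [add_zero] at this
  · intro σ hσ
    have := lf_kummer_conj E H.prim.pow_eq_one (fun σ => ℓ (c σ)) hy g hgE hα σ hσ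
    rw [this]
    congr 2
    simp only [LinearMap.smul_apply, LinearMap.comp_apply, smul_eq_mul]
    rw [hS σ hσ]
  · have e1 : (g y) ^ 𝔓.p - 1 - π ^ i₀ * ((g π / π) ^ i₀ * g a) =
        g (y ^ 𝔓.p - 1 - π ^ i₀ * a) := by
      rw [map_sub, map_sub, map_pow, map_one, map_mul, map_pow, div_pow]
      field_simp
    rw [e1]
    exact 𝔓.gt_D hgD hgt

/-- the leading coefficient map `Λ` -/
noncomputable def lead (ℓ : V →ₗ[ZMod 𝔓.p] ZMod 𝔓.p) : 𝔓.LFk :=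
  𝔓.lfRes (H.lead_exists ℓ).choose

lemma lead_spec (ℓ : V →ₗ[ZMod 𝔓.p] ZMod 𝔓.p) :
    𝔓.LFLead E π e ζ i₀ c ℓ (H.lead_exists ℓ).choose := (H.lead_exists ℓ).choose_spec

lemma lead_eq {ℓ : V →ₗ[ZMod 𝔓.p] ZMod 𝔓.p} {a : Qb} (h : 𝔓.LFLead E π e ζ i₀ c ℓ a) :
    H.lead ℓ = 𝔓.lfRes a := by
  rw [lead, lfRes_eq_iff (H.lead_spec ℓ).1 h.1]
  have := H.lead_unique h (H.lead_spec ℓ)
  exact this

lemma lead_map_add (ℓ ℓ' : V →ₗ[ZMod 𝔓.p] ZMod 𝔓.p) :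
    H.lead (ℓ + ℓ') = H.lead ℓ + H.lead ℓ' := by
  rw [H.lead_eq (H.lead_add (H.lead_spec ℓ) (H.lead_spec ℓ')),
    lfRes_add (H.lead_spec ℓ).1 (H.lead_spec ℓ').1]
  rfl

lemma lead_eq_zero_iff (ℓ : V →ₗ[ZMod 𝔓.p] ZMod 𝔓.p) :
    H.lead ℓ = 0 ↔ ∀ σ ∈ E.fixingSubgroup, ℓ (c σ) = 0 := by
  constructor
  · intro h
    rw [lead, lfRes_eq_zero_iff (H.lead_spec ℓ).1] at h
    exact H.lead_ker (H.lead_spec ℓ) h
  · intro h
    rw [H.lead_eq (H.lead_zero h), lfRes_zero]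

/-- `Λ` as an additive map -/
noncomputable def leadHom : (V →ₗ[ZMod 𝔓.p] ZMod 𝔓.p) →+ 𝔓.LFk :=
  AddMonoidHom.mk' H.lead H.lead_map_add

lemma leadHom_apply (ℓ : V →ₗ[ZMod 𝔓.p] ZMod 𝔓.p) : H.leadHom ℓ = H.lead ℓ := rfl

/-- the semilinearity of `Λ` -/
lemma lead_conj_eq (ℓ : V →ₗ[ZMod 𝔓.p] ZMod 𝔓.p)
    {g : GQ} (hgD : g ∈ 𝔓.D) (hgE : ∀ σ ∈ E.fixingSubgroup, g⁻¹ * σ * g ∈ E.fixingSubgroup)
    {S : V →ₗ[ZMod 𝔓.p] V} (hS : ∀ σ ∈ E.fixingSubgroup, c (g⁻¹ * σ * g) = S (c σ))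
    {α : ZMod 𝔓.p} (hα : g ζ = lfZPow ζ α) {f : ℕ}
    (hf : ∀ x, 𝔓.v.Ge x 0 → 𝔓.v.Gt (g x - x ^ (𝔓.p ^ f)) 0) :
    H.lead (α • (ℓ ∘ₗ S)) = 𝔓.lfRes ((g π / π) ^ i₀) * H.lead ℓ ^ (𝔓.p ^ f) := by
  have hπ0 := H.unif.ne_zero
  have hπu : 𝔓.v.Is (g π / π) 0 := by
    have h1 : 𝔓.v.Is π (𝔓.v.ord π) := ⟨hπ0, rfl⟩
    have := (𝔓.is_D hgD h1).div h1
    rwa [sub_self] at this
  have hπui : 𝔓.v.Is ((g π / π) ^ i₀) 0 := by
    have := hπu.pow i₀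
    rwa [mul_zero] at this
  have ha := (H.lead_spec ℓ).1
  rw [H.lead_eq (H.lead_conj (H.lead_spec ℓ) hgD hgE hS hα),
    lfRes_mul hπui.ge (𝔓.ge_D hgD ha)]
  congr 1
  rw [lead, ← lfRes_pow ha, lfRes_eq_iff (𝔓.ge_D hgD ha) (𝔓.ge_zero_pow ha _)]
  exact hf _ ha

/-- the kernel of `Λ` is the annihilator of the image of `c` -/
lemma leadHom_ker_iff (ℓ : V →ₗ[ZMod 𝔓.p] ZMod 𝔓.p) :
    ℓ ∈ H.leadHom.ker ↔
      ℓ ∈ (Submodule.span (ZMod 𝔓.p) {x : V | ∃ σ ∈ E.fixingSubgroup, c σ = x}).dualAnnihilator := by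
  rw [AddMonoidHom.mem_ker, leadHom_apply, H.lead_eq_zero_iff, Submodule.mem_dualAnnihilator]
  constructor
  · intro h w hw
    have hle : Submodule.span (ZMod 𝔓.p) {x : V | ∃ σ ∈ E.fixingSubgroup, c σ = x} ≤
        LinearMap.ker ℓ := by
      rw [Submodule.span_le]
      rintro x ⟨σ, hσ, rfl⟩
      exact h σ hσ
    exact hle hw
  · intro h σ hσ
    exact h _ (Submodule.subset_span ⟨σ, hσ, rfl⟩)

/-- **(COUNT)** -/
theorem card_span_le [Finite V] {ι : Type*} (R : Finset ι) (g : ι → GQ)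
    (hgD : ∀ r ∈ R, g r ∈ 𝔓.D)
    (hgE : ∀ r ∈ R, ∀ σ ∈ E.fixingSubgroup, (g r)⁻¹ * σ * g r ∈ E.fixingSubgroup)
    (S : ι → V →ₗ[ZMod 𝔓.p] V)
    (hS : ∀ r ∈ R, ∀ σ ∈ E.fixingSubgroup, c ((g r)⁻¹ * σ * g r) = S r (c σ))
    (f : ι → ℕ) (hf : ∀ r ∈ R, ∀ x, 𝔓.v.Ge x 0 → 𝔓.v.Gt (g r x - x ^ (𝔓.p ^ f r)) 0)
    (m : ι → ZMod 𝔓.p) (hrel : ∑ r ∈ R, m r • S r = 0) {r₀ : ι} (hr₀ : r₀ ∈ R) (hm : m r₀ ≠ 0)
    (hmax : ∀ r ∈ R, r ≠ r₀ → f r < f r₀) :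
    Nat.card ↥(Submodule.span (ZMod 𝔓.p) {x : V | ∃ σ ∈ E.fixingSubgroup, c σ = x}) ≤
      𝔓.p ^ f r₀ := by
  classical
  have hp := 𝔓.hp
  -- the exponents `α_r`
  have hα : ∀ r ∈ R, ∃ α : ZMod 𝔓.p, α ≠ 0 ∧ g r ζ = lfZPow ζ α := by
    intro r _
    have h1 : (g r ζ) ^ 𝔓.p = 1 := by rw [← map_pow, H.prim.pow_eq_one, map_one]
    obtain ⟨α, hα⟩ := lf_exists_eq_lfZPow H.prim h1
    refine ⟨α, ?_, hα⟩
    rintro rfl
    rw [lfZPow_zero] at hα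
    have : ζ = 1 := (g r).injective (by rw [hα, map_one])
    exact H.prim.ne_one hp.one_lt this
  choose! α hα0 hα using hα
  set κ : ι → 𝔓.LFk := fun r => 𝔓.lfRes ((g r π / π) ^ i₀) with hκ
  set coef : ι → 𝔓.LFk := fun r => ((m r).val : 𝔓.LFk) * (((α r)⁻¹).val : 𝔓.LFk) * κ r with hcoef
  set Q : 𝔓.LFk[X] := ∑ r ∈ R, C (coef r) * X ^ (𝔓.p ^ f r) with hQ
  -- every leading coefficient is a root of `Q`
  have hroot : ∀ ℓ : V →ₗ[ZMod 𝔓.p] ZMod 𝔓.p, Q.eval (H.lead ℓ) = 0 := by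
    intro ℓ
    have key : ∀ r ∈ R, H.leadHom (m r • (ℓ ∘ₗ S r)) = coef r * H.lead ℓ ^ (𝔓.p ^ f r) := by
      intro r hr
      have e1 : m r • (ℓ ∘ₗ S r) = ((m r).val * ((α r)⁻¹).val) • (α r • (ℓ ∘ₗ S r)) := by
        rw [← Nat.cast_smul_eq_nsmul (ZMod 𝔓.p), Nat.cast_mul, ZMod.natCast_zmod_val,
          ZMod.natCast_zmod_val, smul_smul, mul_assoc, inv_mul_cancel₀ (hα0 r hr), mul_one]
      rw [e1, map_nsmul, leadHom_apply,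
        H.lead_conj_eq ℓ (hgD r hr) (hgE r hr) (hS r hr) (hα r hr) (hf r hr), nsmul_eq_mul,
        Nat.cast_mul, hcoef]
      ring
    have h0 : ∑ r ∈ R, m r • (ℓ ∘ₗ S r) = 0 := by
      apply LinearMap.ext
      intro x
      have h1 := congrArg (fun T : V →ₗ[ZMod 𝔓.p] V => ℓ (T x)) hrel
      simp only [LinearMap.sum_apply, LinearMap.smul_apply, map_sum, map_smul,
        LinearMap.zero_apply, map_zero] at h1
      simpa [LinearMap.sum_apply] using h1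
    have h2 := congrArg H.leadHom h0
    rw [map_sum, map_zero, Finset.sum_congr rfl key] at h2
    rw [hQ, Polynomial.eval_finsetSum]
    simpa using h2
  -- `Q ≠ 0`
  have hval_ne : ∀ a : ZMod 𝔓.p, a ≠ 0 → ((a.val : ℕ) : 𝔓.LFk) ≠ 0 := by
    intro a ha h0
    rw [lfRes_natCast_eq_zero_iff] at h0
    have := Nat.eq_zero_of_dvd_of_lt h0 (ZMod.val_lt a)
    exact ha ((ZMod.val_eq_zero a).mp this)
  have hκ0 : ∀ r ∈ R, κ r ≠ 0 := by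
    intro r hr
    have h1 : 𝔓.v.Is π (𝔓.v.ord π) := ⟨H.unif.ne_zero, rfl⟩
    have h2 := (𝔓.is_D (hgD r hr) h1).div h1
    rw [sub_self] at h2
    have h3 := h2.pow i₀
    rw [mul_zero] at h3
    exact lfRes_ne_zero_of_is h3
  have hcoef0 : coef r₀ ≠ 0 :=
    mul_ne_zero (mul_ne_zero (hval_ne _ hm) (hval_ne _ (inv_ne_zero (hα0 r₀ hr₀)))) (hκ0 r₀ hr₀)
  have hcoeffQ : Q.coeff (𝔓.p ^ f r₀) = coef r₀ := by
    rw [hQ, Polynomial.finsetSum_coeff, Finset.sum_eq_single r₀]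
    · rw [Polynomial.coeff_C_mul, Polynomial.coeff_X_pow, if_pos rfl, mul_one]
    · intro r hr hne
      rw [Polynomial.coeff_C_mul, Polynomial.coeff_X_pow, if_neg, mul_zero]
      intro heq
      have := Nat.pow_right_injective hp.two_le heq
      exact absurd this.symm (hmax r hr hne).ne
    · intro h; exact absurd hr₀ h
  have hQ0 : Q ≠ 0 := by
    intro h0
    rw [h0, Polynomial.coeff_zero] at hcoeffQ
    exact hcoef0 hcoeffQ.symm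
  have hdeg : Q.natDegree ≤ 𝔓.p ^ f r₀ := by
    rw [hQ]
    refine Polynomial.natDegree_sum_le_of_forall_le R _ fun r hr => ?_
    refine (Polynomial.natDegree_C_mul_X_pow_le _ _).trans ?_
    apply Nat.pow_le_pow_right hp.pos
    by_cases h : r = r₀
    · rw [h]
    · exact (hmax r hr h).le
  -- counting
  haveI : Finite (V →ₗ[ZMod 𝔓.p] ZMod 𝔓.p) := Module.finite_of_finite (ZMod 𝔓.p)
  haveI : Fintype (V →ₗ[ZMod 𝔓.p] ZMod 𝔓.p) := Fintype.ofFinite _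
  set Z : Finset 𝔓.LFk := Finset.image H.lead Finset.univ with hZ
  have hZcard : Z.card ≤ 𝔓.p ^ f r₀ := by
    refine (Polynomial.card_le_degree_of_subset_roots ?_).trans hdeg
    intro z hz
    rw [Finset.mem_val, hZ, Finset.mem_image] at hz
    obtain ⟨ℓ, -, rfl⟩ := hz
    exact (Polynomial.mem_roots hQ0).mpr (hroot ℓ)
  have hrange : Nat.card ↥H.leadHom.range = Z.card := by
    have : (H.leadHom.range : Set 𝔓.LFk) = ↑Z := by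
      rw [AddMonoidHom.coe_range, hZ, Finset.coe_image, Finset.coe_univ, Set.image_univ]
      rfl
    calc Nat.card ↥H.leadHom.range = Nat.card ↥(H.leadHom.range : Set 𝔓.LFk) := rfl
      _ = Nat.card ↥(↑Z : Set 𝔓.LFk) := by rw [this]
      _ = Z.card := by rw [Nat.card_coe_set_eq, Set.ncard_coe_finset]
  set A := Submodule.span (ZMod 𝔓.p) {x : V | ∃ σ ∈ E.fixingSubgroup, c σ = x} with hA
  have hker : Nat.card ↥H.leadHom.ker = Nat.card ↥A.dualAnnihilator :=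
    Nat.card_congr (Equiv.subtypeEquivRight fun ℓ => H.leadHom_ker_iff ℓ)
  have h1 := AddSubgroup.card_mul_index H.leadHom.ker
  rw [AddSubgroup.index_ker, hker, hrange] at h1
  have hpc : Nat.card (ZMod 𝔓.p) = 𝔓.p := Nat.card_zmod 𝔓.p
  have h2 : Nat.card (V →ₗ[ZMod 𝔓.p] ZMod 𝔓.p) = 𝔓.p ^ Module.finrank (ZMod 𝔓.p) V := by
    rw [Module.natCard_eq_pow_finrank (K := ZMod 𝔓.p), hpc]
    congr 1
    exact Subspace.dual_finrank_eq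
  have h3 : Nat.card ↥A.dualAnnihilator =
      𝔓.p ^ Module.finrank (ZMod 𝔓.p) ↥A.dualAnnihilator := by
    rw [Module.natCard_eq_pow_finrank (K := ZMod 𝔓.p), hpc]
  have h4 : Nat.card ↥A = 𝔓.p ^ Module.finrank (ZMod 𝔓.p) ↥A := by
    rw [Module.natCard_eq_pow_finrank (K := ZMod 𝔓.p), hpc]
  have h5 := Subspace.finrank_add_finrank_dualAnnihilator_eq A
  rw [h2, h3, ← h5, pow_add, mul_comm] at h1
  have h6 : Z.card = 𝔓.p ^ Module.finrank (ZMod 𝔓.p) ↥A :=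
    Nat.eq_of_mul_eq_mul_right (pow_pos hp.pos _) h1
  rw [h4, ← h6]
  exact hZcard

end LFCountHyp

end Count

end FFPlace

end Fermat.Agent.TW
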