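/-
P10 / G7 WP-B (helper5): (LEVELS) relations in the group ring of the inertia group and the level
of a Kummer class: if `u ∈ E` has level `i` and `∏_r (g_r u) ^ (m_r)` is a `p`-th power in `E`
(`g_r ∈ I`), then `∑_r m_r (g_r π / π) ^ i ≡ 0` modulo the maximal ideal.
-/
import Fermat.Agent.Lib.TW.LF.Count

set_option autoImplicit false
set_option linter.unusedSectionVars false
set_option linter.style.haveILetI false

open scoped IntermediateField
open Polynomial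

namespace Fermat.Agent.TW

open Fermat.Agent.S05Lib

local notation "Qb" => AlgebraicClosure ℚ
local notation "GQ" => (AlgebraicClosure ℚ ≃ₐ[ℚ] AlgebraicClosure ℚ)

namespace FFPlace

variable (𝔓 : FFPlace)

/-- `z ≡ 1 + s` modulo terms of valuation `> c`, with `v(s) ≥ c` -/
def LFCong (c : ℚ) (z s : Qb) : Prop := 𝔓.v.Ge s c ∧ 𝔓.v.Gt (z - 1 - s) c

variable {𝔓}

lemma LFCong.one {c : ℚ} : 𝔓.LFCong c 1 0 :=
  ⟨QVal.ge_zero', by rw [sub_self, sub_zero]; exact QVal.gt_zero'⟩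

lemma LFCong.mul {c : ℚ} (hc : 0 < c) {z z' s s' : Qb} (h : 𝔓.LFCong c z s)
    (h' : 𝔓.LFCong c z' s') : 𝔓.LFCong c (z * z') (s + s') := by
  obtain ⟨hs, hr⟩ := h
  obtain ⟨hs', hr'⟩ := h'
  refine ⟨hs.add hs', ?_⟩
  set r := z - 1 - s with hrd
  set r' := z' - 1 - s' with hrd'
  have e1 : z * z' - 1 - (s + s') = r + r' + s * s' + s * r' + r * s' + r * r' := by
    rw [hrd, hrd']; ring
  rw [e1]
  have t1 : 𝔓.v.Gt (s * s') c := (hs.mul hs').gt (by linarith)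
  have t2 : 𝔓.v.Gt (s * r') c := (hs.mul_gt hr').mono (by linarith)
  have t3 : 𝔓.v.Gt (r * s') c := (hr.mul_ge hs').mono (by linarith)
  have t4 : 𝔓.v.Gt (r * r') c := (hr.mul_ge hr'.ge).mono (by linarith)
  exact ((((hr.add hr').add t1).add t2).add t3).add t4

lemma LFCong.pow {c : ℚ} (hc : 0 < c) {z s : Qb} (h : 𝔓.LFCong c z s) (n : ℕ) :
    𝔓.LFCong c (z ^ n) ((n : Qb) * s) := by
  induction n with
  | zero => rw [pow_zero, Nat.cast_zero, zero_mul]; exact LFCong.one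
  | succ n ih =>
    have := ih.mul hc h
    rw [pow_succ, Nat.cast_succ, add_mul, one_mul]
    exact this

lemma LFCong.prod {c : ℚ} (hc : 0 < c) {ι : Type*} (R : Finset ι) (z s : ι → Qb)
    (h : ∀ r ∈ R, 𝔓.LFCong c (z r) (s r)) : 𝔓.LFCong c (∏ r ∈ R, z r) (∑ r ∈ R, s r) := by
  classical
  induction R using Finset.induction_on with
  | empty => rw [Finset.prod_empty, Finset.sum_empty]; exact LFCong.one
  | insert a R ha ih =>
    rw [Finset.prod_insert ha, Finset.sum_insert ha]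
    exact (h a (Finset.mem_insert_self a R)).mul hc
      (ih fun r hr => h r (Finset.mem_insert_of_mem hr))

variable (𝔓)

/-- **(LEVELS)**, multiplicative form. -/
theorem lf_level_rel {E : IntermediateField ℚ Qb} {π : Qb} (hπ : 𝔓.LFUnif E π) {e : ℕ}
    (he : (e : ℚ) * 𝔓.v.ord π = 1) {i : ℕ} (hi : ¬ 𝔓.p ∣ i) (hi0 : 0 < i)
    (hlt : (i : ℚ) / e < (𝔓.p : ℚ) / ((𝔓.p : ℚ) - 1)) {u : Qb}
    (hui : 𝔓.v.Is (u - 1) ((i : ℚ) / e)) {ι : Type*} (R : Finset ι) (g : ι → GQ)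
    (hg : ∀ r ∈ R, g r ∈ 𝔓.I) (m : ι → ℕ) {w : Qb} (hw : w ∈ E)
    (hrel : ∏ r ∈ R, (g r u) ^ (m r) = w ^ 𝔓.p) :
    𝔓.v.Gt (∑ r ∈ R, (m r : Qb) * (g r π / π) ^ i) 0 := by
  have he0 : (e : ℚ) ≠ 0 := by
    rintro h0; rw [h0, zero_mul] at he; exact zero_ne_one he
  have hepos : (0 : ℚ) < e := lt_of_le_of_ne (Nat.cast_nonneg e) (Ne.symm he0)
  have hordπ : 𝔓.v.ord π = 1 / e := by field_simp; linarith
  have hie : (i : ℚ) * 𝔓.v.ord π = (i : ℚ) / e := by rw [hordπ]; ring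
  have hipos : (0 : ℚ) < (i : ℚ) / e := div_pos (by exact_mod_cast hi0) hepos
  -- each factor
  have h1 : ∀ r ∈ R, 𝔓.LFCong ((i : ℚ) / e) ((g r u) ^ (m r))
      ((m r : Qb) * ((g r π / π) ^ i * (u - 1))) := by
    intro r hr
    refine LFCong.pow hipos ?_ (m r)
    have h2 := 𝔓.lf_gt_apply_sub_one (hg r hr) hπ.ne_zero (i := i) (u := u)
      (by rw [hie]; exact hui.ge)
    rw [hie] at h2
    refine ⟨?_, h2⟩
    have hπu : 𝔓.v.Is (g r π / π) 0 := by
      have h3 : 𝔓.v.Is π (𝔓.v.ord π) := ⟨hπ.ne_zero, rfl⟩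
      have := (𝔓.is_D (𝔓.I_le_D (hg r hr)) h3).div h3
      rwa [sub_self] at this
    have := ((hπu.pow i).mul hui).ge
    rw [mul_zero, zero_add] at this
    exact this
  have h4 := LFCong.prod hipos R _ _ h1
  rw [hrel] at h4
  obtain ⟨-, h5⟩ := h4
  -- the sum
  set Sg := ∑ r ∈ R, (m r : Qb) * (g r π / π) ^ i with hSdef
  have e1 : ∑ r ∈ R, (m r : Qb) * ((g r π / π) ^ i * (u - 1)) = Sg * (u - 1) := by
    rw [hSdef, Finset.sum_mul]
    exact Finset.sum_congr rfl fun r _ => by ring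
  rw [e1] at h5
  have hSge : 𝔓.v.Ge Sg 0 := by
    rw [hSdef]
    refine 𝔓.ge_zero_sum _ _ fun r hr => ?_
    have hπu : 𝔓.v.Is (g r π / π) 0 := by
      have h3 : 𝔓.v.Is π (𝔓.v.ord π) := ⟨hπ.ne_zero, rfl⟩
      have := (𝔓.is_D (𝔓.I_le_D (hg r hr)) h3).div h3
      rwa [sub_self] at this
    have := (𝔓.lf_ge_natCast (m r)).mul (hπu.pow i).ge
    rw [mul_zero, add_zero] at this
    exact this
  by_contra hcon
  have hSis : 𝔓.v.Is Sg 0 := by
    have hne : Sg ≠ 0 := fun h0 => hcon (Or.inl h0)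
    refine ⟨hne, ?_⟩
    rcases hSge with h0 | h0
    · exact absurd h0 hne
    · exact le_antisymm (not_lt.mp fun hl => hcon (Or.inr hl)) h0
  have h6 : 𝔓.v.Is (Sg * (u - 1)) ((i : ℚ) / e) := by
    have := hSis.mul hui
    rwa [zero_add] at this
  have h7 : 𝔓.v.Is (w ^ 𝔓.p - 1) ((i : ℚ) / e) := by
    have := h6.add_gt' h5
    rwa [sub_add_cancel] at this
  exact 𝔓.lf_not_is_pow_sub_one hπ he hi hi0 hlt hw h7

end FFPlace

end Fermat.Agent.TW
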