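/-
P10 / G7 WP-B (helper5): (COUNT), consumer form: a Kummer homomorphism `c : Gal(ℚ̄/E) → W` of
fixed level with values in a vector space over a finite field `k`, equivariant (through scalars
`ε`, `lam ∈ k`) for an element `g₁` of the inertia group and an element `g₀` of the decomposition
group acting on residues by `x ↦ x ^ (p ^ f₀)`, `f₀ ≤ [𝔽_p(ε) : 𝔽_p]`, has its image on a `k`-line.
-/
import Fermat.Agent.Lib.TW.LF.Levels

set_option autoImplicit false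
set_option linter.unusedSectionVars false
set_option linter.style.haveILetI false

open scoped IntermediateField
open Polynomial

namespace Fermat.Agent.TW

open Fermat.Agent.S05Lib

local notation "Qb" => AlgebraicClosure ℚ
local notation "GQ" => (AlgebraicClosure ℚ ≃ₐ[ℚ] AlgebraicClosure ℚ)

/-- conjugation by powers -/
lemma lf_conj_pow {X : Type*} {k : Type*} [Monoid k] [MulAction k X] (H : Subgroup GQ)
    (c : GQ → X) {g : GQ} (hgE : ∀ σ ∈ H, g⁻¹ * σ * g ∈ H) {s : k}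
    (hs : ∀ σ ∈ H, c (g⁻¹ * σ * g) = s • c σ) (n : ℕ) :
    (∀ σ ∈ H, (g ^ n)⁻¹ * σ * g ^ n ∈ H) ∧ ∀ σ ∈ H, c ((g ^ n)⁻¹ * σ * g ^ n) = s ^ n • c σ := by
  induction n with
  | zero =>
    refine ⟨fun σ hσ => by simpa using hσ, fun σ _ => by simp⟩
  | succ n ih =>
    have e : ∀ σ : GQ, (g ^ (n + 1))⁻¹ * σ * g ^ (n + 1) = g⁻¹ * ((g ^ n)⁻¹ * σ * g ^ n) * g := by
      intro σ
      rw [pow_succ, mul_inv_rev]
      group
    refine ⟨fun σ hσ => ?_, fun σ hσ => ?_⟩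
    · rw [e]; exact hgE _ (ih.1 σ hσ)
    · rw [e, hs _ (ih.1 σ hσ), ih.2 σ hσ, smul_smul, ← pow_succ']

/-- elements of a simple algebraic extension are polynomials in the generator -/
lemma lf_exists_aeval_eq {K L : Type*} [Field K] [Field L] [Algebra K L] {x : L}
    (hx : IsAlgebraic K x) (a : ↥K⟮x⟯) : ∃ q : K[X], aeval x q = (a : L) := by
  have h1 : (a : L) ∈ (K⟮x⟯).toSubalgebra := a.2
  rw [IntermediateField.adjoin_simple_toSubalgebra_of_isAlgebraic hx,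
    Algebra.adjoin_singleton_eq_range_aeval] at h1
  obtain ⟨q, hq⟩ := h1
  exact ⟨q, hq⟩

namespace FFPlace

variable (𝔓 : FFPlace)

/-- powers of an element acting on residues by `x ↦ x ^ (p ^ f)` -/
lemma lf_frob_pow {g : GQ} (hg : g ∈ 𝔓.D) {f : ℕ}
    (hf : ∀ x, 𝔓.v.Ge x 0 → 𝔓.v.Gt (g x - x ^ (𝔓.p ^ f)) 0) (n : ℕ) :
    ∀ x, 𝔓.v.Ge x 0 → 𝔓.v.Gt ((g ^ n) x - x ^ (𝔓.p ^ (f * n))) 0 := by
  induction n with
  | zero =>
    intro x _
    simp only [pow_zero, AlgEquiv.one_apply, mul_zero, pow_one, sub_self]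
    exact QVal.gt_zero'
  | succ n ih =>
    intro x hx
    have h1 := ih x hx
    have h2 : 𝔓.v.Gt (g ((g ^ n) x) - g (x ^ (𝔓.p ^ (f * n)))) 0 := by
      rw [← map_sub]; exact 𝔓.gt_D hg h1
    have h3 := hf (x ^ (𝔓.p ^ (f * n))) (𝔓.ge_zero_pow hx _)
    have e1 : (g ^ (n + 1)) x = g ((g ^ n) x) := by rw [pow_succ', AlgEquiv.mul_apply]
    have e2 : x ^ (𝔓.p ^ (f * (n + 1))) = (x ^ (𝔓.p ^ (f * n))) ^ (𝔓.p ^ f) := by
      rw [← pow_mul, ← pow_add, mul_add, mul_one]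
    rw [e1, e2]
    have := h2.add h3
    rwa [sub_add_sub_cancel] at this

section Line

variable {𝔓}
variable {k : Type*} [Field k] [Finite k] [Algebra (ZMod 𝔓.p) k]
  {W : Type*} [AddCommGroup W] [Module (ZMod 𝔓.p) W] [Module k W] [IsScalarTower (ZMod 𝔓.p) k W]
  [Finite W]
  {E : IntermediateField ℚ Qb} {π : Qb} {e : ℕ} {ζ : Qb} {i₀ : ℕ} {c : GQ → W}

/-- scalar multiplication as an `𝔽_p`-linear map -/
noncomputable def lfSmulEnd (t : k) : W →ₗ[ZMod 𝔓.p] W :=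
  (t • (LinearMap.id : W →ₗ[k] W)).restrictScalars (ZMod 𝔓.p)

lemma lfSmulEnd_apply (t : k) (x : W) : (lfSmulEnd (𝔓 := 𝔓) t) x = t • x := rfl

theorem LFCountHyp.exists_line (H : 𝔓.LFCountHyp E π e ζ i₀ c) {g₁ g₀ : GQ} (hg₁ : g₁ ∈ 𝔓.I)
    (hg₀ : g₀ ∈ 𝔓.D)
    (hg₁E : ∀ σ ∈ E.fixingSubgroup, g₁⁻¹ * σ * g₁ ∈ E.fixingSubgroup)
    (hg₀E : ∀ σ ∈ E.fixingSubgroup, g₀⁻¹ * σ * g₀ ∈ E.fixingSubgroup)
    {ε lam : k} (hε : ∀ σ ∈ E.fixingSubgroup, c (g₁⁻¹ * σ * g₁) = ε • c σ)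
    (hlam : ∀ σ ∈ E.fixingSubgroup, c (g₀⁻¹ * σ * g₀) = lam • c σ)
    {f₀ : ℕ} (hf₀pos : 0 < f₀) (hf₀ : ∀ x, 𝔓.v.Ge x 0 → 𝔓.v.Gt (g₀ x - x ^ (𝔓.p ^ f₀)) 0)
    (hd : f₀ ≤ (minpoly (ZMod 𝔓.p) ε).natDegree) :
    ∃ w : W, ∀ σ ∈ E.fixingSubgroup, ∃ t : k, c σ = t • w := by
  classical
  have hp := 𝔓.hp
  haveI : Module.Finite (ZMod 𝔓.p) k := Module.Finite.of_finite
  haveI : Algebra.IsAlgebraic (ZMod 𝔓.p) k := Algebra.IsAlgebraic.of_finite _ _
  have hεint : IsIntegral (ZMod 𝔓.p) ε := Algebra.IsIntegral.isIntegral ε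
  -- the fields `k₀ = 𝔽_p(ε)` and `k' = k₀(lam)`
  set k₀ : IntermediateField (ZMod 𝔓.p) k := (ZMod 𝔓.p)⟮ε⟯ with hk₀
  haveI : Module.Finite ↥k₀ k := Module.Finite.of_finite
  have hlamint : IsIntegral ↥k₀ lam := Algebra.IsIntegral.isIntegral lam
  set P₂ : (↥k₀)[X] := minpoly ↥k₀ lam with hP₂
  set n := P₂.natDegree with hn
  have hP₂m : P₂.Monic := minpoly.monic hlamint
  -- coefficients as polynomials in `ε`
  have hq : ∀ a : ↥k₀, ∃ q : (ZMod 𝔓.p)[X], aeval ε q = (a : k) :=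
    fun a => lf_exists_aeval_eq hεint.isAlgebraic a
  choose q hq using hq
  set D := (Finset.range n).sup (fun j => (q (P₂.coeff j)).natDegree + 1) with hD
  -- the family
  set R : Finset (ℕ × ℕ) := (Finset.range n ×ˢ Finset.range D) ∪ {(n, 0)} with hR
  set g : ℕ × ℕ → GQ := fun r => g₁ ^ r.2 * g₀ ^ r.1 with hg
  set S : ℕ × ℕ → (W →ₗ[ZMod 𝔓.p] W) := fun r => lfSmulEnd (𝔓 := 𝔓) (ε ^ r.2 * lam ^ r.1) with hS
  set f : ℕ × ℕ → ℕ := fun r => f₀ * r.1 with hf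
  set m : ℕ × ℕ → ZMod 𝔓.p := fun r => if r.1 = n then 1 else (q (P₂.coeff r.1)).coeff r.2 with hm
  have hgD : ∀ r ∈ R, g r ∈ 𝔓.D := fun r _ =>
    𝔓.D.mul_mem (𝔓.D.pow_mem (𝔓.I_le_D hg₁) _) (𝔓.D.pow_mem hg₀ _)
  have hconj : ∀ r : ℕ × ℕ, ∀ σ : GQ,
      (g r)⁻¹ * σ * g r = (g₀ ^ r.1)⁻¹ * ((g₁ ^ r.2)⁻¹ * σ * g₁ ^ r.2) * g₀ ^ r.1 := by
    intro r σ
    rw [hg]
    simp only [mul_inv_rev]
    group
  have h1p := fun n => lf_conj_pow E.fixingSubgroup c hg₁E hε n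
  have h0p := fun n => lf_conj_pow E.fixingSubgroup c hg₀E hlam n
  have hgE : ∀ r ∈ R, ∀ σ ∈ E.fixingSubgroup, (g r)⁻¹ * σ * g r ∈ E.fixingSubgroup := by
    intro r _ σ hσ
    rw [hconj]
    exact (h0p r.1).1 _ ((h1p r.2).1 σ hσ)
  have hSc : ∀ r ∈ R, ∀ σ ∈ E.fixingSubgroup, c ((g r)⁻¹ * σ * g r) = S r (c σ) := by
    intro r _ σ hσ
    rw [hconj, (h0p r.1).2 _ ((h1p r.2).1 σ hσ), (h1p r.2).2 σ hσ, hS, lfSmulEnd_apply,
      smul_smul, mul_comm]
  have hfr : ∀ r ∈ R, ∀ x, 𝔓.v.Ge x 0 → 𝔓.v.Gt (g r x - x ^ (𝔓.p ^ f r)) 0 := by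
    intro r _ x hx
    have h1 := 𝔓.lf_frob_pow hg₀ hf₀ r.1 x hx
    have hI : g₁ ^ r.2 ∈ 𝔓.I := 𝔓.I.pow_mem hg₁ _
    have h2 := 𝔓.gt_I_sub hI (𝔓.ge_D (𝔓.D.pow_mem hg₀ r.1) hx)
    have e1 : g r x = (g₁ ^ r.2) ((g₀ ^ r.1) x) := by rw [hg, AlgEquiv.mul_apply]
    rw [e1, hf]
    have := h2.add h1
    rwa [sub_add_sub_cancel] at this
  -- the relation
  have hrel : ∑ r ∈ R, m r • S r = 0 := by
    apply LinearMap.ext
    intro x
    rw [LinearMap.sum_apply, LinearMap.zero_apply]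
    have e1 : ∀ r ∈ R, (m r • S r) x = (algebraMap (ZMod 𝔓.p) k (m r) * (ε ^ r.2 * lam ^ r.1)) • x := by
      intro r _
      rw [LinearMap.smul_apply, hS, lfSmulEnd_apply,
        ← algebraMap_smul k (m r) ((ε ^ r.2 * lam ^ r.1) • x), ← mul_smul]
    rw [Finset.sum_congr rfl e1, ← Finset.sum_smul]
    have e2 : ∑ r ∈ R, algebraMap (ZMod 𝔓.p) k (m r) * (ε ^ r.2 * lam ^ r.1) = 0 := by
      have hdisj : Disjoint (Finset.range n ×ˢ Finset.range D) {(n, 0)} := by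
        rw [Finset.disjoint_singleton_right, Finset.mem_product, Finset.mem_range]
        exact fun h => lt_irrefl _ h.1
      rw [hR, Finset.sum_union hdisj, Finset.sum_singleton, Finset.sum_product]
      have e3 : ∀ j ∈ Finset.range n, ∑ i ∈ Finset.range D,
          algebraMap (ZMod 𝔓.p) k (m (j, i)) * (ε ^ (j, i).2 * lam ^ (j, i).1) =
          ((P₂.coeff j : ↥k₀) : k) * lam ^ j := by
        intro j hj
        have hjn : j ≠ n := (Finset.mem_range.mp hj).ne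
        have e4 : ∀ i ∈ Finset.range D, algebraMap (ZMod 𝔓.p) k (m (j, i)) *
            (ε ^ (j, i).2 * lam ^ (j, i).1) =
            ((q (P₂.coeff j)).coeff i • ε ^ i) * lam ^ j := by
          intro i _
          simp only [hm, if_neg hjn]
          rw [Algebra.smul_def, mul_assoc]
        rw [Finset.sum_congr rfl e4, ← Finset.sum_mul, ← hq (P₂.coeff j)]
        congr 1
        rw [Polynomial.aeval_eq_sum_range]
        have hle : (q (P₂.coeff j)).natDegree + 1 ≤ D :=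
          Finset.le_sup (f := fun j => (q (P₂.coeff j)).natDegree + 1) hj
        refine (Finset.sum_subset (Finset.range_subset_range.mpr hle) ?_).symm
        intro i _ hi
        rw [Finset.mem_range, not_lt] at hi
        rw [Polynomial.coeff_eq_zero_of_natDegree_lt (by omega), zero_smul]
      rw [Finset.sum_congr rfl e3]
      simp only [hm, if_pos rfl, map_one, pow_zero, one_mul]
      have h5 := minpoly.aeval ↥k₀ lam
      rw [← hP₂] at h5
      conv_lhs at h5 => rw [hP₂m.as_sum]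
      rw [map_add, map_pow, aeval_X, map_sum] at h5
      rw [add_comm, ← h5]
      congr 1
      refine Finset.sum_congr rfl fun j _ => ?_
      rw [map_mul, aeval_C, map_pow, aeval_X]
      rfl
    rw [e2, zero_smul]
  have hr₀ : (n, 0) ∈ R := by rw [hR]; exact Finset.mem_union_right _ (Finset.mem_singleton_self _)
  have hm₀ : m (n, 0) ≠ 0 := by simp only [hm, if_pos rfl]; exact one_ne_zero
  have hmax : ∀ r ∈ R, r ≠ (n, 0) → f r < f (n, 0) := by
    intro r hr hne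
    rw [hR, Finset.mem_union, Finset.mem_singleton] at hr
    rcases hr with hr | hr
    · rw [Finset.mem_product, Finset.mem_range] at hr
      exact Nat.mul_lt_mul_of_pos_left hr.1 hf₀pos
    · exact absurd hr hne
  have hcard := H.card_span_le R g hgD hgE S hSc f hfr m hrel hr₀ hm₀ hmax
  set A := Submodule.span (ZMod 𝔓.p) {x : W | ∃ σ ∈ E.fixingSubgroup, c σ = x} with hA
  -- the stabiliser of `A` in `k`
  have hstab : ∀ t : k, (∀ σ ∈ E.fixingSubgroup, t • c σ ∈ A) → ∀ x ∈ A, t • x ∈ A := by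
    intro t ht x hx
    rw [hA] at hx
    induction hx using Submodule.span_induction with
    | mem x hx =>
      obtain ⟨σ, hσ, rfl⟩ := hx
      exact ht σ hσ
    | zero => rw [smul_zero]; exact A.zero_mem
    | add x y _ _ hx hy => rw [smul_add]; exact A.add_mem hx hy
    | smul a x _ hx => rw [smul_comm]; exact A.smul_mem a hx
  let stab : Subalgebra (ZMod 𝔓.p) k :=
    { carrier := {t | ∀ x ∈ A, t • x ∈ A}
      mul_mem' := fun {a b} ha hb x hx => by rw [mul_smul]; exact ha _ (hb x hx)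
      one_mem' := fun x hx => by rw [one_smul]; exact hx
      add_mem' := fun {a b} ha hb x hx => by rw [add_smul]; exact A.add_mem (ha x hx) (hb x hx)
      zero_mem' := fun x _ => by rw [zero_smul]; exact A.zero_mem
      algebraMap_mem' := fun a x hx => by
        change algebraMap (ZMod 𝔓.p) k a • x ∈ A
        rw [algebraMap_smul]; exact A.smul_mem a hx }
  let T : IntermediateField (ZMod 𝔓.p) k := Subalgebra.toIntermediateField stab (by
    intro x hx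
    exact Subalgebra.inv_mem_of_algebraic stab (x := ⟨x, hx⟩) (Algebra.IsAlgebraic.isAlgebraic x))
  have hεT : ε ∈ T := by
    change ∀ x ∈ A, ε • x ∈ A
    refine hstab ε fun σ hσ => ?_
    rw [← hε σ hσ]
    exact Submodule.subset_span ⟨_, hg₁E σ hσ, rfl⟩
  have hlamT : lam ∈ T := by
    change ∀ x ∈ A, lam • x ∈ A
    refine hstab lam fun σ hσ => ?_
    rw [← hlam σ hσ]
    exact Submodule.subset_span ⟨_, hg₀E σ hσ, rfl⟩
  have hk₀T : k₀ ≤ T := IntermediateField.adjoin_simple_le_iff.mpr hεT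
  set k' : IntermediateField ↥k₀ k := (↥k₀)⟮lam⟯ with hk'
  have hk'T : ∀ t ∈ k', ∀ x ∈ A, t • x ∈ A := by
    intro t ht
    have hle : k' ≤ IntermediateField.extendScalars hk₀T := by
      rw [hk', IntermediateField.adjoin_simple_le_iff]
      exact hlamT
    exact hle ht
  -- cardinalities
  have hpc : Nat.card (ZMod 𝔓.p) = 𝔓.p := Nat.card_zmod 𝔓.p
  have hk₀card : Nat.card ↥k₀ = 𝔓.p ^ (minpoly (ZMod 𝔓.p) ε).natDegree := by
    rw [Module.natCard_eq_pow_finrank (K := ZMod 𝔓.p), hpc, hk₀,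
      IntermediateField.adjoin.finrank hεint]
  have hk'card : Nat.card ↥k' = (Nat.card ↥k₀) ^ n := by
    rw [Module.natCard_eq_pow_finrank (K := ↥k₀), hk', IntermediateField.adjoin.finrank hlamint]
  have hle : 𝔓.p ^ f (n, 0) ≤ Nat.card ↥k' := by
    rw [hk'card, hk₀card, ← pow_mul, hf]
    exact Nat.pow_le_pow_right hp.pos (Nat.mul_le_mul_right n hd)
  -- the line
  by_cases hzero : ∀ σ ∈ E.fixingSubgroup, c σ = 0
  · exact ⟨0, fun σ hσ => ⟨0, by rw [hzero σ hσ, smul_zero]⟩⟩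
  push Not at hzero
  obtain ⟨σ₀, hσ₀, hne⟩ := hzero
  have hw₀A : c σ₀ ∈ A := Submodule.subset_span ⟨σ₀, hσ₀, rfl⟩
  let φ : ↥k' → ↥A := fun t => ⟨(t : k) • c σ₀, hk'T t t.2 _ hw₀A⟩
  have hφinj : Function.Injective φ := by
    intro t t' h
    have h1 : ((t : k) - (t' : k)) • c σ₀ = 0 := by
      rw [sub_smul, sub_eq_zero]
      exact congrArg Subtype.val h
    rcases smul_eq_zero.mp h1 with h2 | h2
    · exact Subtype.ext (sub_eq_zero.mp h2)
    · exact absurd h2 hne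
  have hφbij := hφinj.bijective_of_nat_card_le (hcard.trans hle)
  refine ⟨c σ₀, fun σ hσ => ?_⟩
  obtain ⟨t, ht⟩ := hφbij.2 ⟨c σ, Submodule.subset_span ⟨σ, hσ, rfl⟩⟩
  exact ⟨(t : k), (congrArg Subtype.val ht).symm⟩

end Line

end FFPlace

end Fermat.Agent.TW
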