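/-
P10 / G7 WP-B (helper5): relations between Kummer generators coming from relations between
conjugated characters; the action of the inertia group on elements of valuation `1/(p-1)`;
roots of unity of order prime to `p` are distinct modulo the maximal ideal.
-/
import Fermat.Agent.Lib.TW.LF.CountLine

set_option autoImplicit false
set_option linter.unusedSectionVars false
set_option linter.style.haveILetI false

open scoped IntermediateField
open Polynomial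

namespace Fermat.Agent.TW

open Fermat.Agent.S05Lib

local notation "Qb" => AlgebraicClosure ℚ
local notation "GQ" => (AlgebraicClosure ℚ ≃ₐ[ℚ] AlgebraicClosure ℚ)

section Kummer

variable {p : ℕ} [hp : Fact p.Prime] (E : IntermediateField ℚ Qb) {ζ : Qb}

/-- finite products of Kummer generators -/
theorem lf_kummer_prod (hζ : ζ ^ p = 1) {ι : Type*} (R : Finset ι) (χ : ι → GQ → ZMod p)
    (y : ι → Qb) (hy : ∀ r ∈ R, ∀ σ ∈ E.fixingSubgroup, σ (y r) = lfZPow ζ (χ r σ) * y r) :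
    ∀ σ ∈ E.fixingSubgroup, σ (∏ r ∈ R, y r) = lfZPow ζ (∑ r ∈ R, χ r σ) * ∏ r ∈ R, y r := by
  classical
  haveI : NeZero p := ⟨hp.out.ne_zero⟩
  induction R using Finset.induction_on with
  | empty =>
    intro σ _
    rw [Finset.prod_empty, Finset.sum_empty, lfZPow_zero, map_one, one_mul]
  | insert a R ha ih =>
    intro σ hσ
    rw [Finset.prod_insert ha, Finset.sum_insert ha]
    exact lf_kummer_mul E hζ (χ a) (fun σ => ∑ r ∈ R, χ r σ)
      (hy a (Finset.mem_insert_self a R))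
      (ih fun r hr => hy r (Finset.mem_insert_of_mem hr)) σ hσ

/-- **from a relation between conjugated characters to a multiplicative relation**: if `y`
generates `χ`, the `g_r` normalise `Gal(ℚ̄/E)`, `g_r ζ = ζ ^ α_r`, and
`∑_r m_r χ(g_r⁻¹ σ g_r) = 0`, then `∏_r (g_r y) ^ (m_r / α_r) ∈ E`. -/
theorem lf_kummer_rel (hζ : ζ ^ p = 1) (χ : GQ → ZMod p) {y : Qb}
    (hy : ∀ σ ∈ E.fixingSubgroup, σ y = lfZPow ζ (χ σ) * y) {ι : Type*} (R : Finset ι)
    (g : ι → GQ) (hgE : ∀ r ∈ R, ∀ σ ∈ E.fixingSubgroup, (g r)⁻¹ * σ * g r ∈ E.fixingSubgroup)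
    (α : ι → ZMod p) (hα0 : ∀ r ∈ R, α r ≠ 0) (hα : ∀ r ∈ R, g r ζ = lfZPow ζ (α r))
    (m : ι → ZMod p)
    (hrel : ∀ σ ∈ E.fixingSubgroup, ∑ r ∈ R, m r * χ ((g r)⁻¹ * σ * g r) = 0) :
    ∏ r ∈ R, (g r y) ^ (m r * (α r)⁻¹).val ∈ E := by
  haveI : NeZero p := ⟨hp.out.ne_zero⟩
  have h1 : ∀ r ∈ R, ∀ σ ∈ E.fixingSubgroup, σ ((g r y) ^ (m r * (α r)⁻¹).val) =
      lfZPow ζ (m r * χ ((g r)⁻¹ * σ * g r)) * (g r y) ^ (m r * (α r)⁻¹).val := by
    intro r hr σ hσ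
    have h2 := lf_kummer_conj E hζ χ hy (g r) (hgE r hr) (hα r hr)
    have h3 := lf_kummer_pow E hζ (fun σ => α r * χ ((g r)⁻¹ * σ * g r)) h2 (m r * (α r)⁻¹) σ hσ
    rw [h3]
    congr 2
    rw [mul_assoc, ← mul_assoc (α r)⁻¹, inv_mul_cancel₀ (hα0 r hr), one_mul]
  have h4 := lf_kummer_prod E hζ R (fun r σ => m r * χ ((g r)⁻¹ * σ * g r))
    (fun r => (g r y) ^ (m r * (α r)⁻¹).val) h1
  exact lf_kummer_mem_of_eq_zero E (fun σ => ∑ r ∈ R, m r * χ ((g r)⁻¹ * σ * g r)) h4 hrel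

end Kummer

namespace FFPlace

variable (𝔓 : FFPlace)

/-- (CYC') if `σ ∈ I`, `σ ζ = ζ ^ a` and `v(π₁) = 1/(p-1)`, then `σ π₁ / π₁ ≡ a` modulo the
maximal ideal: the inertia group acts on every element of valuation `1/(p-1)` through the
cyclotomic character. -/
theorem lf_gt_apply_div_sub {ζ : Qb} (hζ : IsPrimitiveRoot ζ 𝔓.p) {σ : GQ} (hσ : σ ∈ 𝔓.I) {a : ℕ}
    (h : σ ζ = ζ ^ a) {π₁ : Qb} (hπ₁ : 𝔓.v.Is π₁ (1 / ((𝔓.p : ℚ) - 1))) :
    𝔓.v.Gt (σ π₁ / π₁ - (a : Qb)) 0 := by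
  have hz := 𝔓.lf_is_zeta_sub_one hζ
  have h1 := 𝔓.lf_gt_apply_zeta_sub_one hζ h
  -- `t = π₁ / (ζ - 1)` is a unit
  set t := π₁ / (ζ - 1) with ht
  have htu : 𝔓.v.Is t 0 := by
    have := hπ₁.div hz
    rwa [sub_self] at this
  have hσt : 𝔓.v.Gt (σ t / t - 1) 0 := by
    have h2 := 𝔓.gt_I_sub hσ htu.ge
    have h3 := h2.div_is htu
    rw [sub_zero] at h3
    have e : (σ t - t) / t = σ t / t - 1 := by rw [sub_div, div_self htu.ne_zero]
    rwa [e] at h3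
  have e1 : σ π₁ / π₁ = (σ t / t) * (σ (ζ - 1) / (ζ - 1)) := by
    have hπ₁e : π₁ = t * (ζ - 1) := by rw [ht, div_mul_cancel₀ _ hz.ne_zero]
    conv_lhs => rw [hπ₁e, map_mul]
    have h4 : σ (ζ - 1) ≠ 0 := (map_ne_zero_iff σ σ.injective).mpr hz.ne_zero
    field_simp
  have hge : 𝔓.v.Ge (σ (ζ - 1) / (ζ - 1)) 0 := by
    have := ((𝔓.is_D (𝔓.I_le_D hσ) hz).div hz).ge
    rwa [sub_self] at this
  have e2 : σ π₁ / π₁ - (a : Qb) =
      (σ t / t - 1) * (σ (ζ - 1) / (ζ - 1)) + (σ (ζ - 1) / (ζ - 1) - (a : Qb)) := by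
    rw [e1]; ring
  rw [e2]
  have := hσt.mul_ge hge
  rw [add_zero] at this
  exact this.add h1

/-- roots of unity of order prime to `p` are distinct modulo the maximal ideal -/
theorem lf_is_sub_of_pow_eq_one {n : ℕ} (hn : ¬ 𝔓.p ∣ n) {ξ ξ' : Qb} (hξ : ξ ^ n = 1)
    (hξ' : ξ' ^ n = 1) (hne : ξ ≠ ξ') : 𝔓.v.Is (ξ - ξ') 0 := by
  have hn0 : 0 < n := Nat.pos_of_ne_zero (fun h => hn (h ▸ dvd_zero _))
  have hξ'u : 𝔓.v.Is ξ' 0 := 𝔓.is_zero_of_pow_eq_one hn0 hξ'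
  -- `η = ξ / ξ'` is a nontrivial `n`-th root of unity
  set η := ξ / ξ' with hη
  have hηn : η ^ n = 1 := by rw [hη, div_pow, hξ, hξ', div_one]
  have hη1 : η ≠ 1 := by
    intro h1
    apply hne
    rw [hη, div_eq_one_iff_eq hξ'u.ne_zero] at h1
    exact h1
  have hηu : 𝔓.v.Is η 0 := 𝔓.is_zero_of_pow_eq_one hn0 hηn
  -- `∑_{j<n} η^j = 0`
  have hsum : ∑ j ∈ Finset.range n, η ^ j = 0 := by
    have h1 := geom_sum_mul η n
    rw [hηn, sub_self] at h1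
    rcases mul_eq_zero.mp h1 with h2 | h2
    · exact h2
    · exact absurd (sub_eq_zero.mp h2) hη1
  -- if `v(η - 1) > 0` then `n ≡ ∑ η^j = 0`, impossible
  have hη1u : 𝔓.v.Is (η - 1) 0 := by
    have hge : 𝔓.v.Ge (η - 1) 0 := hηu.ge.sub QVal.is_one.ge
    have hne0 : η - 1 ≠ 0 := sub_ne_zero.mpr hη1
    refine ⟨hne0, ?_⟩
    rcases hge with h0 | h0
    · exact absurd h0 hne0
    · refine le_antisymm ?_ h0
      by_contra hlt
      rw [not_le] at hlt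
      have hgt : 𝔓.v.Gt (η - 1) 0 := Or.inr hlt
      have h2 : 𝔓.v.Gt (∑ j ∈ Finset.range n, (η ^ j - 1)) 0 := by
        refine 𝔓.lf_gt_sum _ _ fun j _ => ?_
        have h3 : 𝔓.v.Ge (1 - η) 0 := QVal.is_one.ge.sub hηu.ge
        have h4 : 𝔓.v.Gt (1 - η) 0 := by
          have := hgt.neg; rwa [neg_sub] at this
        have h5 := geom_sum_mul_neg η j
        have h6 : 𝔓.v.Gt (1 - η ^ j) 0 := by
          rw [← h5]
          have := (𝔓.lf_ge_sum_range_pow hηu.ge j).mul_gt h4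
          rwa [zero_add] at this
        have := h6.neg; rwa [neg_sub] at this
      rw [Finset.sum_sub_distrib, hsum, zero_sub] at h2
      simp only [Finset.sum_const, Finset.card_range, nsmul_eq_mul, mul_one] at h2
      exact (𝔓.lf_is_natCast hn).neg.not_gt h2 le_rfl
  have e : ξ - ξ' = (η - 1) * ξ' := by
    rw [hη, sub_mul, div_mul_cancel₀ _ hξ'u.ne_zero, one_mul]
  rw [e]
  have := hη1u.mul hξ'u
  rwa [add_zero] at this

end FFPlace

end Fermat.Agent.TW
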