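/-
P10 / G7 WP-B (helper5): (LEVELS), polynomial form.  Let `c : Gal(ℚ̄/E) → W` be a homomorphism to
a vector space over a finite field `k` on which conjugation by `g₁ ∈ I` acts through the scalar
`ε ∈ k`.  If a Kummer generator `y` of `ℓ ∘ c` has `v(y ^ p - 1) = i / e` (a level), then
`(g₁ π / π) ^ i / ω(g₁)` is, in the residue field, a root of every polynomial over `𝔽_p`
vanishing at `ε`.
-/
import Fermat.Agent.Lib.TW.LF.KummerRel

set_option autoImplicit false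
set_option linter.unusedSectionVars false
set_option linter.style.haveILetI false

open scoped IntermediateField
open Polynomial

namespace Fermat.Agent.TW

open Fermat.Agent.S05Lib

local notation "Qb" => AlgebraicClosure ℚ
local notation "GQ" => (AlgebraicClosure ℚ ≃ₐ[ℚ] AlgebraicClosure ℚ)

namespace FFPlace

variable (𝔓 : FFPlace)

instance lfCharP : CharP 𝔓.LFk 𝔓.p := ⟨fun n => lfRes_natCast_eq_zero_iff n⟩

/-- the prime field of the residue field -/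
noncomputable def lfCast : ZMod 𝔓.p →+* 𝔓.LFk := ZMod.castHom (dvd_refl 𝔓.p) 𝔓.LFk

lemma lfCast_natCast (n : ℕ) : 𝔓.lfCast (n : ZMod 𝔓.p) = (n : 𝔓.LFk) := map_natCast _ n

lemma lfCast_val (a : ZMod 𝔓.p) : ((a.val : ℕ) : 𝔓.LFk) = 𝔓.lfCast a := by
  rw [← lfCast_natCast, ZMod.natCast_zmod_val]

variable {𝔓}

/-- powers of an inertia element act on a uniformiser through powers of the residue of
`g π / π` -/
lemma lfRes_pow_apply_div {g : GQ} (hg : g ∈ 𝔓.I) {π : Qb} (hπ : π ≠ 0) (r : ℕ) :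
    𝔓.lfRes ((g ^ r) π / π) = 𝔓.lfRes (g π / π) ^ r := by
  have hπis : 𝔓.v.Is π (𝔓.v.ord π) := ⟨hπ, rfl⟩
  have hu : ∀ r : ℕ, 𝔓.v.Is ((g ^ r) π / π) 0 := by
    intro r
    have := (𝔓.is_D (𝔓.I_le_D (𝔓.I.pow_mem hg r)) hπis).div hπis
    rwa [sub_self] at this
  induction r with
  | zero => rw [pow_zero, pow_zero, AlgEquiv.one_apply, div_self hπ, lfRes_one]
  | succ r ih =>
    have e1 : (g ^ (r + 1)) π / π = g ((g ^ r) π / π) * (g π / π) := by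
      rw [pow_succ', AlgEquiv.mul_apply, map_div₀]
      have : g π ≠ 0 := (map_ne_zero_iff g g.injective).mpr hπ
      field_simp
    have h1 := hu r
    have h2 : 𝔓.v.Ge (g ((g ^ r) π / π)) 0 := 𝔓.ge_D (𝔓.I_le_D hg) h1.ge
    have hu1 : 𝔓.v.Is (g π / π) 0 := by simpa using hu 1
    rw [e1, lfRes_mul h2 hu1.ge, pow_succ, ← ih]
    congr 1
    rw [lfRes_eq_iff h2 h1.ge]
    exact 𝔓.gt_I_sub hg h1.ge

section Root

variable {k : Type*} [Field k] [Algebra (ZMod 𝔓.p) k]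
  {W : Type*} [AddCommGroup W] [Module (ZMod 𝔓.p) W] [Module k W] [IsScalarTower (ZMod 𝔓.p) k W]

/-- **(LEVELS)**, polynomial form -/
theorem lf_level_root {E : IntermediateField ℚ Qb} {π : Qb} (hπ : 𝔓.LFUnif E π) {e : ℕ}
    (he : (e : ℚ) * 𝔓.v.ord π = 1) {ζ : Qb} (hζ : IsPrimitiveRoot ζ 𝔓.p) {i : ℕ}
    (hi : ¬ 𝔓.p ∣ i) (hi0 : 0 < i) (hlt : (i : ℚ) / e < (𝔓.p : ℚ) / ((𝔓.p : ℚ) - 1))
    {c : GQ → W} {g₁ : GQ} (hg₁ : g₁ ∈ 𝔓.I)
    (hg₁E : ∀ σ ∈ E.fixingSubgroup, g₁⁻¹ * σ * g₁ ∈ E.fixingSubgroup) {ε : k}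
    (hε : ∀ σ ∈ E.fixingSubgroup, c (g₁⁻¹ * σ * g₁) = ε • c σ)
    (ℓ : W →ₗ[ZMod 𝔓.p] ZMod 𝔓.p) {y : Qb}
    (hy : ∀ σ ∈ E.fixingSubgroup, σ y = lfZPow ζ (ℓ (c σ)) * y)
    (hyi : 𝔓.v.Is (y ^ 𝔓.p - 1) ((i : ℚ) / e)) {a : ℕ} (ha : g₁ ζ = ζ ^ a)
    {P : (ZMod 𝔓.p)[X]} (hP : aeval ε P = 0) :
    (P.map 𝔓.lfCast).eval (𝔓.lfRes (g₁ π / π) ^ i * ((a : 𝔓.LFk))⁻¹) = 0 := by
  classical
  have hp := 𝔓.hp
  haveI : NeZero 𝔓.p := ⟨hp.ne_zero⟩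
  have hζ1 := hζ.pow_eq_one
  set α : ZMod 𝔓.p := (a : ZMod 𝔓.p) with hα
  have hαζ : g₁ ζ = lfZPow ζ α := by rw [ha, hα, lfZPow_natCast hζ1]
  have hα0 : α ≠ 0 := by
    intro h0
    rw [h0, lfZPow_zero] at hαζ
    have : ζ = 1 := g₁.injective (by rw [hαζ, map_one])
    exact hζ.ne_one hp.one_lt this
  have ha0 : ((a : ℕ) : 𝔓.LFk) ≠ 0 := by
    rw [← lfCast_natCast]
    exact (map_ne_zero_iff _ (RingHom.injective _)).mpr hα0
  -- the family `g₁ ^ r`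
  set R := Finset.range (P.natDegree + 1) with hR
  have hpw := fun r => lf_conj_pow E.fixingSubgroup c hg₁E hε r
  have hgζ : ∀ r : ℕ, (g₁ ^ r) ζ = lfZPow ζ (α ^ r) := by
    intro r
    induction r with
    | zero => rw [pow_zero, pow_zero, AlgEquiv.one_apply, ← Nat.cast_one, lfZPow_natCast hζ1,
        pow_one]
    | succ r ih =>
      rw [pow_succ', AlgEquiv.mul_apply, ih, lfZPow, map_pow, hαζ, ← lfZPow, lfZPow_mul hζ1,
        pow_succ']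
  have hrel : ∀ σ ∈ E.fixingSubgroup,
      ∑ r ∈ R, P.coeff r * (fun σ => ℓ (c σ)) ((g₁ ^ r)⁻¹ * σ * g₁ ^ r) = 0 := by
    intro σ hσ
    have e1 : ∀ r ∈ R, P.coeff r * ℓ (c ((g₁ ^ r)⁻¹ * σ * g₁ ^ r)) =
        ℓ ((algebraMap (ZMod 𝔓.p) k (P.coeff r) * ε ^ r) • c σ) := by
      intro r _
      rw [(hpw r).2 σ hσ, mul_smul, algebraMap_smul, ℓ.map_smul, smul_eq_mul]
    rw [Finset.sum_congr rfl e1, ← map_sum, ← Finset.sum_smul]
    have e2 : ∑ r ∈ R, algebraMap (ZMod 𝔓.p) k (P.coeff r) * ε ^ r = aeval ε P := by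
      rw [Polynomial.aeval_eq_sum_range]
      exact Finset.sum_congr rfl fun r _ => by rw [Algebra.smul_def]
    rw [e2, hP, zero_smul, map_zero]
  have hw := lf_kummer_rel E hζ1 (fun σ => ℓ (c σ)) hy R (fun r => g₁ ^ r)
    (fun r _ => (hpw r).1) (fun r => α ^ r) (fun r _ => pow_ne_zero r hα0) (fun r _ => hgζ r)
    (fun r => P.coeff r) hrel
  set n : ℕ → ℕ := fun r => (P.coeff r * (α ^ r)⁻¹).val with hn
  set w := ∏ r ∈ R, ((g₁ ^ r) y) ^ n r with hwdef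
  have hprod : ∏ r ∈ R, ((g₁ ^ r) (y ^ 𝔓.p)) ^ n r = w ^ 𝔓.p := by
    rw [hwdef, ← Finset.prod_pow]
    refine Finset.prod_congr rfl fun r _ => ?_
    rw [map_pow, ← pow_mul, ← pow_mul, Nat.mul_comm]
  have h1 := 𝔓.lf_level_rel hπ he hi hi0 hlt hyi R (fun r => g₁ ^ r)
    (fun r _ => 𝔓.I.pow_mem hg₁ r) n hw hprod
  -- pass to the residue field
  have hπis : 𝔓.v.Is π (𝔓.v.ord π) := ⟨hπ.ne_zero, rfl⟩
  have hu : ∀ r : ℕ, 𝔓.v.Is ((g₁ ^ r) π / π) 0 := by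
    intro r
    have := (𝔓.is_D (𝔓.I_le_D (𝔓.I.pow_mem hg₁ r)) hπis).div hπis
    rwa [sub_self] at this
  have hui : ∀ r : ℕ, 𝔓.v.Is (((g₁ ^ r) π / π) ^ i) 0 := by
    intro r
    have := (hu r).pow i
    rwa [mul_zero] at this
  have hterm : ∀ r ∈ R, 𝔓.v.Ge ((n r : Qb) * ((g₁ ^ r) π / π) ^ i) 0 := by
    intro r _
    have := (𝔓.lf_ge_natCast (n r)).mul (hui r).ge
    rwa [add_zero] at this
  have h2 : 𝔓.lfRes (∑ r ∈ R, (n r : Qb) * ((g₁ ^ r) π / π) ^ i) = 0 :=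
    (lfRes_eq_zero_iff (𝔓.ge_zero_sum _ _ hterm)).mpr h1
  have hsum : ∀ (T : Finset ℕ), (∀ r ∈ T, 𝔓.v.Ge ((n r : Qb) * ((g₁ ^ r) π / π) ^ i) 0) →
      𝔓.lfRes (∑ r ∈ T, (n r : Qb) * ((g₁ ^ r) π / π) ^ i) =
        ∑ r ∈ T, 𝔓.lfRes ((n r : Qb) * ((g₁ ^ r) π / π) ^ i) := by
    intro T
    induction T using Finset.induction_on with
    | empty => intro _; rw [Finset.sum_empty, Finset.sum_empty, lfRes_zero]
    | insert b T hb ih =>
      intro hT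
      rw [Finset.sum_insert hb, Finset.sum_insert hb,
        lfRes_add (hT b (Finset.mem_insert_self b T))
          (𝔓.ge_zero_sum _ _ fun r hr => hT r (Finset.mem_insert_of_mem hr)),
        ih fun r hr => hT r (Finset.mem_insert_of_mem hr)]
  rw [hsum R hterm] at h2
  set κ := 𝔓.lfRes (g₁ π / π) with hκ
  have e3 : ∀ r ∈ R, 𝔓.lfRes ((n r : Qb) * ((g₁ ^ r) π / π) ^ i) =
      𝔓.lfCast (P.coeff r) * (κ ^ i * ((a : 𝔓.LFk))⁻¹) ^ r := by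
    intro r _
    rw [lfRes_mul (𝔓.lf_ge_natCast (n r)) (hui r).ge, lfRes_natCast,
      lfRes_pow (hu r).ge, lfRes_pow_apply_div hg₁ hπ.ne_zero, hn, lfCast_val, map_mul,
      map_inv₀, map_pow, hα, lfCast_natCast, mul_pow, inv_pow]
    ring
  rw [Finset.sum_congr rfl e3] at h2
  rw [Polynomial.eval_map, Polynomial.eval₂_eq_sum_range]
  exact h2

end Root

end FFPlace

end Fermat.Agent.TW
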