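/-
P10 / G7 WP-E (helper5): the three local-field theorems of the supersingular case, (KS-eps),
(KS-top), (KS-dep), in the shape requested by the model side (helper2, msg 494).  `E0` is the
field `K0(π₀)`, `π₀ ^ (p² - 1) = -p`; `LFFund` (fundamental characters of level two) is defined in
`Lib/TW/Flat/SS/Tame.lean`.  The structure lemmas on `Gal(ℚ̄/E0)` (`lf_E0_normal`, `lf_E0_comm`,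
`lf_mem_E0_fix_iff`) are in `Lib/TW/LF/E0Group.lean` (helper9); the copies used here are
`FFPlace.ssc_E0_normal`, `FFPlace.ssc_E0_comm`, `FFPlace.ssc_mem_E0_fix_iff`
(`Lib/TW/SSCount/Root.lean`).
-/
import Fermat.Agent.Lib.TW.SSCount.DepMain

set_option autoImplicit false

namespace Fermat.Agent.TW

open Fermat.Agent.S05Lib

local notation "Qb" => AlgebraicClosure ℚ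
local notation "GQ" => (AlgebraicClosure ℚ ≃ₐ[ℚ] AlgebraicClosure ℚ)

namespace FFPlace

variable (𝔓 : FFPlace)

/-- (KS-eps) -/
theorem lf_ss_eps (hp2 : 𝔓.p ≠ 2) {π₀ : Qb} (hπ₀ : π₀ ^ (𝔓.p ^ 2 - 1) = -(𝔓.p : Qb))
    {V : Type*} [AddCommGroup V] [Module (ZMod 𝔓.p) V] [Finite V] (γ : GQ → V)
    (hadd : ∀ σ ∈ (lfAdjoin 𝔓.K0 π₀).fixingSubgroup, ∀ τ ∈ (lfAdjoin 𝔓.K0 π₀).fixingSubgroup,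
      γ (σ * τ) = γ σ + γ τ)
    (hcont : ∃ F : IntermediateField ℚ Qb, FiniteDimensional ℚ F ∧
      ∀ σ ∈ (lfAdjoin 𝔓.K0 π₀).fixingSubgroup, σ ∈ F.fixingSubgroup → γ σ = 0)
    (hinv : ∀ g ∈ 𝔓.I, ∀ τ ∈ (lfAdjoin 𝔓.K0 π₀).fixingSubgroup, γ (g * τ * g⁻¹) = γ τ)
    {φ : GQ} (hφ : 𝔓.P.IsFrobeniusAt φ 𝔓.p)
    (hanti : ∀ τ ∈ (lfAdjoin 𝔓.K0 π₀).fixingSubgroup, γ (φ * τ * φ⁻¹) = -γ τ)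
    {τ : GQ} (hτ : τ ∈ (lfAdjoin 𝔓.K0 π₀).fixingSubgroup) {z : Qb} (hz : 𝔓.v.Ge z 0)
    (hfix : ∀ σ ∈ (lfAdjoin 𝔓.K0 π₀).fixingSubgroup, γ σ = 0 → σ z = z) :
    𝔓.v.Ge (τ z - z) ((𝔓.p : ℚ) / ((𝔓.p : ℚ) ^ 2 - 1)) :=
  𝔓.ssc_eps hp2 hπ₀ γ hadd hcont hinv hφ hanti hτ hz hfix

/-- (KS-top) -/
theorem lf_ss_top (hp2 : 𝔓.p ≠ 2) {π₀ ζ : Qb} (hπ₀ : π₀ ^ (𝔓.p ^ 2 - 1) = -(𝔓.p : Qb))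
    (hζ : IsPrimitiveRoot ζ 𝔓.p)
    {V : Type*} [AddCommGroup V] [Module (ZMod 𝔓.p) V] [Finite V] (hV : Nat.card V ≤ 𝔓.p ^ 2)
    (γ : GQ → V)
    (hadd : ∀ σ ∈ (lfAdjoin 𝔓.K0 π₀).fixingSubgroup, ∀ τ ∈ (lfAdjoin 𝔓.K0 π₀).fixingSubgroup,
      γ (σ * τ) = γ σ + γ τ)
    (hcont : ∃ F : IntermediateField ℚ Qb, FiniteDimensional ℚ F ∧
      ∀ σ ∈ (lfAdjoin 𝔓.K0 π₀).fixingSubgroup, σ ∈ F.fixingSubgroup → γ σ = 0)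
    (ℓ : V →ₗ[ZMod 𝔓.p] ZMod 𝔓.p) {y : Qb} (hy0 : y ≠ 0)
    (hy : ∀ σ ∈ (lfAdjoin 𝔓.K0 π₀).fixingSubgroup, σ y = lfZPow ζ (ℓ (γ σ)) * y)
    {w : Qb} (hw : w ∈ lfAdjoin 𝔓.K0 π₀) (hw0 : w ≠ 0)
    (hlev : 𝔓.v.Is (y ^ 𝔓.p / w ^ 𝔓.p - 1) (2 / ((𝔓.p : ℚ) ^ 2 - 1))) :
    ∃ τ ∈ (lfAdjoin 𝔓.K0 π₀).fixingSubgroup, ℓ (γ τ) ≠ 0 ∧
      ∀ z : Qb, 𝔓.v.Ge z 0 →
        (∀ σ ∈ (lfAdjoin 𝔓.K0 π₀).fixingSubgroup, γ σ = 0 → σ z = z) →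
        𝔓.v.Ge (τ z - z)
          (((𝔓.p : ℚ) ^ 2 + 𝔓.p - 1) / ((𝔓.p : ℚ) ^ 2 * ((𝔓.p : ℚ) ^ 2 - 1))) :=
  𝔓.ssc_top hp2 hπ₀ hζ hV γ hadd hcont ℓ hy0 hy hw hw0 hlev

/-- (KS-dep) -/
theorem lf_ss_dep (hp2 : 𝔓.p ≠ 2) {π₀ ζ : Qb} (hπ₀ : π₀ ^ (𝔓.p ^ 2 - 1) = -(𝔓.p : Qb))
    (hζ : IsPrimitiveRoot ζ 𝔓.p)
    {k : Type} [Field k] [Finite k] [Algebra (ZMod 𝔓.p) k] {ch : GQ → k}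
    (hch : 𝔓.LFFund π₀ ch) (γ γ' : GQ → k)
    (hadd : ∀ σ ∈ (lfAdjoin 𝔓.K0 π₀).fixingSubgroup, ∀ τ ∈ (lfAdjoin 𝔓.K0 π₀).fixingSubgroup,
      γ (σ * τ) = γ σ + γ τ)
    (hadd' : ∀ σ ∈ (lfAdjoin 𝔓.K0 π₀).fixingSubgroup, ∀ τ ∈ (lfAdjoin 𝔓.K0 π₀).fixingSubgroup,
      γ' (σ * τ) = γ' σ + γ' τ)
    (hcont : ∃ F : IntermediateField ℚ Qb, FiniteDimensional ℚ F ∧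
      ∀ σ ∈ (lfAdjoin 𝔓.K0 π₀).fixingSubgroup, σ ∈ F.fixingSubgroup → γ σ = 0)
    (hcont' : ∃ F : IntermediateField ℚ Qb, FiniteDimensional ℚ F ∧
      ∀ σ ∈ (lfAdjoin 𝔓.K0 π₀).fixingSubgroup, σ ∈ F.fixingSubgroup → γ' σ = 0)
    (heq : ∀ g ∈ 𝔓.I, ∀ τ ∈ (lfAdjoin 𝔓.K0 π₀).fixingSubgroup,
      γ (g * τ * g⁻¹) = ch g ^ (𝔓.p - 1) * γ τ)
    (heq' : ∀ g ∈ 𝔓.I, ∀ τ ∈ (lfAdjoin 𝔓.K0 π₀).fixingSubgroup,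
      γ' (g * τ * g⁻¹) = ch g ^ (𝔓.p - 1) * γ' τ)
    {φ : GQ} (hφ : 𝔓.P.IsFrobeniusAt φ 𝔓.p) (lam : k)
    (hlam : ∀ τ ∈ (lfAdjoin 𝔓.K0 π₀).fixingSubgroup, γ (φ ^ 2 * τ * (φ ^ 2)⁻¹) = lam * γ τ)
    (hlam' : ∀ τ ∈ (lfAdjoin 𝔓.K0 π₀).fixingSubgroup, γ' (φ ^ 2 * τ * (φ ^ 2)⁻¹) = lam * γ' τ)
    (hno2 : ∀ (ℓ : k →ₗ[ZMod 𝔓.p] ZMod 𝔓.p) (y : Qb), y ≠ 0 →
      (∀ σ ∈ (lfAdjoin 𝔓.K0 π₀).fixingSubgroup, σ y = lfZPow ζ (ℓ (γ σ)) * y) →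
      ¬ ∃ w ∈ lfAdjoin 𝔓.K0 π₀, w ≠ 0 ∧
        𝔓.v.Is (y ^ 𝔓.p / w ^ 𝔓.p - 1) (2 / ((𝔓.p : ℚ) ^ 2 - 1)))
    (hno2' : ∀ (ℓ : k →ₗ[ZMod 𝔓.p] ZMod 𝔓.p) (y : Qb), y ≠ 0 →
      (∀ σ ∈ (lfAdjoin 𝔓.K0 π₀).fixingSubgroup, σ y = lfZPow ζ (ℓ (γ' σ)) * y) →
      ¬ ∃ w ∈ lfAdjoin 𝔓.K0 π₀, w ≠ 0 ∧
        𝔓.v.Is (y ^ 𝔓.p / w ^ 𝔓.p - 1) (2 / ((𝔓.p : ℚ) ^ 2 - 1))) :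
    ∃ a b : k, (a ≠ 0 ∨ b ≠ 0) ∧
      ∀ τ ∈ (lfAdjoin 𝔓.K0 π₀).fixingSubgroup, a * γ τ + b * γ' τ = 0 :=
  𝔓.ssc_dep_k hp2 hπ₀ hζ hch γ γ' hadd hadd' hcont hcont' heq heq' hφ lam hlam hlam' hno2 hno2'

end FFPlace

end Fermat.Agent.TW
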