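/-
P10 / G7 WP-E (helper9): the Galois group of `E0 = K0(π₀)`, `π₀ ^ (p² - 1) = -p`.

`Gal(ℚ̄/E0) = {τ ∈ I | τ π₀ = π₀}`; it is normalised by the decomposition group, and contains the
commutators of the inertia group.
-/
import Fermat.Agent.Lib.TW.Flat.SS.TameCongr

set_option autoImplicit false
set_option linter.style.haveILetI false

namespace Fermat.Agent.TW

open Fermat.Agent.S05Lib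

local notation "Qb" => AlgebraicClosure ℚ
local notation "GQ" => (AlgebraicClosure ℚ ≃ₐ[ℚ] AlgebraicClosure ℚ)

namespace FFPlace

variable (𝔓 : FFPlace) {π₀ : Qb}

/-- `Gal(ℚ̄/E0)` is the stabiliser of `π₀` in the inertia group -/
theorem lf_mem_E0_fix_iff (π₀ : Qb) (τ : GQ) :
    τ ∈ (lfAdjoin 𝔓.K0 π₀).fixingSubgroup ↔ τ ∈ 𝔓.I ∧ τ π₀ = π₀ := by
  rw [lf_mem_fixingSubgroup_adjoin_iff, 𝔓.lf_fixingSubgroup_K0]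

/-- `σ π₀ = ϑ(σ) π₀` with `ϑ(σ) ∈ K0` -/
lemma lfe_theta_mem_K0 (hπ₀ : π₀ ^ (𝔓.p ^ 2 - 1) = -(𝔓.p : Qb)) (σ : GQ) :
    σ π₀ / π₀ ∈ 𝔓.K0 := by
  rw [𝔓.mem_K0_iff]
  intro τ hτ
  exact ss_theta_fixed hπ₀ hτ σ

lemma lfe_apply_eq (hπ₀ : π₀ ^ (𝔓.p ^ 2 - 1) = -(𝔓.p : Qb)) (σ : GQ) :
    σ π₀ = (σ π₀ / π₀) * π₀ := by
  rw [div_mul_cancel₀ _ (ss_pi_ne_zero hπ₀)]

/-- an element of the inertia group fixing `π₀` fixes all conjugates of `π₀` -/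
lemma lfe_fix_conj (hπ₀ : π₀ ^ (𝔓.p ^ 2 - 1) = -(𝔓.p : Qb)) {τ : GQ}
    (hτ : τ ∈ (lfAdjoin 𝔓.K0 π₀).fixingSubgroup) (σ : GQ) : τ (σ π₀) = σ π₀ := by
  rw [lf_mem_E0_fix_iff] at hτ
  rw [𝔓.lfe_apply_eq hπ₀ σ, map_mul, hτ.2, ss_theta_fixed hπ₀ hτ.1 σ]

/-- `Gal(ℚ̄/E0)` is normalised by the decomposition group -/
theorem lf_E0_normal (hπ₀ : π₀ ^ (𝔓.p ^ 2 - 1) = -(𝔓.p : Qb)) {σ : GQ} (hσ : σ ∈ 𝔓.D) {τ : GQ}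
    (hτ : τ ∈ (lfAdjoin 𝔓.K0 π₀).fixingSubgroup) :
    σ * τ * σ⁻¹ ∈ (lfAdjoin 𝔓.K0 π₀).fixingSubgroup := by
  have hτ' := (𝔓.lf_mem_E0_fix_iff π₀ τ).mp hτ
  rw [lf_mem_E0_fix_iff]
  refine ⟨𝔓.conj_mem_I hσ hτ'.1, ?_⟩
  rw [AlgEquiv.mul_apply, AlgEquiv.mul_apply, 𝔓.lfe_fix_conj hπ₀ hτ σ⁻¹, ← AlgEquiv.mul_apply,
    mul_inv_cancel, AlgEquiv.one_apply]

theorem lf_E0_normal' (hπ₀ : π₀ ^ (𝔓.p ^ 2 - 1) = -(𝔓.p : Qb)) {σ : GQ} (hσ : σ ∈ 𝔓.D) {τ : GQ}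
    (hτ : τ ∈ (lfAdjoin 𝔓.K0 π₀).fixingSubgroup) :
    σ⁻¹ * τ * σ ∈ (lfAdjoin 𝔓.K0 π₀).fixingSubgroup := by
  have := 𝔓.lf_E0_normal hπ₀ (𝔓.D.inv_mem hσ) hτ
  rwa [inv_inv] at this

/-- the inertia group is abelian modulo `Gal(ℚ̄/E0)` -/
theorem lf_E0_comm (hπ₀ : π₀ ^ (𝔓.p ^ 2 - 1) = -(𝔓.p : Qb)) {g h : GQ} (hg : g ∈ 𝔓.I)
    (hh : h ∈ 𝔓.I) : g * h * g⁻¹ * h⁻¹ ∈ (lfAdjoin 𝔓.K0 π₀).fixingSubgroup := by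
  rw [lf_mem_E0_fix_iff]
  refine ⟨𝔓.I.mul_mem (𝔓.I.mul_mem (𝔓.I.mul_mem hg hh) (𝔓.I.inv_mem hg)) (𝔓.I.inv_mem hh), ?_⟩
  -- the tame character `ϑ : I → ℚ̄ˣ` kills commutators
  have h1 : ssTheta hπ₀ ((⟨g, hg⟩ : ↥𝔓.I) * ⟨h, hh⟩ * (⟨g, hg⟩ : ↥𝔓.I)⁻¹ * (⟨h, hh⟩ : ↥𝔓.I)⁻¹) = 1 := by
    rw [map_mul, map_mul, map_mul, map_inv, map_inv,
      mul_comm (ssTheta hπ₀ ⟨g, hg⟩) (ssTheta hπ₀ ⟨h, hh⟩), mul_inv_cancel_right, mul_inv_cancel]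
  have h2 := (mem_ssFix hπ₀ _).mp (MonoidHom.mem_ker.mpr h1)
  exact h2

end FFPlace

end Fermat.Agent.TW
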