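/-
P10 / G7 WP-E (helper9), KS-eps part 1: the level of an inertia-invariant Kummer class over
`E0 = K0(π₀)`, `π₀ ^ (p² - 1) = -p`, `p ≠ 2`.

If `χ : Gal(ℚ̄/E0) → ZMod p` is invariant under conjugation by the inertia group and `y` is a Kummer
generator of `χ`, then `y ∈ E0`, or `y ^ p` has level exactly `p + 1` modulo `p`-th powers
(`lfe_level`): the inertia group acts on `y ^ p` modulo `p`-th powers through the cyclotomic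
character `ω = ϑ ^ (p + 1)` and on the graded piece of level `i` through `ϑ ^ i`.
-/
import Fermat.Agent.Lib.TW.LF.E0Group
import Fermat.Agent.Lib.TW.LF.KummerBreak
import Fermat.Agent.Lib.TW.LF.KummerRel
import Fermat.Agent.Lib.TW.LF.UnitFiltration
import Fermat.Agent.Lib.TW.LF.KummerEquiv

set_option autoImplicit false
set_option linter.style.haveILetI false

namespace Fermat.Agent.TW

open Fermat.Agent.S05Lib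

local notation "Qb" => AlgebraicClosure ℚ
local notation "GQ" => (AlgebraicClosure ℚ ≃ₐ[ℚ] AlgebraicClosure ℚ)

namespace FFPlace

variable (𝔓 : FFPlace) {π₀ ζ : Qb}

lemma lfe_cast_e : ((𝔓.p ^ 2 - 1 : ℕ) : ℚ) = (𝔓.p : ℚ) ^ 2 - 1 := by
  have h1 : 1 ≤ 𝔓.p ^ 2 := Nat.one_le_pow _ _ 𝔓.hp.pos
  rw [Nat.cast_sub h1]
  push_cast
  ring

lemma lfe_not_dvd_e : ¬ 𝔓.p ∣ 𝔓.p ^ 2 - 1 := by
  have h := 𝔓.ss_coprime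
  rw [Nat.coprime_comm, Nat.Prime.coprime_iff_not_dvd 𝔓.hp] at h
  exact h

/-- a generator of the tame quotient: `g₁ π₀ = ξ π₀` with `ξ` a primitive `(p² - 1)`-th root of
unity -/
lemma lfe_exists_gen (hπ₀ : π₀ ^ (𝔓.p ^ 2 - 1) = -(𝔓.p : Qb)) :
    ∃ (ξ : Qb) (g₁ : GQ), IsPrimitiveRoot ξ (𝔓.p ^ 2 - 1) ∧ g₁ ∈ 𝔓.I ∧ g₁ π₀ = ξ * π₀ := by
  haveI : NeZero (𝔓.p ^ 2 - 1) := ⟨𝔓.ss_sq_sub_one_pos.ne'⟩
  obtain ⟨ξ, hξ⟩ := HasEnoughRootsOfUnity.exists_primitiveRoot Qb (𝔓.p ^ 2 - 1)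
  obtain ⟨-, -, -, htame⟩ := 𝔓.lf_E0 hπ₀
  obtain ⟨g₁, hg₁, hg₁π⟩ := htame ξ hξ.pow_eq_one
  exact ⟨ξ, g₁, hξ, hg₁, hg₁π⟩

/-- the inertia group acts on `ζ_p` through `ϑ ^ (p + 1)` -/
lemma lfe_theta_cyc (hπ₀ : π₀ ^ (𝔓.p ^ 2 - 1) = -(𝔓.p : Qb)) (hζ : IsPrimitiveRoot ζ 𝔓.p)
    {g : GQ} (hg : g ∈ 𝔓.I) {a : ℕ} (ha : g ζ = ζ ^ a) :
    𝔓.v.Gt ((g π₀ / π₀) ^ (𝔓.p + 1) - (a : Qb)) 0 := by
  obtain ⟨hunif, he, -, -⟩ := 𝔓.lf_E0 hπ₀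
  have hp1 : (1 : ℚ) < 𝔓.p := by exact_mod_cast 𝔓.hp.one_lt
  have hordπ : 𝔓.v.ord π₀ = 1 / ((𝔓.p : ℚ) ^ 2 - 1) := by
    rw [𝔓.lfe_cast_e] at he
    have : (𝔓.p : ℚ) ^ 2 - 1 ≠ 0 := by nlinarith
    field_simp
    linarith
  have hπ₁ : 𝔓.v.Is (π₀ ^ (𝔓.p + 1)) (1 / ((𝔓.p : ℚ) - 1)) := by
    have hπ₀is : 𝔓.v.Is π₀ (1 / ((𝔓.p : ℚ) ^ 2 - 1)) := ⟨hunif.ne_zero, hordπ⟩
    refine (hπ₀is.pow (𝔓.p + 1)).congr ?_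
    have h1 : (𝔓.p : ℚ) - 1 ≠ 0 := by linarith
    have h2 : (𝔓.p : ℚ) + 1 ≠ 0 := by linarith
    have h3 : (𝔓.p : ℚ) ^ 2 - 1 = ((𝔓.p : ℚ) - 1) * ((𝔓.p : ℚ) + 1) := by ring
    rw [h3]
    push_cast
    field_simp
  have h := 𝔓.lf_gt_apply_div_sub hζ hg ha hπ₁
  rwa [map_pow, ← div_pow] at h

variable {𝔓}

/-- the inertia group acts on an invariant Kummer class through the cyclotomic character -/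
lemma lfe_conj_eq (hπ₀ : π₀ ^ (𝔓.p ^ 2 - 1) = -(𝔓.p : Qb)) (hζ : IsPrimitiveRoot ζ 𝔓.p)
    (χ : GQ → ZMod 𝔓.p)
    (hinv : ∀ g ∈ 𝔓.I, ∀ τ ∈ (lfAdjoin 𝔓.K0 π₀).fixingSubgroup, χ (g * τ * g⁻¹) = χ τ)
    {y : Qb} (hy0 : y ≠ 0)
    (hy : ∀ σ ∈ (lfAdjoin 𝔓.K0 π₀).fixingSubgroup, σ y = lfZPow ζ (χ σ) * y)
    {g : GQ} (hg : g ∈ 𝔓.I) {a : ZMod 𝔓.p} (ha : g ζ = lfZPow ζ a) :
    ∃ w ∈ lfAdjoin 𝔓.K0 π₀, g (y ^ 𝔓.p) = (y ^ 𝔓.p) ^ a.val * w ^ 𝔓.p := by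
  haveI := 𝔓.lfFactPrime
  have hgE : ∀ σ ∈ (lfAdjoin 𝔓.K0 π₀).fixingSubgroup,
      g⁻¹ * σ * g ∈ (lfAdjoin 𝔓.K0 π₀).fixingSubgroup :=
    fun σ hσ => 𝔓.lf_E0_normal' hπ₀ (𝔓.I_le_D hg) hσ
  have h1 := lf_kummer_conj (lfAdjoin 𝔓.K0 π₀) hζ.pow_eq_one χ hy g hgE ha
  have h1' : ∀ σ ∈ (lfAdjoin 𝔓.K0 π₀).fixingSubgroup, σ (g y) = lfZPow ζ (a * χ σ) * g y := by
    intro σ hσ
    have h2 := hinv g⁻¹ (𝔓.I.inv_mem hg) σ hσ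
    rw [inv_inv] at h2
    rw [h1 σ hσ, h2]
  have h2 := lf_kummer_pow (lfAdjoin 𝔓.K0 π₀) hζ.pow_eq_one χ hy a
  have h3 : g y / y ^ a.val ∈ lfAdjoin 𝔓.K0 π₀ :=
    lf_kummer_div_mem (lfAdjoin 𝔓.K0 π₀) hζ.pow_eq_one (fun σ => a * χ σ) h2 h1'
  refine ⟨g y / y ^ a.val, h3, ?_⟩
  have hya : y ^ a.val ≠ 0 := pow_ne_zero _ hy0
  rw [map_pow, div_pow, ← pow_mul, ← pow_mul, mul_comm 𝔓.p a.val,
    mul_div_cancel₀ _ (pow_ne_zero _ hy0)]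

/-- **the level of an inertia-invariant Kummer class over `E0`** -/
theorem lfe_level (hp2 : 𝔓.p ≠ 2) (hπ₀ : π₀ ^ (𝔓.p ^ 2 - 1) = -(𝔓.p : Qb))
    (hζ : IsPrimitiveRoot ζ 𝔓.p) (χ : GQ → ZMod 𝔓.p)
    (hinv : ∀ g ∈ 𝔓.I, ∀ τ ∈ (lfAdjoin 𝔓.K0 π₀).fixingSubgroup, χ (g * τ * g⁻¹) = χ τ)
    {y : Qb} (hy0 : y ≠ 0)
    (hy : ∀ σ ∈ (lfAdjoin 𝔓.K0 π₀).fixingSubgroup, σ y = lfZPow ζ (χ σ) * y) :
    y ∈ lfAdjoin 𝔓.K0 π₀ ∨ ∃ w ∈ lfAdjoin 𝔓.K0 π₀, w ≠ 0 ∧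
      𝔓.v.Is (y ^ 𝔓.p / w ^ 𝔓.p - 1) (((𝔓.p + 1 : ℕ) : ℚ) / ((𝔓.p ^ 2 - 1 : ℕ) : ℚ)) := by
  haveI := 𝔓.lfFactPrime
  have hp := 𝔓.hp
  have hp3 : 3 ≤ 𝔓.p := by
    have := hp.two_le
    omega
  obtain ⟨hunif, he, hζmem, -⟩ := 𝔓.lf_E0 hπ₀
  have hE : 𝔓.K0 ≤ lfAdjoin 𝔓.K0 π₀ := lf_le_adjoin _ _
  have hζE := hζmem ζ hζ
  have hπ0 := ss_pi_ne_zero hπ₀
  have hu : y ^ 𝔓.p ∈ lfAdjoin 𝔓.K0 π₀ :=
    lf_kummer_pow_mem (lfAdjoin 𝔓.K0 π₀) hζ.pow_eq_one χ hy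
  have hu0 : y ^ 𝔓.p ≠ 0 := pow_ne_zero _ hy0
  -- the generator of the tame quotient
  obtain ⟨ξ, g₁, hξ, hg₁, hg₁π⟩ := 𝔓.lfe_exists_gen hπ₀
  obtain ⟨a, ha⟩ : ∃ a : ZMod 𝔓.p, g₁ ζ = lfZPow ζ a :=
    lf_exists_eq_lfZPow hζ (by rw [← map_pow, hζ.pow_eq_one, map_one])
  have hθ : g₁ π₀ / π₀ = ξ := by rw [hg₁π, mul_div_assoc, div_self hπ0, mul_one]
  have hcyc : 𝔓.v.Gt (ξ ^ (𝔓.p + 1) - ((a.val : ℕ) : Qb)) 0 := by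
    have := 𝔓.lfe_theta_cyc hπ₀ hζ hg₁ (a := a.val) ha
    rwa [hθ] at this
  have hpe := 𝔓.lfe_not_dvd_e
  have hξe : ∀ k : ℕ, (ξ ^ k) ^ (𝔓.p ^ 2 - 1) = 1 := fun k => by
    rw [← pow_mul, mul_comm, pow_mul, hξ.pow_eq_one, one_pow]
  -- congruent powers of `ξ` are equal
  have key : ∀ i : ℕ, 𝔓.v.Gt (ξ ^ i - ((a.val : ℕ) : Qb)) 0 → ξ ^ i = ξ ^ (𝔓.p + 1) := by
    intro i hi
    by_contra hne
    have h1 := 𝔓.lf_is_sub_of_pow_eq_one hpe (hξe i) (hξe (𝔓.p + 1)) hne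
    have h2 : 𝔓.v.Gt (ξ ^ i - ξ ^ (𝔓.p + 1)) 0 := by
      have := hi.sub hcyc
      rwa [sub_sub_sub_cancel_right] at this
    exact h1.not_gt h2 le_rfl
  -- `ξ ^ (p + 1) ≠ 1`
  have hξ1 : ξ ^ (𝔓.p + 1) ≠ 1 := by
    intro h1
    have h2 := hξ.dvd_of_pow_eq_one _ h1
    have h3 := Nat.le_of_dvd (by omega) h2
    have h4 : 𝔓.p ^ 2 = 𝔓.p * 𝔓.p := sq _
    have h5 : 3 * 𝔓.p ≤ 𝔓.p * 𝔓.p := Nat.mul_le_mul_right _ hp3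
    omega
  rcases 𝔓.lf_kummer_classify hE hunif he hζ hζE hu hu0 with
    ⟨n, hn, hun⟩ | ⟨w, hwE, hw0, h | ⟨i, hi0, hi, hlt, hIs⟩⟩
  · -- the non-unit case is impossible
    exfalso
    obtain ⟨w, hwE, hgw⟩ := lfe_conj_eq hπ₀ hζ χ hinv hy0 hy hg₁ ha
    have hw0 : w ≠ 0 := by
      rintro rfl
      rw [zero_pow hp.ne_zero, mul_zero] at hgw
      exact hu0 ((map_eq_zero g₁).mp hgw)
    have he0 : ((𝔓.p ^ 2 - 1 : ℕ) : ℚ) ≠ 0 := by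
      have := 𝔓.ss_sq_sub_one_pos
      exact_mod_cast this.ne'
    have hordπ : 𝔓.v.ord π₀ = 1 / ((𝔓.p ^ 2 - 1 : ℕ) : ℚ) := by
      field_simp
      linarith
    obtain ⟨k, hk⟩ := hunif.gen w hwE hw0
    have h1 : 𝔓.v.Is (g₁ (y ^ 𝔓.p)) ((n : ℚ) / ((𝔓.p ^ 2 - 1 : ℕ) : ℚ)) :=
      𝔓.is_D (𝔓.I_le_D hg₁) hun
    have hwis : 𝔓.v.Is w ((k : ℚ) * 𝔓.v.ord π₀) := ⟨hw0, hk⟩
    have h2 : 𝔓.v.Is ((y ^ 𝔓.p) ^ a.val * w ^ 𝔓.p)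
        ((a.val : ℚ) * ((n : ℚ) / ((𝔓.p ^ 2 - 1 : ℕ) : ℚ)) + (𝔓.p : ℚ) * ((k : ℚ) * 𝔓.v.ord π₀)) :=
      (hun.pow a.val).mul (hwis.pow 𝔓.p)
    rw [← hgw] at h2
    have h3 := h1.unique h2
    rw [hordπ] at h3
    have h4 : (n : ℚ) = (a.val : ℚ) * n + (𝔓.p : ℚ) * k := by
      field_simp at h3
      linarith
    have h5 : (n : ℤ) = (a.val : ℤ) * n + (𝔓.p : ℤ) * k := by exact_mod_cast h4
    have h6 : (𝔓.p : ℤ) ∣ (1 - (a.val : ℤ)) * n := ⟨k, by linarith⟩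
    have hpz : Prime (𝔓.p : ℤ) := Nat.prime_iff_prime_int.mp hp
    have h7 : (𝔓.p : ℤ) ∣ 1 - (a.val : ℤ) := (hpz.dvd_or_dvd h6).resolve_right hn
    have h8 : (1 : ℤ) - (a.val : ℤ) = 0 := by
      refine Int.eq_zero_of_abs_lt_dvd h7 ?_
      have := ZMod.val_lt a
      rw [abs_lt]
      constructor <;> omega
    have h9 : a.val = 1 := by omega
    rw [h9, Nat.cast_one] at hcyc
    have h10 : ξ ^ 0 = ξ ^ (𝔓.p + 1) := key 0 (by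
      rw [h9, Nat.cast_one, pow_zero, sub_self]
      exact QVal.gt_zero')
    rw [pow_zero] at h10
    exact hξ1 h10.symm
  · -- `y ^ p` is a `p`-th power in `E0`
    left
    have h1 : (y / w) ^ 𝔓.p = 1 := by rw [div_pow, h, div_self (pow_ne_zero _ hw0)]
    obtain ⟨b, hb⟩ := lf_exists_eq_lfZPow hζ h1
    have h2 : y = lfZPow ζ b * w := by rw [← hb, div_mul_cancel₀ _ hw0]
    rw [h2]
    exact mul_mem (pow_mem hζE _) hwE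
  · -- a class of level `i`: `ϑ ^ i = ω`
    right
    refine ⟨w, hwE, hw0, ?_⟩
    have hy'0 : y / w ≠ 0 := div_ne_zero hy0 hw0
    have hy' : ∀ σ ∈ (lfAdjoin 𝔓.K0 π₀).fixingSubgroup,
        σ (y / w) = lfZPow ζ (χ σ) * (y / w) := by
      intro σ hσ
      rw [map_div₀, hy σ hσ, mul_div_assoc]
      rw [IntermediateField.mem_fixingSubgroup_iff] at hσ
      rw [hσ w hwE]
    obtain ⟨w', hw'E, hgw'⟩ := lfe_conj_eq hπ₀ hζ χ hinv hy'0 hy' hg₁ ha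
    have hIs' : 𝔓.v.Is ((y / w) ^ 𝔓.p - 1) ((i : ℚ) / ((𝔓.p ^ 2 - 1 : ℕ) : ℚ)) := by
      rw [div_pow]
      exact hIs
    have h1 := 𝔓.lf_level_char hunif he hi hi0 hlt hIs' hg₁ hw'E hgw'
    rw [hθ] at h1
    have h2 := key i h1
    have hξ0 : ξ ≠ 0 := hξ.ne_zero 𝔓.ss_sq_sub_one_pos.ne'
    have h3 : ((𝔓.p ^ 2 - 1 : ℕ) : ℤ) ∣ (i : ℤ) - ((𝔓.p + 1 : ℕ) : ℤ) := by
      rw [← hξ.zpow_eq_one_iff_dvd, zpow_sub₀ hξ0, zpow_natCast, zpow_natCast, h2,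
        div_self (pow_ne_zero _ hξ0)]
    -- `i < p² + p`
    have h4 : i < 𝔓.p ^ 2 + 𝔓.p := by
      have hp1 : (1 : ℚ) < 𝔓.p := by exact_mod_cast hp.one_lt
      rw [𝔓.lfe_cast_e] at hlt
      have h5 : (0 : ℚ) < (𝔓.p : ℚ) ^ 2 - 1 := by nlinarith
      have h6 : (0 : ℚ) < (𝔓.p : ℚ) - 1 := by linarith
      rw [div_lt_div_iff₀ h5 h6] at hlt
      have h7 : (i : ℚ) < (𝔓.p : ℚ) ^ 2 + 𝔓.p := by
        have h8 : (𝔓.p : ℚ) * ((𝔓.p : ℚ) ^ 2 - 1) = ((𝔓.p : ℚ) ^ 2 + 𝔓.p) * ((𝔓.p : ℚ) - 1) := by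
          ring
        rw [h8] at hlt
        exact lt_of_mul_lt_mul_right hlt h6.le
      exact_mod_cast h7
    have h5 : i = 𝔓.p + 1 := by
      have h6 := h3
      have h7 : 𝔓.p ^ 2 = 𝔓.p * 𝔓.p := sq _
      have h8 : 3 * 𝔓.p ≤ 𝔓.p * 𝔓.p := Nat.mul_le_mul_right _ hp3
      have h9 : ((𝔓.p ^ 2 - 1 : ℕ) : ℤ) = (𝔓.p : ℤ) * 𝔓.p - 1 := by
        rw [Nat.cast_sub (by omega), h7]
        push_cast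
        ring
      rw [h9] at h6
      have h10 : (i : ℤ) - ((𝔓.p + 1 : ℕ) : ℤ) = 0 := by
        refine Int.eq_zero_of_abs_lt_dvd h6 ?_
        rw [abs_lt]
        have h11 : (3 : ℤ) * 𝔓.p ≤ (𝔓.p : ℤ) * 𝔓.p := by exact_mod_cast h8
        have h12 : (i : ℤ) < (𝔓.p : ℤ) * 𝔓.p + 𝔓.p := by
          rw [h7] at h4
          exact_mod_cast h4
        have h13 : (0 : ℤ) < i := by exact_mod_cast hi0
        have h14 : (3 : ℤ) ≤ 𝔓.p := by exact_mod_cast hp3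
        push_cast
        constructor <;> linarith
      have : (i : ℤ) = ((𝔓.p + 1 : ℕ) : ℤ) := by linarith
      exact_mod_cast this
    rw [← h5]
    exact hIs

end FFPlace

end Fermat.Agent.TW
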