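/-
P10 / G7 WP-E (helper9), KS-eps: the local-field input of the `ε`-step of the supersingular flat
computation.

`E0 = K0(π₀)`, `π₀ ^ (p² - 1) = -p`, `p ≠ 2`.  Let `γ : Gal(ℚ̄/E0) → V` be a continuous
homomorphism to a finite `𝔽_p`-vector space which is invariant under conjugation by the inertia
group and anti-invariant under a Frobenius element.  Then every `τ ∈ Gal(ℚ̄/E0)` moves every
integer `z` of the field cut out by `γ` by at least `p / (p² - 1)` (`lfe_ss_eps`; helper5's `Lib/TW/LF/SS.lean` has the same statement as `FFPlace.lf_ss_eps`):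
* all Kummer classes of `γ` have level exactly `p + 1` (`lfe_level`);
* the count (`LFCountHyp.card_span_le` with `R = {1, φ}`, `S = (id, -id)`) shows that the image of
  `γ` is cyclic, so that the field cut out by `γ` is `E0(y)` for a single Kummer generator `y`;
* `lf_kummer_unit_ge` with `i = p + 1`: `1/(pe) + 1/(p-1) - (p+1)/(pe) = p/(p²-1)`.
-/
import Fermat.Agent.Lib.TW.LF.SSEpsLevel

set_option autoImplicit false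
set_option linter.style.haveILetI false

namespace Fermat.Agent.TW

open Fermat.Agent.S05Lib

local notation "Qb" => AlgebraicClosure ℚ
local notation "GQ" => (AlgebraicClosure ℚ ≃ₐ[ℚ] AlgebraicClosure ℚ)

namespace FFPlace

variable (𝔓 : FFPlace)

/-- the hypotheses of the counting lemma, for an inertia-invariant `γ` -/
lemma lfe_countHyp (hp2 : 𝔓.p ≠ 2) {π₀ ζ : Qb} (hπ₀ : π₀ ^ (𝔓.p ^ 2 - 1) = -(𝔓.p : Qb))
    (hζ : IsPrimitiveRoot ζ 𝔓.p)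
    {V : Type*} [AddCommGroup V] [Module (ZMod 𝔓.p) V] (γ : GQ → V)
    (hadd : ∀ σ ∈ (lfAdjoin 𝔓.K0 π₀).fixingSubgroup, ∀ τ ∈ (lfAdjoin 𝔓.K0 π₀).fixingSubgroup,
      γ (σ * τ) = γ σ + γ τ)
    (hcont : ∃ F : IntermediateField ℚ Qb, FiniteDimensional ℚ F ∧
      ∀ σ ∈ (lfAdjoin 𝔓.K0 π₀).fixingSubgroup, σ ∈ F.fixingSubgroup → γ σ = 0)
    (hinv : ∀ g ∈ 𝔓.I, ∀ τ ∈ (lfAdjoin 𝔓.K0 π₀).fixingSubgroup, γ (g * τ * g⁻¹) = γ τ) :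
    𝔓.LFCountHyp (lfAdjoin 𝔓.K0 π₀) π₀ (𝔓.p ^ 2 - 1) ζ (𝔓.p + 1) γ := by
  obtain ⟨hunif, he, hζmem, -⟩ := 𝔓.lf_E0 hπ₀
  have hp := 𝔓.hp
  have hp1 : (1 : ℚ) < 𝔓.p := by exact_mod_cast hp.one_lt
  refine ⟨hunif, he, hζ, hζmem ζ hζ, ?_, Nat.succ_pos _, ?_, hadd, hcont, ?_⟩
  · intro h
    have h1 : 𝔓.p ∣ 1 := (Nat.dvd_add_right (dvd_refl 𝔓.p)).mp h
    exact hp.one_lt.ne' (Nat.dvd_one.mp h1)
  · rw [𝔓.lfe_cast_e]
    have h5 : (0 : ℚ) < (𝔓.p : ℚ) ^ 2 - 1 := by nlinarith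
    have h6 : (0 : ℚ) < (𝔓.p : ℚ) - 1 := by linarith
    rw [div_lt_div_iff₀ h5 h6]
    push_cast
    nlinarith
  · intro ℓ y hy0 hy
    exact lfe_level hp2 hπ₀ hζ (fun σ => ℓ (γ σ))
      (fun g hg τ hτ => by rw [hinv g hg τ hτ]) hy0 hy

/-- **(COUNT for KS-eps)**: the image of `γ` spans at most a line -/
theorem lfe_card_span_le (hp2 : 𝔓.p ≠ 2) {π₀ : Qb} (hπ₀ : π₀ ^ (𝔓.p ^ 2 - 1) = -(𝔓.p : Qb))
    {V : Type*} [AddCommGroup V] [Module (ZMod 𝔓.p) V] [Finite V] (γ : GQ → V)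
    (hadd : ∀ σ ∈ (lfAdjoin 𝔓.K0 π₀).fixingSubgroup, ∀ τ ∈ (lfAdjoin 𝔓.K0 π₀).fixingSubgroup,
      γ (σ * τ) = γ σ + γ τ)
    (hcont : ∃ F : IntermediateField ℚ Qb, FiniteDimensional ℚ F ∧
      ∀ σ ∈ (lfAdjoin 𝔓.K0 π₀).fixingSubgroup, σ ∈ F.fixingSubgroup → γ σ = 0)
    (hinv : ∀ g ∈ 𝔓.I, ∀ τ ∈ (lfAdjoin 𝔓.K0 π₀).fixingSubgroup, γ (g * τ * g⁻¹) = γ τ)
    {φ : GQ} (hφ : 𝔓.P.IsFrobeniusAt φ 𝔓.p)
    (hanti : ∀ τ ∈ (lfAdjoin 𝔓.K0 π₀).fixingSubgroup, γ (φ * τ * φ⁻¹) = -γ τ) :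
    Nat.card ↥(Submodule.span (ZMod 𝔓.p)
      {x : V | ∃ σ ∈ (lfAdjoin 𝔓.K0 π₀).fixingSubgroup, γ σ = x}) ≤ 𝔓.p := by
  haveI := 𝔓.lfFactPrime
  haveI : NeZero 𝔓.p := ⟨𝔓.hp.ne_zero⟩
  obtain ⟨ζ, hζ⟩ := HasEnoughRootsOfUnity.exists_primitiveRoot Qb 𝔓.p
  have H := 𝔓.lfe_countHyp hp2 hπ₀ hζ γ hadd hcont hinv
  have hφD : φ ∈ 𝔓.D := 𝔓.frob_mem_D hφ
  have hgD : ∀ r : Bool, cond r φ 1 ∈ 𝔓.D := by
    intro r
    cases r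
    · exact 𝔓.D.one_mem
    · exact hφD
  have h := H.card_span_le (Finset.univ : Finset Bool) (fun r => cond r φ 1)
    (fun r _ => hgD r)
    (fun r _ σ hσ => 𝔓.lf_E0_normal' hπ₀ (hgD r) hσ)
    (fun r => cond r (-LinearMap.id) LinearMap.id)
    (fun r _ σ hσ => by
      cases r
      · simp
      · have h1 := hanti (φ⁻¹ * σ * φ) (𝔓.lf_E0_normal' hπ₀ hφD hσ)
        have h2 : φ * (φ⁻¹ * σ * φ) * φ⁻¹ = σ := by group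
        rw [h2] at h1
        simp only [cond_true, LinearMap.neg_apply, LinearMap.id_coe, id_eq]
        rw [h1, neg_neg])
    (fun r => cond r 1 0)
    (fun r _ x hx => by
      cases r
      · simp only [cond_false, AlgEquiv.one_apply, pow_zero, pow_one, sub_self]
        exact QVal.gt_zero'
      · simp only [cond_true, pow_one]
        exact 𝔓.gt_frob_sub hφ hx)
    (fun _ => 1)
    (by
      rw [Fintype.sum_bool]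
      simp)
    (Finset.mem_univ true) one_ne_zero
    (fun r _ hr => by
      cases r
      · simp
      · exact absurd rfl hr)
  simpa using h

/-- **(KS-eps)** -/
theorem lfe_ss_eps (hp2 : 𝔓.p ≠ 2) {π₀ : Qb} (hπ₀ : π₀ ^ (𝔓.p ^ 2 - 1) = -(𝔓.p : Qb))
    {V : Type*} [AddCommGroup V] [Module (ZMod 𝔓.p) V] [Finite V] (γ : GQ → V)
    (hadd : ∀ σ ∈ (lfAdjoin 𝔓.K0 π₀).fixingSubgroup, ∀ τ ∈ (lfAdjoin 𝔓.K0 π₀).fixingSubgroup,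
      γ (σ * τ) = γ σ + γ τ)
    (hcont : ∃ F : IntermediateField ℚ Qb, FiniteDimensional ℚ F ∧
      ∀ σ ∈ (lfAdjoin 𝔓.K0 π₀).fixingSubgroup, σ ∈ F.fixingSubgroup → γ σ = 0)
    (hinv : ∀ g ∈ 𝔓.I, ∀ τ ∈ (lfAdjoin 𝔓.K0 π₀).fixingSubgroup, γ (g * τ * g⁻¹) = γ τ)
    {φ : GQ} (hφ : 𝔓.P.IsFrobeniusAt φ 𝔓.p)
    (hanti : ∀ τ ∈ (lfAdjoin 𝔓.K0 π₀).fixingSubgroup, γ (φ * τ * φ⁻¹) = -γ τ)
    {τ : GQ} (hτ : τ ∈ (lfAdjoin 𝔓.K0 π₀).fixingSubgroup) {z : Qb} (hz : 𝔓.v.Ge z 0)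
    (hfix : ∀ σ ∈ (lfAdjoin 𝔓.K0 π₀).fixingSubgroup, γ σ = 0 → σ z = z) :
    𝔓.v.Ge (τ z - z) ((𝔓.p : ℚ) / ((𝔓.p : ℚ) ^ 2 - 1)) := by
  haveI := 𝔓.lfFactPrime
  haveI : NeZero 𝔓.p := ⟨𝔓.hp.ne_zero⟩
  have hp := 𝔓.hp
  have hp1 : (1 : ℚ) < 𝔓.p := by exact_mod_cast hp.one_lt
  obtain ⟨ζ, hζ⟩ := HasEnoughRootsOfUnity.exists_primitiveRoot Qb 𝔓.p
  obtain ⟨hunif, he, hζmem, -⟩ := 𝔓.lf_E0 hπ₀
  have hE : 𝔓.K0 ≤ lfAdjoin 𝔓.K0 π₀ := lf_le_adjoin _ _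
  have H := 𝔓.lfe_countHyp hp2 hπ₀ hζ γ hadd hcont hinv
  -- the span of the image of `γ` is at most a line
  set A := Submodule.span (ZMod 𝔓.p)
    {x : V | ∃ σ ∈ (lfAdjoin 𝔓.K0 π₀).fixingSubgroup, γ σ = x} with hA
  have hγA : ∀ σ ∈ (lfAdjoin 𝔓.K0 π₀).fixingSubgroup, γ σ ∈ A :=
    fun σ hσ => Submodule.subset_span ⟨σ, hσ, rfl⟩
  have hcard := 𝔓.lfe_card_span_le hp2 hπ₀ γ hadd hcont hinv hφ hanti
  have hrank : Module.finrank (ZMod 𝔓.p) ↥A ≤ 1 := by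
    rw [← hA, Module.natCard_eq_pow_finrank (K := ZMod 𝔓.p), Nat.card_zmod] at hcard
    have h1 : 𝔓.p ^ Module.finrank (ZMod 𝔓.p) ↥A ≤ 𝔓.p ^ 1 := by rwa [pow_one]
    exact (Nat.pow_le_pow_iff_right hp.one_lt).mp h1
  obtain ⟨a, ha⟩ := finrank_le_one_iff.mp hrank
  -- a functional which is injective on the line
  obtain ⟨ℓ, hℓ⟩ : ∃ ℓ : V →ₗ[ZMod 𝔓.p] ZMod 𝔓.p, ∀ x ∈ A, ℓ x = 0 → x = 0 := by
    by_cases ha0 : (a : V) = 0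
    · refine ⟨0, fun x hx _ => ?_⟩
      obtain ⟨c, hc⟩ := ha ⟨x, hx⟩
      have := congrArg Subtype.val hc
      simp only [Submodule.coe_smul] at this
      rw [← this, ha0, smul_zero]
    · have h1 : ¬ ∀ φ' : Module.Dual (ZMod 𝔓.p) V, φ' (a : V) = 0 := by
        rw [Module.forall_dual_apply_eq_zero_iff]
        exact ha0
      push Not at h1
      obtain ⟨ℓ, hℓa⟩ := h1
      refine ⟨ℓ, fun x hx hx0 => ?_⟩
      obtain ⟨c, hc⟩ := ha ⟨x, hx⟩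
      have h2 := congrArg Subtype.val hc
      simp only [Submodule.coe_smul] at h2
      rw [← h2, map_smul, smul_eq_mul] at hx0
      rcases mul_eq_zero.mp hx0 with h3 | h3
      · rw [← h2, h3, zero_smul]
      · exact absurd h3 hℓa
  -- a Kummer generator of `ℓ ∘ γ`
  obtain ⟨F, hFfin, hF⟩ := hcont
  haveI := hFfin
  obtain ⟨y, hy0, -, hy⟩ := lf_kummer_exists (lfAdjoin 𝔓.K0 π₀) hζ.pow_eq_one (hζmem ζ hζ)
    (fun σ => ℓ (γ σ)) (by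
      intro σ hσ τ' hτ'
      rw [hadd σ hσ τ' hτ', map_add]) F (by
      intro σ hσ hσF
      rw [hF σ hσ hσF, map_zero])
  rcases H.lev ℓ y hy0 hy with hyE | ⟨w, hwE, hw0, hlev⟩
  · -- `γ = 0`
    have h0 := H.zero_of_mem hy0 hy hyE τ hτ
    have h1 := hℓ _ (hγA τ hτ) h0
    left
    rw [hfix τ hτ h1, sub_self]
  · -- the field cut out by `γ` is `E0(y / w)`
    have hy'0 : y / w ≠ 0 := div_ne_zero hy0 hw0
    have hy' : ∀ σ ∈ (lfAdjoin 𝔓.K0 π₀).fixingSubgroup,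
        σ (y / w) = lfZPow ζ (ℓ (γ σ)) * (y / w) := by
      intro σ hσ
      rw [map_div₀, hy σ hσ, mul_div_assoc]
      rw [IntermediateField.mem_fixingSubgroup_iff] at hσ
      rw [hσ w hwE]
    have hzmem : z ∈ lfAdjoin (lfAdjoin 𝔓.K0 π₀) (y / w) := by
      rw [FFPlace.lf_mem_iff_forall]
      intro σ hσ
      rw [lf_kummer_fixingSubgroup (lfAdjoin 𝔓.K0 π₀) hζ (fun σ => ℓ (γ σ)) hy'0 hy' σ] at hσ
      exact hfix σ hσ.1 (hℓ _ (hγA σ hσ.1) hσ.2)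
    have hu : (y / w) ^ 𝔓.p ∈ lfAdjoin 𝔓.K0 π₀ :=
      lf_kummer_pow_mem (lfAdjoin 𝔓.K0 π₀) hζ.pow_eq_one (fun σ => ℓ (γ σ)) hy'
    have hui : 𝔓.v.Is ((y / w) ^ 𝔓.p - 1) (((𝔓.p + 1 : ℕ) : ℚ) / ((𝔓.p ^ 2 - 1 : ℕ) : ℚ)) := by
      rw [div_pow]
      exact hlev
    have hb := 𝔓.lf_kummer_unit_ge hE hunif he hu rfl H.hi H.hi0 hui H.hlt hτ hzmem hz
    refine hb.mono (le_of_eq ?_)
    rw [𝔓.lfe_cast_e]
    have h5 : (𝔓.p : ℚ) ^ 2 - 1 ≠ 0 := by nlinarith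
    have h6 : (𝔓.p : ℚ) - 1 ≠ 0 := by linarith
    have h7 : (𝔓.p : ℚ) ≠ 0 := by linarith
    push_cast
    field_simp
    ring

end FFPlace

end Fermat.Agent.TW
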